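import Fermat.Agent.S53.Dictionary

set_option autoImplicit false
set_option linter.unusedSectionVars false

noncomputable section

namespace Fermat.Agent.S53

open IsLocalRing GaloisRep

namespace Clos

/-- The maximal ideal of an Artinian local ring is nilpotent. -/
theorem exists_pow_maximalIdeal_eq_bot (A : Type) [CommRing A] [IsLocalRing A]
    [IsArtinianRing A] : ∃ n : ℕ, maximalIdeal A ^ n = ⊥ := by
  have h := IsArtinianRing.isNilpotent_jacobson_bot (R := A)
  rw [IsLocalRing.jacobson_eq_maximalIdeal ⊥ bot_ne_top] at h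
  exact h

/-- A ring hom out of a local ring with nilpotent maximal ideal into a local ring is local. -/
theorem isLocalHom_of_pow_eq_bot {A B : Type} [CommRing A] [IsLocalRing A] [CommRing B]
    [IsLocalRing B] (φ : A →+* B) (n : ℕ) (hn : maximalIdeal A ^ n = ⊥) : IsLocalHom φ := by
  constructor
  intro a ha
  by_contra hna
  have hmem : a ∈ maximalIdeal A := (mem_maximalIdeal a).mpr hna
  have h0 : a ^ n = 0 := by
    have h1 := Ideal.pow_mem_pow hmem n
    rw [hn] at h1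
    exact (Ideal.mem_bot).mp h1
  have h2 : IsUnit (φ a ^ n) := ha.pow n
  rw [← map_pow, h0, map_zero] at h2
  exact not_isUnit_zero h2

/-- A ring hom out of an Artinian local ring into a local ring is local. -/
theorem isLocalHom_of_isArtinianRing {A B : Type} [CommRing A] [IsLocalRing A] [CommRing B]
    [IsLocalRing B] [IsArtinianRing A] (φ : A →+* B) : IsLocalHom φ := by
  obtain ⟨n, hn⟩ := exists_pow_maximalIdeal_eq_bot A
  exact isLocalHom_of_pow_eq_bot φ n hn

/-- A local hom maps the maximal ideal into the maximal ideal. -/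
theorem map_mem_maximalIdeal {A B : Type} [CommRing A] [IsLocalRing A] [CommRing B]
    [IsLocalRing B] (φ : A →+* B) (hφ : IsLocalHom φ) {a : A} (ha : a ∈ maximalIdeal A) :
    φ a ∈ maximalIdeal B := by
  have := hφ
  exact map_nonunit φ a ha

/-- A local hom reflects membership in the maximal ideal. -/
theorem mem_maximalIdeal_of_map {A B : Type} [CommRing A] [IsLocalRing A] [CommRing B]
    [IsLocalRing B] (φ : A →+* B) {a : A} (ha : φ a ∈ maximalIdeal B) :
    a ∈ maximalIdeal A := by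
  rw [mem_maximalIdeal] at ha ⊢
  exact fun hu => ha (hu.map φ)

/-- Pushing forward a lift along a local algebra hom gives a lift. -/
theorem isLift_mapHom {𝒪 : Type} [CommRing 𝒪] {A : Type} [CommRing A] [IsLocalRing A]
    [Algebra 𝒪 A] {B : Type} [CommRing B] [IsLocalRing B] [Algebra 𝒪 B] {rt : Gal → M2 𝒪}
    {r : Gal →* M2 A} (hl : IsLift rt r) (φ : A →ₐ[𝒪] B) (hφ : IsLocalHom (φ : A →+* B)) :
    IsLift rt (mapHom (φ : A →+* B) r) := by
  intro σ i j
  have h := map_mem_maximalIdeal (φ : A →+* B) hφ (hl σ i j)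
  rw [map_sub] at h
  have h2 : (φ : A →+* B) (algebraMap 𝒪 A (rt σ i j)) = algebraMap 𝒪 B (rt σ i j) :=
    φ.commutes _
  rw [h2] at h
  exact h

/-- Pushing forward a normalized representation along an algebra hom is normalized. -/
theorem isNormalized_mapHom {𝒪 : Type} [CommRing 𝒪] {A : Type} [CommRing A] [IsLocalRing A]
    [Algebra 𝒪 A] {B : Type} [CommRing B] [IsLocalRing B] [Algebra 𝒪 B] {rt : Gal → M2 𝒪}
    {sl : Fin 3 → Pos} {r : Gal →* M2 A} (hn : IsNormalized rt sl r) (φ : A →ₐ[𝒪] B) :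
    IsNormalized rt sl (mapHom (φ : A →+* B) r) := by
  intro a
  rw [mapHom_apply, hn a]
  exact φ.commutes _

end Clos

section Closure

variable {𝒪 : Type} [CommRing 𝒪] [IsLocalRing 𝒪]
variable {𝒟 : ∀ ⦃A : Type⦄ [CommRing A] [IsLocalRing A] [Algebra 𝒪 A], GaloisRepAdic A → Prop}
variable {rt : Gal → M2 𝒪} {sl : Fin 3 → Pos}
variable {A : Type} [CommRing A] [IsLocalRing A] [Algebra 𝒪 A]
variable {B : Type} [CommRing B] [IsLocalRing B] [Algebra 𝒪 B]

theorem NLift.map (h𝒟 : IsDeformationCondition 𝒪 𝒟) (hA : IsArtinianTestAlgebra 𝒪 A)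
    (hB : IsArtinianTestAlgebra 𝒪 B) (φ : A →ₐ[𝒪] B) {r : Gal →* M2 A}
    (hr : NLift 𝒟 rt sl r) : NLift 𝒟 rt sl (mapHom (φ : A →+* B) r) := by
  have hφ : IsLocalHom (φ : A →+* B) := by
    have := hA.isArtinian
    exact Clos.isLocalHom_of_isArtinianRing _
  have hc' : IsCont (mapHom (φ : A →+* B) r) := hr.cont.mapHom _ hφ
  exact ⟨Clos.isLift_mapHom hr.lift φ hφ, Clos.isNormalized_mapHom hr.norm φ, hc',
    h𝒟.of_isEquiv hB (toAdic_baseChangeAlong_isEquiv _ hφ r hr.cont hc')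
      (h𝒟.baseChangeAlong hA hB φ hφ hr.type)⟩

theorem NLift.of_map_injective (h𝒟 : IsDeformationCondition 𝒪 𝒟)
    (hA : IsArtinianTestAlgebra 𝒪 A) (hB : IsArtinianTestAlgebra 𝒪 B) (φ : A →ₐ[𝒪] B)
    (hφ : Function.Injective φ) {r : Gal →* M2 A}
    (hr : NLift 𝒟 rt sl (mapHom (φ : A →+* B) r)) : NLift 𝒟 rt sl r := by
  have hloc : IsLocalHom (φ : A →+* B) := by
    have := hA.isArtinian
    exact Clos.isLocalHom_of_isArtinianRing _
  have hl : IsLift rt r := by
    intro σ i j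
    apply Clos.mem_maximalIdeal_of_map (φ : A →+* B)
    have h := hr.lift σ i j
    rw [mapHom_apply] at h
    rw [map_sub]
    have h2 : (φ : A →+* B) (algebraMap 𝒪 A (rt σ i j)) = algebraMap 𝒪 B (rt σ i j) :=
      φ.commutes _
    rw [h2]
    exact h
  have hn : IsNormalized rt sl r := by
    intro a
    apply hφ
    have h := hr.norm a
    rw [mapHom_apply] at h
    exact h.trans (φ.commutes _).symm
  have hc : IsCont r := by
    have := hB.isArtinian
    obtain ⟨M, hM⟩ := Clos.exists_pow_maximalIdeal_eq_bot B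
    obtain ⟨L, hL, h⟩ := hr.cont M
    intro n
    refine ⟨L, hL, fun σ hσ i j => ?_⟩
    have h1 := h σ hσ i j
    rw [hM, Ideal.mem_bot] at h1
    have h2 : (mapHom (φ : A →+* B) r σ - 1) i j = φ ((r σ - 1) i j) := by
      simp only [Matrix.sub_apply, mapHom_apply, Matrix.one_apply, map_sub]
      split_ifs <;> simp
    rw [h2] at h1
    have h3 : (r σ - 1) i j = 0 := hφ (h1.trans (map_zero φ).symm)
    rw [h3]
    exact zero_mem _
  refine ⟨hl, hn, hc, ?_⟩
  obtain ⟨e⟩ := toAdic_baseChangeAlong_isEquiv (φ : A →+* B) hloc r hc hr.cont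
  exact h𝒟.of_baseChangeAlong_injective hA hB φ hloc hφ (h𝒟.of_isEquiv hB ⟨e.symm⟩ hr.type)

theorem type_of_isEquiv_complete (h𝒟 : IsDeformationCondition 𝒪 𝒟)
    [IsNoetherianRing A] [IsAdicComplete (maximalIdeal A) A] [IsLocalHom (algebraMap 𝒪 A)]
    (hsurj : Function.Surjective (residue A ∘ algebraMap 𝒪 A))
    {ρ ρ' : GaloisRepAdic A} (e : ρ.IsEquiv ρ') (h : 𝒟 ρ) : 𝒟 ρ' := by
  obtain ⟨e⟩ := e
  rw [h𝒟.iff_forall_surjective inferInstance hsurj] at h ⊢
  intro B _ _ _ hB q hq hqs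
  exact h𝒟.of_isEquiv hB ⟨e.baseChangeAlong (q : A →+* B) hq⟩ (h hB q hq hqs)

theorem NLift.map_complete (h𝒟 : IsDeformationCondition 𝒪 𝒟)
    [IsNoetherianRing A] [IsAdicComplete (maximalIdeal A) A] [IsLocalHom (algebraMap 𝒪 A)]
    (hsurj : Function.Surjective (residue A ∘ algebraMap 𝒪 A))
    (hB : IsArtinianTestAlgebra 𝒪 B) (q : A →ₐ[𝒪] B) (hq : Function.Surjective q)
    {r : Gal →* M2 A} (hr : NLift 𝒟 rt sl r) : NLift 𝒟 rt sl (mapHom (q : A →+* B) r) := by
  have hloc : IsLocalHom (q : A →+* B) := hq.isLocalHom (q : A →+* B)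
  have hc' : IsCont (mapHom (q : A →+* B) r) := hr.cont.mapHom _ hloc
  exact ⟨Clos.isLift_mapHom hr.lift q hloc, Clos.isNormalized_mapHom hr.norm q, hc',
    h𝒟.of_isEquiv hB (toAdic_baseChangeAlong_isEquiv _ hloc r hr.cont hc')
      ((h𝒟.iff_forall_surjective inferInstance hsurj _).mp hr.type hB q hloc hq)⟩

theorem type_of_forall_quotient (h𝒟 : IsDeformationCondition 𝒪 𝒟)
    [IsNoetherianRing A] [IsAdicComplete (maximalIdeal A) A] [IsLocalHom (algebraMap 𝒪 A)]
    (hsurj : Function.Surjective (residue A ∘ algebraMap 𝒪 A))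
    (r : Gal →* M2 A) (hc : IsCont r)
    (h : ∀ (B : Type) [CommRing B] [IsLocalRing B] [Algebra 𝒪 B], IsArtinianTestAlgebra 𝒪 B →
      ∀ (q : A →ₐ[𝒪] B), Function.Surjective q →
        ∀ hc' : IsCont (mapHom (q : A →+* B) r), 𝒟 (toAdic (mapHom (q : A →+* B) r) hc')) :
    𝒟 (toAdic r hc) := by
  rw [h𝒟.iff_forall_surjective inferInstance hsurj]
  intro B _ _ _ hB q hq hqs
  have hc' : IsCont (mapHom (q : A →+* B) r) := hc.mapHom _ hq
  obtain ⟨e⟩ := toAdic_baseChangeAlong_isEquiv (q : A →+* B) hq r hc hc'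
  exact h𝒟.of_isEquiv hB ⟨e.symm⟩ (h B hB q hqs hc')

end Closure

end Fermat.Agent.S53

end
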