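import Mathlib
import Fermat.Prelude.Def_GaloisRep_DeformationRingData
import Fermat.Prelude.Def_GaloisRep_DeformationCondition

set_option autoImplicit false
set_option linter.unusedSectionVars false

noncomputable section

namespace Fermat.Agent.S53

open IsLocalRing

/-- The absolute Galois group of `ℚ`. -/
abbrev Gal : Type := AlgebraicClosure ℚ ≃ₐ[ℚ] AlgebraicClosure ℚ

/-- `2 × 2` matrices. -/
abbrev M2 (A : Type) : Type := Matrix (Fin 2) (Fin 2) A

/-- A matrix entry position at a group element. -/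
abbrev Pos : Type := Gal × Fin 2 × Fin 2

section Basic

variable {A : Type} [CommRing A] [IsLocalRing A]

/-- Adic continuity of a matrix valued representation. -/
def IsCont (r : Gal →* M2 A) : Prop :=
  ∀ n : ℕ, ∃ L : IntermediateField ℚ (AlgebraicClosure ℚ), FiniteDimensional ℚ L ∧
    ∀ σ : Gal, (∀ x ∈ L, σ x = x) → ∀ i j, (r σ - 1) i j ∈ maximalIdeal A ^ n

/-- The monoid hom sending a matrix to the endomorphism `v ↦ M *ᵥ v`. -/
def mulVecHom (A : Type) [CommRing A] : M2 A →* Module.End A (Fin 2 → A) :=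
  MonoidHomClass.toMonoidHom (Matrix.toLinAlgEquiv' (R := A) (n := Fin 2))

@[simp] theorem mulVecHom_apply (M : M2 A) (v : Fin 2 → A) : mulVecHom A M v = M.mulVec v := by
  simp [mulVecHom]

theorem mem_pow_smul_top_of_forall_mem (I : Ideal A) (w : Fin 2 → A) (hw : ∀ i, w i ∈ I) :
    w ∈ I • (⊤ : Submodule A (Fin 2 → A)) := by
  have h : w = ∑ i, w i • (Pi.single i (1 : A) : Fin 2 → A) := by
    funext j
    simp [Finset.sum_apply, Pi.single_apply]
  rw [h]
  exact Submodule.sum_mem _ fun i _ => Submodule.smul_mem_smul (hw i) Submodule.mem_top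

/-- The `GaloisRepAdic` attached to a continuous matrix valued representation. -/
def toAdic (r : Gal →* M2 A) (hc : IsCont r) : GaloisRepAdic A where
  V := Fin 2 → A
  finrank_eq := by simp
  ρ := (mulVecHom A).comp r
  isAdicContinuous := by
    intro n
    obtain ⟨L, hL, h⟩ := hc n
    refine ⟨L, hL, fun σ hσ v => ?_⟩
    apply mem_pow_smul_top_of_forall_mem
    intro i
    have h1 : ((mulVecHom A).comp r) σ v - v = (r σ - 1).mulVec v := by
      simp [Matrix.sub_mulVec]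
    rw [h1]
    simp only [Matrix.mulVec, dotProduct]
    exact Ideal.sum_mem _ fun j _ => Ideal.mul_mem_right _ _ (h σ hσ i j)

@[simp] theorem toAdic_V (r : Gal →* M2 A) (hc : IsCont r) : (toAdic r hc).V = (Fin 2 → A) := rfl

theorem toAdic_ρ_apply (r : Gal →* M2 A) (hc : IsCont r) (σ : Gal) (v : Fin 2 → A) :
    (toAdic r hc).ρ σ v = (r σ).mulVec v := by
  change mulVecHom A (r σ) v = _
  exact mulVecHom_apply _ _

/-- Push a matrix valued representation forward along a ring hom. -/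
def mapHom {B : Type} [CommRing B] (φ : A →+* B) (r : Gal →* M2 A) : Gal →* M2 B :=
  (φ.mapMatrix : M2 A →+* M2 B).toMonoidHom.comp r

@[simp] theorem mapHom_apply {B : Type} [CommRing B] (φ : A →+* B) (r : Gal →* M2 A) (σ : Gal)
    (i j : Fin 2) : mapHom φ r σ i j = φ (r σ i j) := rfl

/-- Conjugate a matrix valued representation by an invertible matrix. -/
def conjHom (Y : (M2 A)ˣ) (r : Gal →* M2 A) : Gal →* M2 A where
  toFun σ := (Y : M2 A) * r σ * ((Y⁻¹ : (M2 A)ˣ) : M2 A)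
  map_one' := by simp
  map_mul' σ τ := by
    simp only [map_mul, mul_assoc, Units.inv_mul_cancel_left]

@[simp] theorem conjHom_apply (Y : (M2 A)ˣ) (r : Gal →* M2 A) (σ : Gal) :
    conjHom Y r σ = (Y : M2 A) * r σ * ((Y⁻¹ : (M2 A)ˣ) : M2 A) := rfl

end Basic

section Lift

variable {𝒪 : Type} [CommRing 𝒪] {A : Type} [CommRing A] [IsLocalRing A] [Algebra 𝒪 A]

/-- `r` lifts the residual representation whose entries are the residues of `rt`. -/
def IsLift (rt : Gal → M2 𝒪) (r : Gal →* M2 A) : Prop :=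
  ∀ σ i j, r σ i j - algebraMap 𝒪 A (rt σ i j) ∈ maximalIdeal A

/-- `r` is in normal form: the three slice entries are the constants coming from `rt`. -/
def IsNormalized (rt : Gal → M2 𝒪) (sl : Fin 3 → Pos) (r : Gal →* M2 A) : Prop :=
  ∀ a, r (sl a).1 (sl a).2.1 (sl a).2.2 = algebraMap 𝒪 A (rt (sl a).1 (sl a).2.1 (sl a).2.2)

/-- A normalized continuous lift of type `𝒟`. -/
structure NLift
    (𝒟 : ∀ ⦃A : Type⦄ [CommRing A] [IsLocalRing A] [Algebra 𝒪 A], GaloisRepAdic A → Prop)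
    (rt : Gal → M2 𝒪) (sl : Fin 3 → Pos) (r : Gal →* M2 A) : Prop where
  lift : IsLift rt r
  norm : IsNormalized rt sl r
  cont : IsCont r
  type : 𝒟 (toAdic r cont)

end Lift

section Slice

variable {A : Type} [CommRing A]

/-- The three matrix units spanning a complement of the scalar matrices. -/
def Eb (A : Type) [CommRing A] : Fin 3 → M2 A :=
  ![Matrix.single 0 1 1, Matrix.single 1 0 1, Matrix.single 1 1 1]

/-- The slice matrix: entry `(a, e)` is the `pos a` entry of the commutator `[Eb e, N a]`. -/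
def sliceMat (N : Fin 3 → M2 A) (pos : Fin 3 → Fin 2 × Fin 2) : Matrix (Fin 3) (Fin 3) A :=
  Matrix.of fun a e => (Eb A e * N a - N a * Eb A e) (pos a).1 (pos a).2

end Slice

/-- The residual representation in matrix form with respect to a basis. -/
def rbarHom {k : Type} [Field k] (ρbar : ResidualGaloisRep k)
    (b : Module.Basis (Fin 2) k ρbar.V) : Gal →* M2 k where
  toFun σ := LinearMap.toMatrix b b (ρbar.ρ σ)
  map_one' := by rw [map_one]; exact LinearMap.toMatrix_one b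
  map_mul' σ τ := by rw [map_mul]; exact LinearMap.toMatrix_mul b _ _

@[simp] theorem rbarHom_apply {k : Type} [Field k] (ρbar : ResidualGaloisRep k)
    (b : Module.Basis (Fin 2) k ρbar.V) (σ : Gal) :
    rbarHom ρbar b σ = LinearMap.toMatrix b b (ρbar.ρ σ) := rfl

/-- Residual data: a basis of `ρbar`, entrywise lifts `rt` of its matrices, a slice `sl`
whose slice matrix is invertible, and Schur's lemma in matrix form. -/
structure ResData (𝒪 : Type) [CommRing 𝒪] [IsLocalRing 𝒪]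
    (ρbar : ResidualGaloisRep (ResidueField 𝒪)) : Type where
  b : Module.Basis (Fin 2) (ResidueField 𝒪) ρbar.V
  rt : Gal → M2 𝒪
  hrt : ∀ σ i j, residue 𝒪 (rt σ i j) = rbarHom ρbar b σ i j
  sl : Fin 3 → Pos
  hsl : IsUnit (sliceMat (fun a => rt (sl a).1) (fun a => (sl a).2)).det
  schur : ∀ Z : M2 (ResidueField 𝒪),
    (∀ σ, Z * rbarHom ρbar b σ = rbarHom ρbar b σ * Z) → Z 0 1 = 0 ∧ Z 1 0 = 0 ∧ Z 0 0 = Z 1 1

/-- The ring of dual numbers `k[ε]` over the residue field, as a type synonym carrying the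
`𝒪`-algebra structure used in `GaloisRep.TangentFinite`. -/
def Tan (𝒪 : Type) [CommRing 𝒪] [IsLocalRing 𝒪] : Type := DualNumber (ResidueField 𝒪)

instance (𝒪 : Type) [CommRing 𝒪] [IsLocalRing 𝒪] : CommRing (Tan 𝒪) :=
  inferInstanceAs (CommRing (DualNumber (ResidueField 𝒪)))

instance (𝒪 : Type) [CommRing 𝒪] [IsLocalRing 𝒪] : IsLocalRing (Tan 𝒪) :=
  inferInstanceAs (IsLocalRing (DualNumber (ResidueField 𝒪)))

instance (𝒪 : Type) [CommRing 𝒪] [IsLocalRing 𝒪] : Algebra 𝒪 (Tan 𝒪) :=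
  ((algebraMap (ResidueField 𝒪) (DualNumber (ResidueField 𝒪))).comp
    (algebraMap 𝒪 (ResidueField 𝒪))).toAlgebra

/-- The big polynomial ring on the matrix entry positions. -/
abbrev U (𝒪 : Type) [CommRing 𝒪] : Type := MvPolynomial Pos 𝒪

/-- Evaluate the big polynomial ring at a matrix valued function. -/
def ev {𝒪 : Type} [CommRing 𝒪] {A : Type} [CommRing A] [Algebra 𝒪 A] (r : Gal → M2 A) :
    U 𝒪 →ₐ[𝒪] A :=
  MvPolynomial.aeval (fun p : Pos => r p.1 p.2.1 p.2.2)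

@[simp] theorem ev_X {𝒪 : Type} [CommRing 𝒪] {A : Type} [CommRing A] [Algebra 𝒪 A]
    (r : Gal → M2 A) (p : Pos) : ev (𝒪 := 𝒪) r (MvPolynomial.X p) = r p.1 p.2.1 p.2.2 := by
  simp [ev]

/-- The augmentation ideal of the big polynomial ring: the kernel of `U → 𝒪 → k`
given by evaluating at `rt`. -/
def augIdeal {𝒪 : Type} [CommRing 𝒪] [IsLocalRing 𝒪] (rt : Gal → M2 𝒪) : Ideal (U 𝒪) :=
  RingHom.ker ((residue 𝒪).comp
    (MvPolynomial.eval (fun p : Pos => rt p.1 p.2.1 p.2.2) : U 𝒪 →+* 𝒪))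

/-- Admissible ideals of level `n`: the quotient is a finite local ring on which the
tautological matrix function is a normalized lift of type `𝒟`. -/
def Adm {𝒪 : Type} [CommRing 𝒪] [IsLocalRing 𝒪]
    (𝒟 : ∀ ⦃A : Type⦄ [CommRing A] [IsLocalRing A] [Algebra 𝒪 A], GaloisRepAdic A → Prop)
    (rt : Gal → M2 𝒪) (sl : Fin 3 → Pos) (n : ℕ) (𝔟 : Ideal (U 𝒪)) : Prop :=
  augIdeal rt ^ n ≤ 𝔟 ∧ 𝔟 ≤ augIdeal rt ∧ Finite (U 𝒪 ⧸ 𝔟) ∧
    ∃ (_ : IsLocalRing (U 𝒪 ⧸ 𝔟)) (r : Gal →* M2 (U 𝒪 ⧸ 𝔟)),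
      (∀ σ i j, r σ i j = Ideal.Quotient.mk 𝔟 (MvPolynomial.X (σ, i, j))) ∧ NLift 𝒟 rt sl r

/-- Coordinates: positions whose entries detect triviality of a tangent lift. -/
def IsCoords {𝒪 : Type} [CommRing 𝒪] [IsLocalRing 𝒪]
    (𝒟 : ∀ ⦃A : Type⦄ [CommRing A] [IsLocalRing A] [Algebra 𝒪 A], GaloisRepAdic A → Prop)
    (rt : Gal → M2 𝒪) (sl : Fin 3 → Pos) {d : ℕ} (co : Fin d → Pos) : Prop :=
  ∀ r : Gal →* M2 (Tan 𝒪), NLift 𝒟 rt sl r →
    (∀ l, r (co l).1 (co l).2.1 (co l).2.2 =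
      algebraMap 𝒪 (Tan 𝒪) (rt (co l).1 (co l).2.1 (co l).2.2)) →
    ∀ p : Pos, r p.1 p.2.1 p.2.2 = algebraMap 𝒪 (Tan 𝒪) (rt p.1 p.2.1 p.2.2)

/-- The coordinate elements of the big polynomial ring. -/
def coordElt {𝒪 : Type} [CommRing 𝒪] (rt : Gal → M2 𝒪) {d : ℕ} (co : Fin d → Pos) (l : Fin d) :
    U 𝒪 :=
  MvPolynomial.X (co l) - MvPolynomial.C (rt (co l).1 (co l).2.1 (co l).2.2)

/-- The minimal admissible ideal of level `n` (the infimum of all of them). -/
def minAdm {𝒪 : Type} [CommRing 𝒪] [IsLocalRing 𝒪]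
    (𝒟 : ∀ ⦃A : Type⦄ [CommRing A] [IsLocalRing A] [Algebra 𝒪 A], GaloisRepAdic A → Prop)
    (rt : Gal → M2 𝒪) (sl : Fin 3 → Pos) (n : ℕ) : Ideal (U 𝒪) :=
  sInf {𝔟 | Adm 𝒟 rt sl n 𝔟}

/-- A universal normalized lift of type `𝒟`. -/
structure UnivData (𝒪 : Type) [CommRing 𝒪] [IsLocalRing 𝒪]
    (𝒟 : ∀ ⦃A : Type⦄ [CommRing A] [IsLocalRing A] [Algebra 𝒪 A], GaloisRepAdic A → Prop)
    (rt : Gal → M2 𝒪) (sl : Fin 3 → Pos) : Type 1 where
  R : Type
  [instCommRing : CommRing R]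
  [instIsLocalRing : IsLocalRing R]
  [instIsNoetherianRing : IsNoetherianRing R]
  [instIsAdicComplete : IsAdicComplete (maximalIdeal R) R]
  [instAlgebra : Algebra 𝒪 R]
  [instIsLocalHom : IsLocalHom (algebraMap 𝒪 R)]
  residue_surjective : Function.Surjective (residue R ∘ algebraMap 𝒪 R)
  r : Gal →* M2 R
  nlift : NLift 𝒟 rt sl r
  exists_hom : ∀ (A : Type) [CommRing A] [IsLocalRing A] [IsNoetherianRing A]
    [IsAdicComplete (maximalIdeal A) A] [Algebra 𝒪 A] [IsLocalHom (algebraMap 𝒪 A)],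
    Function.Surjective (residue A ∘ algebraMap 𝒪 A) →
    ∀ rA : Gal →* M2 A, NLift 𝒟 rt sl rA → ∃ φ : R →ₐ[𝒪] A, mapHom (φ : R →+* A) r = rA
  hom_ext : ∀ (A : Type) [CommRing A] [IsLocalRing A] [IsNoetherianRing A]
    [IsAdicComplete (maximalIdeal A) A] [Algebra 𝒪 A] [IsLocalHom (algebraMap 𝒪 A)],
    Function.Surjective (residue A ∘ algebraMap 𝒪 A) →
    ∀ φ φ' : R →ₐ[𝒪] A, mapHom (φ : R →+* A) r = mapHom (φ' : R →+* A) r → φ = φ'

attribute [instance] UnivData.instCommRing UnivData.instIsLocalRing UnivData.instIsNoetherianRing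
  UnivData.instIsAdicComplete UnivData.instAlgebra UnivData.instIsLocalHom

end Fermat.Agent.S53

end
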