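import Fermat.Agent.S53.Defs

set_option autoImplicit false
set_option linter.unusedSectionVars false

noncomputable section

namespace Fermat.Agent.S53

open IsLocalRing
open scoped TensorProduct

namespace Dict

/-! ## Generic linear algebra helpers -/

section Generic

variable {R V W : Type*} [CommRing R] [AddCommGroup V] [Module R V] [AddCommGroup W] [Module R W]
  {ι : Type*} [Fintype ι] [DecidableEq ι]

theorem equiv_apply_of_toMatrix_eq (b₁ : Module.Basis ι R V) (b₂ : Module.Basis ι R W)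
    (f : V →ₗ[R] V) (g : W →ₗ[R] W)
    (h : LinearMap.toMatrix b₁ b₁ f = LinearMap.toMatrix b₂ b₂ g) (x : V) :
    (b₁.equiv b₂ (Equiv.refl ι)) (f x) = g ((b₁.equiv b₂ (Equiv.refl ι)) x) := by
  have key : ((b₁.equiv b₂ (Equiv.refl ι)).toLinearMap ∘ₗ f)
      = g ∘ₗ (b₁.equiv b₂ (Equiv.refl ι)).toLinearMap := by
    apply b₁.ext
    intro j
    simp only [LinearMap.comp_apply, LinearEquiv.coe_coe, Module.Basis.equiv_apply,
      Equiv.refl_apply]
    rw [← b₁.sum_repr (f (b₁ j)), ← b₂.sum_repr (g (b₂ j))]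
    simp only [map_sum, map_smul, Module.Basis.equiv_apply, Equiv.refl_apply]
    refine Finset.sum_congr rfl fun i _ => ?_
    have := congrFun (congrFun h i) j
    rw [LinearMap.toMatrix_apply, LinearMap.toMatrix_apply] at this
    rw [this]
  exact congrArg (fun F : V →ₗ[R] W => F x) key

theorem toMatrix_eq_of_equiv (b₁ : Module.Basis ι R V) (b₂ : Module.Basis ι R W)
    (f : V →ₗ[R] V) (g : W →ₗ[R] W) (e : V ≃ₗ[R] W) (hb : ∀ i, e (b₁ i) = b₂ i)
    (he : ∀ x, e (f x) = g (e x)) :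
    LinearMap.toMatrix b₁ b₁ f = LinearMap.toMatrix b₂ b₂ g := by
  have hb' : b₁.map e = b₂ := Module.Basis.eq_of_apply_eq fun i => by
    rw [Module.Basis.map_apply, hb]
  subst hb'
  ext i j
  rw [LinearMap.toMatrix_apply, LinearMap.toMatrix_apply, Module.Basis.map_apply, ← he,
    Module.Basis.map_repr, LinearEquiv.trans_apply, LinearEquiv.symm_apply_apply]

theorem repr_mem_of_mem_smul_top (b : Module.Basis ι R V) (I : Ideal R) {x : V}
    (hx : x ∈ I • (⊤ : Submodule R V)) (i : ι) : b.repr x i ∈ I := by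
  refine Submodule.smul_induction_on (p := fun x => b.repr x i ∈ I) hx ?_ ?_
  · intro a ha w _
    rw [map_smul, Finsupp.smul_apply, smul_eq_mul]
    exact Ideal.mul_mem_right _ _ ha
  · intro x y hx hy
    rw [map_add, Finsupp.add_apply]
    exact Ideal.add_mem _ hx hy

end Generic

/-! ## Equivalences from bases -/

theorem isEquiv_of_toMatrix_eq {A : Type} [CommRing A] [IsLocalRing A] (ρ₁ ρ₂ : GaloisRepAdic A)
    (b₁ : Module.Basis (Fin 2) A ρ₁.V) (b₂ : Module.Basis (Fin 2) A ρ₂.V)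
    (h : ∀ σ, LinearMap.toMatrix b₁ b₁ (ρ₁.ρ σ) = LinearMap.toMatrix b₂ b₂ (ρ₂.ρ σ)) :
    ρ₁.IsEquiv ρ₂ :=
  ⟨{ toLinearEquiv := b₁.equiv b₂ (Equiv.refl _)
     map_apply := fun σ x => equiv_apply_of_toMatrix_eq b₁ b₂ _ _ (h σ) x }⟩

theorem residual_isEquiv_of_toMatrix_eq {k : Type} [Field k] (ρ₁ ρ₂ : ResidualGaloisRep k)
    (b₁ : Module.Basis (Fin 2) k ρ₁.V) (b₂ : Module.Basis (Fin 2) k ρ₂.V)
    (h : ∀ σ, LinearMap.toMatrix b₁ b₁ (ρ₁.ρ σ) = LinearMap.toMatrix b₂ b₂ (ρ₂.ρ σ)) :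
    ρ₁.IsEquiv ρ₂ :=
  ⟨{ toLinearEquiv := b₁.equiv b₂ (Equiv.refl _)
     map_apply := fun σ x => equiv_apply_of_toMatrix_eq b₁ b₂ _ _ (h σ) x }⟩

/-! ## Matrices of `toAdic` -/

theorem toMatrix_mulVecHom {A : Type} [CommRing A] [IsLocalRing A] (M : M2 A) :
    LinearMap.toMatrix (Pi.basisFun A (Fin 2)) (Pi.basisFun A (Fin 2)) (mulVecHom A M) = M := by
  ext i j
  rw [LinearMap.toMatrix_apply, mulVecHom_apply]
  simp

theorem toMatrix_toAdic {A : Type} [CommRing A] [IsLocalRing A] (r : Gal →* M2 A)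
    (hc : IsCont r) (σ : Gal) :
    LinearMap.toMatrix (Pi.basisFun A (Fin 2)) (Pi.basisFun A (Fin 2)) ((toAdic r hc).ρ σ)
      = r σ :=
  toMatrix_mulVecHom (r σ)

end Dict

open Dict

/-! ## Part III statements -/

theorem IsCont.mapHom {A B : Type} [CommRing A] [IsLocalRing A] [CommRing B] [IsLocalRing B]
    {r : Gal →* M2 A} (hc : IsCont r) (φ : A →+* B) (hφ : IsLocalHom φ) :
    IsCont (mapHom φ r) := by
  intro n
  obtain ⟨L, hL, h⟩ := hc n
  refine ⟨L, hL, fun σ hσ i j => ?_⟩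
  have hmap : (maximalIdeal A ^ n).map φ ≤ maximalIdeal B ^ n := by
    rw [Ideal.map_pow]
    exact Ideal.pow_right_mono (Ideal.map_le_iff_le_comap.mpr fun a ha =>
      Ideal.mem_comap.mpr (haveI := hφ; map_nonunit φ a ha)) n
  have h1 : (Fermat.Agent.S53.mapHom φ r σ - 1) i j = φ ((r σ - 1) i j) := by
    simp only [Matrix.sub_apply, mapHom_apply, Matrix.one_apply, map_sub]
    split_ifs <;> simp
  rw [h1]
  exact hmap (Ideal.mem_map_of_mem φ (h σ hσ i j))

theorem toAdic_baseChangeAlong_isEquiv {A B : Type} [CommRing A] [IsLocalRing A] [CommRing B]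
    [IsLocalRing B] (φ : A →+* B) (hφ : IsLocalHom φ) (r : Gal →* M2 A) (hc : IsCont r)
    (hc' : IsCont (mapHom φ r)) :
    ((toAdic r hc).baseChangeAlong φ hφ).IsEquiv (toAdic (mapHom φ r) hc') := by
  let _ : Algebra A B := φ.toAlgebra
  let b₁ : Module.Basis (Fin 2) B (B ⊗[A] (Fin 2 → A)) :=
    Algebra.TensorProduct.basis B (Pi.basisFun A (Fin 2))
  refine isEquiv_of_toMatrix_eq ((toAdic r hc).baseChangeAlong φ hφ) (toAdic (mapHom φ r) hc')
    b₁ (Pi.basisFun B (Fin 2)) fun σ => ?_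
  refine Eq.trans ?_ (toMatrix_toAdic (mapHom φ r) hc' σ).symm
  refine Eq.trans (LinearMap.toMatrix_baseChange B (mulVecHom A (r σ)) (Pi.basisFun A (Fin 2))
    (Pi.basisFun A (Fin 2))) ?_
  rw [toMatrix_mulVecHom]
  ext i j
  simp [RingHom.algebraMap_toAlgebra]

theorem toAdic_isEquiv_iff {A : Type} [CommRing A] [IsLocalRing A] (r r' : Gal →* M2 A)
    (hc : IsCont r) (hc' : IsCont r') :
    (toAdic r hc).IsEquiv (toAdic r' hc') ↔
      ∃ Y : (M2 A)ˣ, ∀ σ, (Y : M2 A) * r σ = r' σ * (Y : M2 A) := by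
  constructor
  · rintro ⟨e⟩
    let E : (Fin 2 → A) ≃ₗ[A] (Fin 2 → A) := e.toLinearEquiv
    have hE : ∀ σ x, E ((r σ).mulVec x) = (r' σ).mulVec (E x) := fun σ x => by
      have h0 := e.map_apply σ x
      change E (mulVecHom A (r σ) x) = mulVecHom A (r' σ) (E x) at h0
      rwa [mulVecHom_apply, mulVecHom_apply] at h0
    let M : M2 A := LinearMap.toMatrix' E.toLinearMap
    let M' : M2 A := LinearMap.toMatrix' E.symm.toLinearMap
    have h1 : M * M' = 1 := by
      rw [← LinearMap.toMatrix'_comp, LinearEquiv.comp_symm, LinearMap.toMatrix'_id]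
    have h2 : M' * M = 1 := by
      rw [← LinearMap.toMatrix'_comp, LinearEquiv.symm_comp, LinearMap.toMatrix'_id]
    refine ⟨⟨M, M', h1, h2⟩, fun σ => ?_⟩
    have h3 : E.toLinearMap ∘ₗ Matrix.toLin' (r σ) = Matrix.toLin' (r' σ) ∘ₗ E.toLinearMap := by
      apply LinearMap.ext
      intro x
      exact hE σ x
    have h4 := congrArg LinearMap.toMatrix' h3
    rw [LinearMap.toMatrix'_comp, LinearMap.toMatrix'_comp, LinearMap.toMatrix'_toLin',
      LinearMap.toMatrix'_toLin'] at h4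
    exact h4
  · rintro ⟨Y, hY⟩
    let E : (Fin 2 → A) ≃ₗ[A] (Fin 2 → A) :=
      LinearEquiv.ofLinearMap (Matrix.toLin' (Y : M2 A)) (Matrix.toLin' ((Y⁻¹ : (M2 A)ˣ) : M2 A))
        (by rw [← Matrix.toLin'_mul, Units.mul_inv, Matrix.toLin'_one])
        (by rw [← Matrix.toLin'_mul, Units.inv_mul, Matrix.toLin'_one])
    refine ⟨{ toLinearEquiv := E, map_apply := fun σ x => ?_ }⟩
    change E (mulVecHom A (r σ) x) = mulVecHom A (r' σ) (E x)
    rw [mulVecHom_apply, mulVecHom_apply]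
    change (Y : M2 A).mulVec ((r σ).mulVec x) = (r' σ).mulVec ((Y : M2 A).mulVec x)
    rw [Matrix.mulVec_mulVec, Matrix.mulVec_mulVec, hY]

theorem isCont_rbarHom {k : Type} [Field k] (ρbar : ResidualGaloisRep k)
    (b : Module.Basis (Fin 2) k ρbar.V) : IsCont (rbarHom ρbar b) := by
  intro n
  obtain ⟨L, hL, h1⟩ := ρbar.factorsThroughFiniteLevel
  refine ⟨L, hL, fun σ hσ i j => ?_⟩
  have h2 : rbarHom ρbar b σ = 1 := by
    rw [rbarHom_apply, h1 σ hσ]
    exact LinearMap.toMatrix_one b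
  rw [h2, sub_self]
  exact Ideal.zero_mem _

theorem toAdic_rbarHom_isEquiv {k : Type} [Field k] (ρbar : ResidualGaloisRep k)
    (b : Module.Basis (Fin 2) k ρbar.V) :
    (toAdic (rbarHom ρbar b) (isCont_rbarHom ρbar b)).IsEquiv
      (GaloisRepAdic.ofResidualGaloisRep ρbar) := by
  refine isEquiv_of_toMatrix_eq _ (GaloisRepAdic.ofResidualGaloisRep ρbar)
    (Pi.basisFun k (Fin 2)) b fun σ => ?_
  exact toMatrix_toAdic (rbarHom ρbar b) (isCont_rbarHom ρbar b) σ

theorem residual_isEquiv_of_isLift {𝒪 : Type} [CommRing 𝒪] [IsLocalRing 𝒪]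
    {ρbar : ResidualGaloisRep (ResidueField 𝒪)}
    (b : Module.Basis (Fin 2) (ResidueField 𝒪) ρbar.V) (rt : Gal → M2 𝒪)
    (hrt : ∀ σ i j, residue 𝒪 (rt σ i j) = rbarHom ρbar b σ i j)
    {A : Type} [CommRing A] [IsLocalRing A] [Algebra 𝒪 A]
    (ψ : ResidueField 𝒪 →+* ResidueField A)
    (hψ : ∀ x : 𝒪, ψ (residue 𝒪 x) = residue A (algebraMap 𝒪 A x))
    (r : Gal →* M2 A) (hc : IsCont r) (hl : IsLift rt r) :
    (toAdic r hc).residual.IsEquiv (ρbar.baseChangeAlong ψ) := by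
  let _ : Algebra (ResidueField 𝒪) (ResidueField A) := ψ.toAlgebra
  let b₁ : Module.Basis (Fin 2) (ResidueField A) (ResidueField A ⊗[A] (Fin 2 → A)) :=
    Algebra.TensorProduct.basis (ResidueField A) (Pi.basisFun A (Fin 2))
  let b₂ : Module.Basis (Fin 2) (ResidueField A) (ResidueField A ⊗[ResidueField 𝒪] ρbar.V) :=
    Algebra.TensorProduct.basis (ResidueField A) b
  refine residual_isEquiv_of_toMatrix_eq (toAdic r hc).residual (ρbar.baseChangeAlong ψ)
    b₁ b₂ fun σ => ?_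
  refine Eq.trans (LinearMap.toMatrix_baseChange (ResidueField A) (mulVecHom A (r σ))
    (Pi.basisFun A (Fin 2)) (Pi.basisFun A (Fin 2))) ?_
  refine Eq.trans ?_ (LinearMap.toMatrix_baseChange (ResidueField A) (ρbar.ρ σ) b b).symm
  rw [toMatrix_mulVecHom]
  ext i j
  simp only [Matrix.map_apply]
  rw [RingHom.algebraMap_toAlgebra, ResidueField.algebraMap_eq, ← rbarHom_apply, ← hrt, hψ]
  exact Ideal.Quotient.eq.mpr (hl σ i j)

theorem exists_lift_of_residual {𝒪 : Type} [CommRing 𝒪] [IsLocalRing 𝒪]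
    {ρbar : ResidualGaloisRep (ResidueField 𝒪)}
    (b : Module.Basis (Fin 2) (ResidueField 𝒪) ρbar.V) (rt : Gal → M2 𝒪)
    (hrt : ∀ σ i j, residue 𝒪 (rt σ i j) = rbarHom ρbar b σ i j)
    {A : Type} [CommRing A] [IsLocalRing A] [Algebra 𝒪 A]
    (ψ : ResidueField 𝒪 →+* ResidueField A)
    (hψ : ∀ x : 𝒪, ψ (residue 𝒪 x) = residue A (algebraMap 𝒪 A x))
    (ρA : GaloisRepAdic A) (h : ρA.residual.IsEquiv (ρbar.baseChangeAlong ψ)) :
    ∃ (r : Gal →* M2 A) (hc : IsCont r), IsLift rt r ∧ (toAdic r hc).IsEquiv ρA := by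
  classical
  obtain ⟨e⟩ := h
  let _ : Algebra (ResidueField 𝒪) (ResidueField A) := ψ.toAlgebra
  let bk : Module.Basis (Fin 2) (ResidueField A) (ResidueField A ⊗[ResidueField 𝒪] ρbar.V) :=
    Algebra.TensorProduct.basis (ResidueField A) b
  let E : (ResidueField A ⊗[A] ρA.V) ≃ₗ[ResidueField A]
      (ResidueField A ⊗[ResidueField 𝒪] ρbar.V) := e.toLinearEquiv
  have hE : ∀ σ x, E (((ρA.ρ σ).baseChange (ResidueField A)) x)
      = ((ρbar.ρ σ).baseChange (ResidueField A)) (E x) := fun σ x => e.map_apply σ x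
  let bA : Module.Basis (Fin 2) (ResidueField A) (ResidueField A ⊗[A] ρA.V) := bk.map E.symm
  have hsurj : Function.Surjective (TensorProduct.mk A (ResidueField A) ρA.V 1) :=
    TensorProduct.mk_surjective A ρA.V (ResidueField A) Ideal.Quotient.mk_surjective
  choose v hv using fun i => hsurj (bA i)
  have hcomp : (TensorProduct.mk A (ResidueField A) ρA.V 1) ∘ v = bA := funext hv
  have : Module.FinitePresentation A ρA.V := Module.finitePresentation_of_projective A ρA.V
  obtain ⟨c, hcv⟩ := Module.exists_basis_of_basis_baseChange v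
    (by rw [hcomp]; exact bA.linearIndependent)
    (by rw [hcomp]; exact bA.span_eq)
    (Module.Flat.rTensor_preserves_injective_linearMap (maximalIdeal A).subtype
      Subtype.val_injective)
  -- the basis of the residual induced by `c` is `bA`
  have hbA : Algebra.TensorProduct.basis (ResidueField A) c = bA :=
    Module.Basis.eq_of_apply_eq fun i => by
      rw [Algebra.TensorProduct.basis_apply, hcv, ← hv i]
      rfl
  let r : Gal →* M2 A :=
    { toFun := fun σ => LinearMap.toMatrix c c (ρA.ρ σ)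
      map_one' := by rw [map_one]; exact LinearMap.toMatrix_one c
      map_mul' := fun σ τ => by rw [map_mul]; exact LinearMap.toMatrix_mul c _ _ }
  have hr : ∀ σ, r σ = LinearMap.toMatrix c c (ρA.ρ σ) := fun σ => rfl
  have hcont : IsCont r := by
    intro n
    obtain ⟨L, hL, h1⟩ := ρA.isAdicContinuous n
    refine ⟨L, hL, fun σ hσ i j => ?_⟩
    have h2 : (r σ - 1) i j = c.repr (ρA.ρ σ (c j) - c j) i := by
      rw [Matrix.sub_apply, hr, LinearMap.toMatrix_apply, map_sub, Finsupp.sub_apply,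
        Module.Basis.repr_self, Matrix.one_apply, Finsupp.single_apply]
      congr 1
      split_ifs with h3 h4 h4
      · rfl
      · exact absurd h3.symm h4
      · exact absurd h4.symm h3
      · rfl
    rw [h2]
    exact repr_mem_of_mem_smul_top c _ (h1 σ hσ (c j)) i
  refine ⟨r, hcont, ?_, ?_⟩
  · intro σ i j
    apply Ideal.Quotient.eq.mp
    change residue A (r σ i j) = residue A (algebraMap 𝒪 A (rt σ i j))
    rw [← hψ, hrt, rbarHom_apply]
    have h5 : LinearMap.toMatrix bA bA ((ρA.ρ σ).baseChange (ResidueField A))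
        = LinearMap.toMatrix bk bk ((ρbar.ρ σ).baseChange (ResidueField A)) :=
      toMatrix_eq_of_equiv bA bk _ _ E
        (fun i => by rw [Module.Basis.map_apply, LinearEquiv.apply_symm_apply]) (hE σ)
    rw [← hbA, LinearMap.toMatrix_baseChange, LinearMap.toMatrix_baseChange] at h5
    have h6 := congrFun (congrFun h5 i) j
    simp only [Matrix.map_apply] at h6
    rw [RingHom.algebraMap_toAlgebra, ResidueField.algebraMap_eq] at h6
    rw [hr]
    exact h6
  · refine isEquiv_of_toMatrix_eq (toAdic r hcont) ρA (Pi.basisFun A (Fin 2)) c fun σ => ?_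
    exact toMatrix_toAdic r hcont σ

end Fermat.Agent.S53

end
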