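import Fermat.Agent.S53.Defs

set_option autoImplicit false
set_option linter.unusedSectionVars false

noncomputable section

namespace Fermat.Agent.S53

open IsLocalRing Matrix

namespace NormalForm

section Newton

variable {A : Type} [CommRing A]

theorem mulVec_mem_of_forall_mem (I : Ideal A) (M : Matrix (Fin 3) (Fin 3) A) (v : Fin 3 → A)
    (hv : ∀ e, v e ∈ I) (a : Fin 3) : M.mulVec v a ∈ I := by
  simp only [Matrix.mulVec, dotProduct]
  exact Ideal.sum_mem _ fun e _ => Ideal.mul_mem_left _ _ (hv e)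

/-- Newton iteration for a map `A³ → A³` whose increments are controlled by an invertible
matrix `T`. -/
theorem newton_exists (m : Ideal A) [IsAdicComplete m A]
    (G : (Fin 3 → A) → (Fin 3 → A)) (T : Matrix (Fin 3) (Fin 3) A) (hT : IsUnit T.det)
    (h1 : ∀ a, G 0 a ∈ m)
    (h2 : ∀ j : ℕ, 1 ≤ j → ∀ z δ : Fin 3 → A, (∀ e, z e ∈ m) → (∀ e, δ e ∈ m ^ j) →
      ∀ a, (G (z + δ) - G z - T.mulVec δ) a ∈ m ^ (j + 1)) :
    ∃ z : Fin 3 → A, (∀ e, z e ∈ m) ∧ G z = 0 := by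
  classical
  let step : (Fin 3 → A) → (Fin 3 → A) := fun z => z + -(T⁻¹.mulVec (G z))
  let seq : ℕ → (Fin 3 → A) := fun n => step^[n] 0
  have hseq_succ : ∀ n, seq (n + 1) = seq n + -(T⁻¹.mulVec (G (seq n))) := by
    intro n
    simp only [seq, Function.iterate_succ_apply']
    rfl
  have hTT : ∀ v : Fin 3 → A, T.mulVec (T⁻¹.mulVec v) = v := by
    intro v
    rw [Matrix.mulVec_mulVec, Matrix.mul_nonsing_inv T hT, Matrix.one_mulVec]
  have hinv : ∀ n, (∀ e, seq n e ∈ m) ∧ (∀ a, G (seq n) a ∈ m ^ (n + 1)) := by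
    intro n
    induction n with
    | zero =>
      refine ⟨fun e => ?_, fun a => ?_⟩
      · simp [seq]
      · simpa [seq] using h1 a
    | succ n ih =>
      obtain ⟨ihz, ihG⟩ := ih
      have hδ : ∀ e, (-(T⁻¹.mulVec (G (seq n)))) e ∈ m ^ (n + 1) := fun e => by
        rw [Pi.neg_apply]
        exact neg_mem (mulVec_mem_of_forall_mem _ _ _ ihG e)
      refine ⟨fun e => ?_, fun a => ?_⟩
      · rw [hseq_succ, Pi.add_apply]
        exact add_mem (ihz e) (Ideal.pow_le_self (Nat.succ_ne_zero n) (hδ e))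
      · have h := h2 (n + 1) (Nat.succ_le_succ (Nat.zero_le n)) (seq n) _ ihz hδ a
        rw [← hseq_succ, Matrix.mulVec_neg, hTT] at h
        simpa using h
  have hdiff : ∀ n e, seq (n + 1) e - seq n e ∈ m ^ (n + 1) := by
    intro n e
    rw [hseq_succ, Pi.add_apply, add_sub_cancel_left, Pi.neg_apply]
    exact neg_mem (mulVec_mem_of_forall_mem _ _ _ (hinv n).2 e)
  have hcauchy : ∀ e (k n : ℕ), k ≤ n → seq n e - seq k e ∈ m ^ k := by
    intro e k n hkn
    induction n, hkn using Nat.le_induction with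
    | base => simp
    | succ n hkn ih =>
      have h3 : seq (n + 1) e - seq k e = (seq (n + 1) e - seq n e) + (seq n e - seq k e) := by
        ring
      rw [h3]
      exact add_mem (Ideal.pow_le_pow_right (by omega) (hdiff n e)) ih
  have hlim : ∀ e, ∃ L : A, ∀ n, L - seq n e ∈ m ^ n := by
    intro e
    obtain ⟨L, hL⟩ := IsPrecomplete.prec (I := m) (M := A) inferInstance (f := fun n => seq n e) (by
      intro k n hkn
      rw [SModEq.sub_mem, smul_eq_mul, Ideal.mul_top]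
      have := hcauchy e k n hkn
      rw [← neg_sub] 
      exact neg_mem this)
    refine ⟨L, fun n => ?_⟩
    have := hL n
    rw [SModEq.sub_mem, smul_eq_mul, Ideal.mul_top] at this
    rw [← neg_sub]
    exact neg_mem this
  choose L hL using hlim
  have hLm : ∀ e, L e ∈ m := by
    intro e
    have h3 := hL e 1
    rw [pow_one] at h3
    have h4 : L e = (L e - seq 1 e) + seq 1 e := by ring
    rw [h4]
    exact add_mem h3 ((hinv 1).1 e)
  refine ⟨L, hLm, ?_⟩
  funext a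
  apply IsHausdorff.haus (I := m) (M := A) inferInstance
  intro n
  rw [SModEq.sub_mem, smul_eq_mul, Ideal.mul_top, sub_zero]
  rcases Nat.eq_zero_or_pos n with rfl | hn
  · simp
  · have hδ : ∀ e, (L - seq n) e ∈ m ^ n := fun e => hL e n
    have h := h2 n hn (seq n) (L - seq n) (hinv n).1 hδ a
    rw [add_sub_cancel] at h
    have h5 : G L a = (G L - G (seq n) - T.mulVec (L - seq n)) a + G (seq n) a
        + T.mulVec (L - seq n) a := by
      simp only [Pi.sub_apply]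
      ring
    rw [h5]
    refine add_mem (add_mem (Ideal.pow_le_pow_right (Nat.le_succ n) h)
      (Ideal.pow_le_pow_right (Nat.le_succ n) ((hinv n).2 a))) ?_
    exact mulVec_mem_of_forall_mem _ _ _ hδ a

/-- Uniqueness counterpart of `newton_exists`. -/
theorem newton_unique (m : Ideal A) [IsHausdorff m A]
    (G : (Fin 3 → A) → (Fin 3 → A)) (T : Matrix (Fin 3) (Fin 3) A) (hT : IsUnit T.det)
    (h2 : ∀ j : ℕ, 1 ≤ j → ∀ z δ : Fin 3 → A, (∀ e, z e ∈ m) → (∀ e, δ e ∈ m ^ j) →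
      ∀ a, (G (z + δ) - G z - T.mulVec δ) a ∈ m ^ (j + 1))
    (z : Fin 3 → A) (hz : ∀ e, z e ∈ m) (hG : G z = G 0) : z = 0 := by
  have hTT : ∀ v : Fin 3 → A, T⁻¹.mulVec (T.mulVec v) = v := by
    intro v
    rw [Matrix.mulVec_mulVec, Matrix.nonsing_inv_mul T hT, Matrix.one_mulVec]
  have hpow : ∀ j : ℕ, 1 ≤ j → ∀ e, z e ∈ m ^ j := by
    intro j hj
    induction j, hj using Nat.le_induction with
    | base => simpa using hz
    | succ j hj ih =>
      have h : ∀ a, T.mulVec z a ∈ m ^ (j + 1) := by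
        intro a
        have h3 := h2 j hj 0 z (fun e => by simp) ih a
        rw [zero_add, hG, sub_self, zero_sub, Pi.neg_apply] at h3
        simpa using neg_mem h3
      intro e
      have h4 := mulVec_mem_of_forall_mem _ T⁻¹ _ h e
      rwa [hTT] at h4
  funext e
  apply IsHausdorff.haus (I := m) (M := A) inferInstance
  intro n
  rw [SModEq.sub_mem, smul_eq_mul, Ideal.mul_top, sub_zero]
  rcases Nat.eq_zero_or_pos n with rfl | hn
  · simp
  · exact hpow n hn e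

end Newton

section Slice

variable {A : Type} [CommRing A]

/-- The trace-free-corner matrix with entries `z`. -/
def Zmat (z : Fin 3 → A) : M2 A := !![0, z 0; z 1, z 2]

/-- The candidate normalizer `1 + Zmat z`. -/
def Ymat (z : Fin 3 → A) : M2 A := !![1, z 0; z 1, 1 + z 2]

/-- The defect of `Ymat z` as a normalizer (cleared of the determinant). -/
def Gfun (N : Fin 3 → M2 A) (pos : Fin 3 → Fin 2 × Fin 2) (c : Fin 3 → A) (z : Fin 3 → A) :
    Fin 3 → A :=
  fun a => (Ymat z * N a * (Ymat z).adjugate) (pos a).1 (pos a).2 - c a * (Ymat z).det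

theorem Eb_eq : Eb A = ![!![0, 1; 0, 0], !![0, 0; 1, 0], !![0, 0; 0, 1]] := by
  funext e
  ext i j
  fin_cases e <;> fin_cases i <;> fin_cases j <;> simp [Eb]

theorem taylor_entry (N : M2 A) (i j : Fin 2) (c : A) (z δ : Fin 3 → A) :
    (Ymat (z + δ) * N * (Ymat (z + δ)).adjugate) i j - c * (Ymat (z + δ)).det
      - ((Ymat z * N * (Ymat z).adjugate) i j - c * (Ymat z).det)
      - ∑ e, (Eb A e * N - N * Eb A e) i j * δ e
    = δ 2 * (N i j - c)
      + (Zmat δ * N * (Zmat z).adjugate + Zmat z * N * (Zmat δ).adjugate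
          + Zmat δ * N * (Zmat δ).adjugate) i j
      + c * (z 0 * δ 1 + δ 0 * z 1 + δ 0 * δ 1) := by
  obtain ⟨n00, n01, n10, n11, rfl⟩ : ∃ a b c d, N = !![a, b; c, d] :=
    ⟨_, _, _, _, Matrix.eta_fin_two N⟩
  fin_cases i <;> fin_cases j <;>
    simp [Ymat, Zmat, Eb_eq, Matrix.mul_apply, Fin.sum_univ_two, Fin.sum_univ_three,
      Matrix.adjugate_fin_two, Matrix.det_fin_two] <;>
    ring

theorem mul_entry_mem {I₁ I₂ : Ideal A} {P Q : M2 A} (hP : ∀ i j, P i j ∈ I₁)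
    (hQ : ∀ i j, Q i j ∈ I₂) (i j : Fin 2) : (P * Q) i j ∈ I₁ * I₂ := by
  rw [Matrix.mul_apply]
  exact Ideal.sum_mem _ fun l _ => Ideal.mul_mem_mul (hP i l) (hQ l j)

theorem mul_entry_mem_left {I : Ideal A} {P : M2 A} (hP : ∀ i j, P i j ∈ I) (Q : M2 A)
    (i j : Fin 2) : (P * Q) i j ∈ I := by
  rw [Matrix.mul_apply]
  exact Ideal.sum_mem _ fun l _ => Ideal.mul_mem_right _ _ (hP i l)

theorem adjugate_entry_mem {I : Ideal A} {P : M2 A} (hP : ∀ i j, P i j ∈ I) (i j : Fin 2) :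
    P.adjugate i j ∈ I := by
  rw [Matrix.adjugate_fin_two]
  fin_cases i <;> fin_cases j <;> simp [hP]

theorem Zmat_entry_mem {I : Ideal A} {z : Fin 3 → A} (hz : ∀ e, z e ∈ I) (i j : Fin 2) :
    Zmat z i j ∈ I := by
  fin_cases i <;> fin_cases j <;> simp [Zmat, hz]

theorem taylor_mem (m I : Ideal A) (hI : I ≤ m) (N : M2 A) (i j : Fin 2) (c : A)
    (hc : N i j - c ∈ m) (z δ : Fin 3 → A) (hz : ∀ e, z e ∈ m) (hδ : ∀ e, δ e ∈ I) :
    (Ymat (z + δ) * N * (Ymat (z + δ)).adjugate) i j - c * (Ymat (z + δ)).det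
      - ((Ymat z * N * (Ymat z).adjugate) i j - c * (Ymat z).det)
      - ∑ e, (Eb A e * N - N * Eb A e) i j * δ e ∈ I * m := by
  rw [taylor_entry]
  have hII : I * I ≤ I * m := Ideal.mul_mono_right hI
  refine add_mem (add_mem (Ideal.mul_mem_mul (hδ 2) hc) ?_) ?_
  · rw [Matrix.add_apply, Matrix.add_apply]
    refine add_mem (add_mem ?_ ?_) ?_
    · exact mul_entry_mem (fun i j => mul_entry_mem_left (Zmat_entry_mem hδ) N i j)
        (fun i j => adjugate_entry_mem (Zmat_entry_mem hz) i j) i j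
    · rw [Ideal.mul_comm]
      exact mul_entry_mem (fun i j => mul_entry_mem_left (Zmat_entry_mem hz) N i j)
        (fun i j => adjugate_entry_mem (Zmat_entry_mem hδ) i j) i j
    · exact hII (mul_entry_mem (fun i j => mul_entry_mem_left (Zmat_entry_mem hδ) N i j)
        (fun i j => adjugate_entry_mem (Zmat_entry_mem hδ) i j) i j)
  · refine Ideal.mul_mem_left _ _ (add_mem (add_mem ?_ ?_) ?_)
    · rw [mul_comm (z 0)]; exact Ideal.mul_mem_mul (hδ 1) (hz 0)
    · exact Ideal.mul_mem_mul (hδ 0) (hz 1)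
    · exact hII (Ideal.mul_mem_mul (hδ 0) (hδ 1))

theorem Gfun_taylor (m : Ideal A) (N : Fin 3 → M2 A) (pos : Fin 3 → Fin 2 × Fin 2)
    (c : Fin 3 → A) (hc : ∀ a, N a (pos a).1 (pos a).2 - c a ∈ m) :
    ∀ j : ℕ, 1 ≤ j → ∀ z δ : Fin 3 → A, (∀ e, z e ∈ m) → (∀ e, δ e ∈ m ^ j) →
      ∀ a, (Gfun N pos c (z + δ) - Gfun N pos c z - (sliceMat N pos).mulVec δ) a
        ∈ m ^ (j + 1) := by
  intro j hj z δ hz hδ a
  have h := taylor_mem m (m ^ j) (Ideal.pow_le_self (by omega)) (N a) (pos a).1 (pos a).2 (c a)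
    (hc a) z δ hz hδ
  rw [pow_succ]
  simpa [Gfun, sliceMat, Matrix.mulVec, dotProduct] using h

theorem Gfun_zero (N : Fin 3 → M2 A) (pos : Fin 3 → Fin 2 × Fin 2) (c : Fin 3 → A) (a : Fin 3) :
    Gfun N pos c 0 a = N a (pos a).1 (pos a).2 - c a := by
  have h1 : Ymat (0 : Fin 3 → A) = 1 := by
    ext i j
    fin_cases i <;> fin_cases j <;> simp [Ymat]
  simp [Gfun, h1]

theorem Ymat_det (z : Fin 3 → A) : (Ymat z).det = 1 + z 2 - z 0 * z 1 := by
  simp [Ymat, Matrix.det_fin_two]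

/-- For a unit `Y`, conjugation by `Y` differs from `Y * N * adjugate Y` by `det Y`. -/
theorem mul_adjugate_eq_det_smul_conj (Y : (M2 A)ˣ) (N : M2 A) :
    (Y : M2 A) * N * (Y : M2 A).adjugate =
      (Y : M2 A).det • ((Y : M2 A) * N * ((Y⁻¹ : (M2 A)ˣ) : M2 A)) := by
  have h : (Y : M2 A).adjugate = (Y : M2 A).det • ((Y⁻¹ : (M2 A)ˣ) : M2 A) := by
    calc (Y : M2 A).adjugate
        = (Y : M2 A).adjugate * ((Y : M2 A) * ((Y⁻¹ : (M2 A)ˣ) : M2 A)) := by
          rw [Units.mul_inv, mul_one]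
      _ = ((Y : M2 A).adjugate * (Y : M2 A)) * ((Y⁻¹ : (M2 A)ˣ) : M2 A) := by
          rw [mul_assoc]
      _ = (Y : M2 A).det • ((Y⁻¹ : (M2 A)ˣ) : M2 A) := by
          rw [Matrix.adjugate_mul, Matrix.smul_mul, one_mul]
  rw [h, Matrix.mul_smul]

end Slice

theorem isUnit_of_sub_one_mem {A : Type} [CommRing A] [IsLocalRing A] {x : A}
    (hx : x - 1 ∈ maximalIdeal A) : IsUnit x := by
  by_contra h
  have h1 : x ∈ maximalIdeal A := (IsLocalRing.mem_maximalIdeal x).mpr h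
  have h2 : (1 : A) ∈ maximalIdeal A := by
    have h3 : (1 : A) = x - (x - 1) := by ring
    rw [h3]
    exact sub_mem h1 hx
  exact (Ideal.ne_top_iff_one _).mp (IsLocalRing.maximalIdeal.isMaximal A).ne_top h2

end NormalForm

section Main

open NormalForm

variable {A : Type} [CommRing A] [IsLocalRing A]

theorem exists_normalizer
    [IsAdicComplete (maximalIdeal A) A]
    (N : Fin 3 → M2 A) (pos : Fin 3 → Fin 2 × Fin 2) (c : Fin 3 → A)
    (hT : IsUnit (sliceMat N pos).det)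
    (hc : ∀ a, N a (pos a).1 (pos a).2 - c a ∈ maximalIdeal A) :
    ∃ Y : (M2 A)ˣ, (∀ i j, ((Y : M2 A) - 1) i j ∈ maximalIdeal A) ∧
      ∀ a, ((Y : M2 A) * N a * ((Y⁻¹ : (M2 A)ˣ) : M2 A)) (pos a).1 (pos a).2 = c a := by
  obtain ⟨z, hz, hG⟩ := newton_exists (maximalIdeal A) (Gfun N pos c) (sliceMat N pos) hT
    (fun a => by rw [Gfun_zero]; exact hc a) (Gfun_taylor (maximalIdeal A) N pos c hc)
  have hdet : IsUnit (Ymat z).det := by
    apply isUnit_of_sub_one_mem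
    rw [Ymat_det]
    have h3 : 1 + z 2 - z 0 * z 1 - 1 = z 2 - z 0 * z 1 := by ring
    rw [h3]
    exact sub_mem (hz 2) (Ideal.mul_mem_left _ _ (hz 1))
  let Y : (M2 A)ˣ := Matrix.nonsingInvUnit (Ymat z) hdet
  have hY : (Y : M2 A) = Ymat z := rfl
  refine ⟨Y, fun i j => ?_, fun a => ?_⟩
  · rw [hY]
    fin_cases i <;> fin_cases j <;> simp [Ymat, hz]
  · have h1 := congrFun hG a
    simp only [Gfun, Pi.zero_apply] at h1
    rw [← hY, mul_adjugate_eq_det_smul_conj, Matrix.smul_apply, smul_eq_mul] at h1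
    have h2 : (Y : M2 A).det * (((Y : M2 A) * N a * ((Y⁻¹ : (M2 A)ˣ) : M2 A)) (pos a).1 (pos a).2
        - c a) = 0 := by
      rw [mul_sub, mul_comm _ (c a)]
      exact h1
    have h3 : IsUnit (Y : M2 A).det := by rw [hY]; exact hdet
    exact sub_eq_zero.mp ((h3.mul_right_eq_zero).mp h2)

theorem normalizer_unique
    [IsHausdorff (maximalIdeal A) A]
    (N : Fin 3 → M2 A) (pos : Fin 3 → Fin 2 × Fin 2)
    (hT : IsUnit (sliceMat N pos).det)
    (Y : (M2 A)ˣ) (hY1 : ∀ i j, ((Y : M2 A) - 1) i j ∈ maximalIdeal A)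
    (h : ∀ a, ((Y : M2 A) * N a * ((Y⁻¹ : (M2 A)ˣ) : M2 A)) (pos a).1 (pos a).2
      = N a (pos a).1 (pos a).2) :
    (Y : M2 A) 0 1 = 0 ∧ (Y : M2 A) 1 0 = 0 ∧ (Y : M2 A) 0 0 = (Y : M2 A) 1 1 := by
  set c : Fin 3 → A := fun a => N a (pos a).1 (pos a).2 with hc
  have hu : IsUnit ((Y : M2 A) 0 0) := by
    apply isUnit_of_sub_one_mem
    simpa using hY1 0 0
  obtain ⟨u, hu'⟩ := hu
  have h01 : (Y : M2 A) 0 1 ∈ maximalIdeal A := by simpa using hY1 0 1
  have h10 : (Y : M2 A) 1 0 ∈ maximalIdeal A := by simpa using hY1 1 0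
  have h11 : (Y : M2 A) 1 1 - 1 ∈ maximalIdeal A := by simpa using hY1 1 1
  have h00 : (Y : M2 A) 0 0 - 1 ∈ maximalIdeal A := by simpa using hY1 0 0
  set z : Fin 3 → A := ![(↑u⁻¹ : A) * (Y : M2 A) 0 1, (↑u⁻¹ : A) * (Y : M2 A) 1 0,
    (↑u⁻¹ : A) * ((Y : M2 A) 1 1 - (Y : M2 A) 0 0)] with hzdef
  have hz : ∀ e, z e ∈ maximalIdeal A := by
    intro e
    fin_cases e
    · exact Ideal.mul_mem_left _ _ h01
    · exact Ideal.mul_mem_left _ _ h10
    · refine Ideal.mul_mem_left _ _ ?_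
      have h3 : (Y : M2 A) 1 1 - (Y : M2 A) 0 0 = ((Y : M2 A) 1 1 - 1) - ((Y : M2 A) 0 0 - 1) := by
        ring
      rw [h3]
      exact sub_mem h11 h00
  have hYz : (Y : M2 A) = (u : A) • Ymat z := by
    ext i j
    fin_cases i <;> fin_cases j <;> simp [Ymat, hzdef, ← hu', mul_sub]
  have hG : Gfun N pos c z = Gfun N pos c 0 := by
    funext a
    rw [Gfun_zero]
    have h1 : (Y : M2 A) * N a * (Y : M2 A).adjugate =
        (Y : M2 A).det • ((Y : M2 A) * N a * ((Y⁻¹ : (M2 A)ˣ) : M2 A)) :=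
      mul_adjugate_eq_det_smul_conj Y (N a)
    have h2 := congrFun (congrFun h1 (pos a).1) (pos a).2
    rw [Matrix.smul_apply, smul_eq_mul, h a] at h2
    have h3 : (Y : M2 A) * N a * (Y : M2 A).adjugate =
        ((u : A) * (u : A)) • (Ymat z * N a * (Ymat z).adjugate) := by
      rw [hYz, Matrix.adjugate_smul]
      simp [smul_smul]
    have h4 : (Y : M2 A).det = ((u : A) * (u : A)) * (Ymat z).det := by
      rw [hYz, Matrix.det_smul]
      simp [pow_two]
    rw [h3, h4, Matrix.smul_apply, smul_eq_mul] at h2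
    have h5 : ((u : A) * (u : A)) * (Gfun N pos c z a - (N a (pos a).1 (pos a).2 - c a)) = 0 := by
      simp only [Gfun, hc]
      linear_combination h2
    have h6 : IsUnit ((u : A) * (u : A)) := (u * u).isUnit
    exact sub_eq_zero.mp ((h6.mul_right_eq_zero).mp h5)
  have hz0 : z = 0 := newton_unique (maximalIdeal A) (Gfun N pos c) (sliceMat N pos) hT
    (Gfun_taylor (maximalIdeal A) N pos c (fun a => by simp [hc])) z hz hG
  have e0 : (↑u⁻¹ : A) * (Y : M2 A) 0 1 = 0 := by simpa [hzdef] using congrFun hz0 0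
  have e1 : (↑u⁻¹ : A) * (Y : M2 A) 1 0 = 0 := by simpa [hzdef] using congrFun hz0 1
  have e2 : (↑u⁻¹ : A) * ((Y : M2 A) 1 1 - (Y : M2 A) 0 0) = 0 := by
    simpa [hzdef] using congrFun hz0 2
  refine ⟨(u⁻¹.isUnit.mul_right_eq_zero).mp e0, (u⁻¹.isUnit.mul_right_eq_zero).mp e1, ?_⟩
  exact (sub_eq_zero.mp ((u⁻¹.isUnit.mul_right_eq_zero).mp e2)).symm

end Main

end Fermat.Agent.S53

end
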