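import Fermat.Agent.S53.Schur
import Fermat.Agent.S53.NormalForm
import Fermat.Agent.S53.Dictionary

set_option autoImplicit false
set_option linter.unusedSectionVars false

noncomputable section

namespace Fermat.Agent.S53

open IsLocalRing GaloisRep

/-! ## Entrywise ideal membership for `2 × 2` matrices -/

section Entries

variable {A : Type} [CommRing A]

/-- All entries of a `2 × 2` matrix lie in an ideal. -/
def EntriesIn (I : Ideal A) (M : M2 A) : Prop := ∀ i j, M i j ∈ I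

theorem EntriesIn.mul_right {I : Ideal A} {M : M2 A} (h : EntriesIn I M) (N : M2 A) :
    EntriesIn I (M * N) := by
  intro i j
  rw [Matrix.mul_apply]
  exact Ideal.sum_mem _ fun l _ => Ideal.mul_mem_right _ _ (h i l)

theorem EntriesIn.mul_left {I : Ideal A} {M : M2 A} (h : EntriesIn I M) (N : M2 A) :
    EntriesIn I (N * M) := by
  intro i j
  rw [Matrix.mul_apply]
  exact Ideal.sum_mem _ fun l _ => Ideal.mul_mem_left _ _ (h l j)

theorem EntriesIn.add {I : Ideal A} {M N : M2 A} (h : EntriesIn I M) (h' : EntriesIn I N) :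
    EntriesIn I (M + N) := fun i j => Ideal.add_mem _ (h i j) (h' i j)

theorem EntriesIn.neg {I : Ideal A} {M : M2 A} (h : EntriesIn I M) :
    EntriesIn I (-M) := fun i j => Ideal.neg_mem_iff _ |>.mpr (h i j)

theorem entriesIn_inv_sub_one {I : Ideal A} (Y : (M2 A)ˣ) (h : EntriesIn I ((Y : M2 A) - 1)) :
    EntriesIn I (((Y⁻¹ : (M2 A)ˣ) : M2 A) - 1) := by
  have e : ((Y⁻¹ : (M2 A)ˣ) : M2 A) - 1 = -(((Y⁻¹ : (M2 A)ˣ) : M2 A) * ((Y : M2 A) - 1)) := by
    rw [mul_sub, Units.inv_mul, mul_one]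
    abel
  rw [e]
  exact (h.mul_left _).neg

theorem entriesIn_conj_sub {I : Ideal A} (Y : (M2 A)ˣ) (h : EntriesIn I ((Y : M2 A) - 1))
    (N : M2 A) : EntriesIn I ((Y : M2 A) * N * ((Y⁻¹ : (M2 A)ˣ) : M2 A) - N) := by
  have e : (Y : M2 A) * N * ((Y⁻¹ : (M2 A)ˣ) : M2 A) - N =
      ((Y : M2 A) - 1) * (N * ((Y⁻¹ : (M2 A)ˣ) : M2 A)) +
        N * (((Y⁻¹ : (M2 A)ˣ) : M2 A) - 1) := by
    noncomm_ring
  rw [e]
  exact (h.mul_right _).add ((entriesIn_inv_sub_one Y h).mul_left _)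

theorem entriesIn_conj_of_entriesIn {I : Ideal A} (Y : (M2 A)ˣ) {N : M2 A}
    (h : EntriesIn I (N - 1)) :
    EntriesIn I ((Y : M2 A) * N * ((Y⁻¹ : (M2 A)ˣ) : M2 A) - 1) := by
  have e : (Y : M2 A) * N * ((Y⁻¹ : (M2 A)ˣ) : M2 A) - 1 =
      (Y : M2 A) * ((N - 1) * ((Y⁻¹ : (M2 A)ˣ) : M2 A)) := by
    rw [sub_mul, mul_sub, one_mul, Units.mul_inv, mul_assoc]
  rw [e]
  exact (h.mul_right _).mul_left _

end Entries

/-! ## Normalize.lean : group level normal forms (uses Parts II, III) -/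

section Normalize

variable {𝒪 : Type} [CommRing 𝒪] [IsLocalRing 𝒪] {ρbar : ResidualGaloisRep (ResidueField 𝒪)}
variable {A : Type} [CommRing A] [IsLocalRing A] [Algebra 𝒪 A]

theorem IsLift.conjHom {rt : Gal → M2 𝒪} {r : Gal →* M2 A} (hl : IsLift rt r) (Y : (M2 A)ˣ)
    (hY : ∀ i j, ((Y : M2 A) - 1) i j ∈ maximalIdeal A) : IsLift rt (conjHom Y r) := by
  intro σ i j
  have h1 := entriesIn_conj_sub Y (I := maximalIdeal A) hY (r σ) i j
  have h2 := hl σ i j
  have e : Fermat.Agent.S53.conjHom Y r σ i j - algebraMap 𝒪 A (rt σ i j) =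
      ((Y : M2 A) * r σ * ((Y⁻¹ : (M2 A)ˣ) : M2 A) - r σ) i j +
        (r σ i j - algebraMap 𝒪 A (rt σ i j)) := by
    rw [conjHom_apply, Matrix.sub_apply]
    ring
  rw [e]
  exact Ideal.add_mem _ h1 h2

theorem IsCont.conjHom {r : Gal →* M2 A} (hc : IsCont r) (Y : (M2 A)ˣ) :
    IsCont (conjHom Y r) := by
  intro n
  obtain ⟨L, hL, h⟩ := hc n
  refine ⟨L, hL, fun σ hσ => ?_⟩
  exact entriesIn_conj_of_entriesIn Y (I := maximalIdeal A ^ n) (h σ hσ)

theorem toAdic_conjHom_isEquiv (r : Gal →* M2 A) (hc : IsCont r) (Y : (M2 A)ˣ)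
    (hc' : IsCont (conjHom Y r)) : (toAdic (conjHom Y r) hc').IsEquiv (toAdic r hc) := by
  rw [toAdic_isEquiv_iff]
  refine ⟨Y⁻¹, fun σ => ?_⟩
  rw [conjHom_apply, ← mul_assoc, ← mul_assoc, Units.inv_mul, one_mul]

theorem IsLift.mapHom {rt : Gal → M2 𝒪} {r : Gal →* M2 A} (hl : IsLift rt r)
    {B : Type} [CommRing B] [IsLocalRing B] [Algebra 𝒪 B] (φ : A →ₐ[𝒪] B)
    (hφ : IsLocalHom (φ : A →+* B)) : IsLift rt (mapHom (φ : A →+* B) r) := by
  intro σ i j
  have e : Fermat.Agent.S53.mapHom (φ : A →+* B) r σ i j - algebraMap 𝒪 B (rt σ i j) =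
      (φ : A →+* B) (r σ i j - algebraMap 𝒪 A (rt σ i j)) := by
    rw [mapHom_apply, map_sub]
    congr 1
    exact (φ.commutes _).symm
  rw [e]
  exact map_nonunit (φ : A →+* B) _ (hl σ i j)

theorem IsNormalized.mapHom {rt : Gal → M2 𝒪} {sl : Fin 3 → Pos} {r : Gal →* M2 A}
    (hn : IsNormalized rt sl r)
    {B : Type} [CommRing B] [IsLocalRing B] [Algebra 𝒪 B] (φ : A →ₐ[𝒪] B) :
    IsNormalized rt sl (mapHom (φ : A →+* B) r) := by
  intro a
  rw [mapHom_apply, hn a]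
  exact φ.commutes _

/-- The slice matrix of any lift is invertible. -/
theorem isUnit_det_sliceMat_of_isLift (rt : Gal → M2 𝒪) (sl : Fin 3 → Pos)
    (hsl : IsUnit (sliceMat (fun a => rt (sl a).1) (fun a => (sl a).2)).det)
    (r : Gal →* M2 A) (hl : IsLift rt r) :
    IsUnit (sliceMat (fun a => r (sl a).1) (fun a => (sl a).2)).det := by
  rw [← IsLocalRing.residue_ne_zero_iff_isUnit]
  have h1 : (fun a => (r (sl a).1).map (residue A)) =
      fun a => (rt (sl a).1).map ((residue A).comp (algebraMap 𝒪 A)) := by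
    funext a
    ext i j
    simp only [Matrix.map_apply, RingHom.comp_apply]
    rw [← sub_eq_zero, ← map_sub]
    exact (IsLocalRing.residue_eq_zero_iff _).mpr (hl (sl a).1 i j)
  rw [RingHom.map_det, RingHom.mapMatrix_apply, sliceMat_map, h1, ← sliceMat_map,
    ← RingHom.mapMatrix_apply, ← RingHom.map_det]
  exact (hsl.map _).ne_zero

/-- (L2) every lift over a complete local ring is conjugate to a normalized one -/
theorem exists_normalized_conj (D : ResData 𝒪 ρbar) [IsAdicComplete (maximalIdeal A) A]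
    (r : Gal →* M2 A) (hl : IsLift D.rt r) :
    ∃ Y : (M2 A)ˣ, (∀ i j, ((Y : M2 A) - 1) i j ∈ maximalIdeal A) ∧
      IsNormalized D.rt D.sl (conjHom Y r) := by
  obtain ⟨Y, hY1, hY⟩ := exists_normalizer (fun a => r (D.sl a).1) (fun a => (D.sl a).2)
    (fun a => algebraMap 𝒪 A (D.rt (D.sl a).1 (D.sl a).2.1 (D.sl a).2.2))
    (isUnit_det_sliceMat_of_isLift D.rt D.sl D.hsl r hl) (fun a => hl _ _ _)
  exact ⟨Y, hY1, fun a => hY a⟩

/-- (L3) two normalized lifts with equivalent `toAdic` are equal -/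
theorem eq_of_toAdic_isEquiv (D : ResData 𝒪 ρbar) [IsLocalHom (algebraMap 𝒪 A)]
    [IsHausdorff (maximalIdeal A) A]
    (hsurj : Function.Surjective (residue A ∘ algebraMap 𝒪 A))
    {r r' : Gal →* M2 A} (hl : IsLift D.rt r) (hl' : IsLift D.rt r')
    (hn : IsNormalized D.rt D.sl r) (hn' : IsNormalized D.rt D.sl r')
    (hc : IsCont r) (hc' : IsCont r') (h : (toAdic r hc).IsEquiv (toAdic r' hc')) :
    r = r' := by
  obtain ⟨Y, hY⟩ := (toAdic_isEquiv_iff r r' hc hc').mp h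
  -- residues of lifts
  have hres_r : ∀ (s : Gal →* M2 A), IsLift D.rt s → ∀ σ i j,
      residue A (s σ i j) = ResidueField.map (algebraMap 𝒪 A) (rbarHom ρbar D.b σ i j) := by
    intro s hs σ i j
    rw [← D.hrt σ i j, ResidueField.map_residue, ← sub_eq_zero, ← map_sub]
    exact (IsLocalRing.residue_eq_zero_iff _).mpr (hs σ i j)
  -- descend the residue of `Y` to the residue field of `𝒪`
  have hdesc : ∀ i j, ∃ z : ResidueField 𝒪,
      ResidueField.map (algebraMap 𝒪 A) z = residue A ((Y : M2 A) i j) := by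
    intro i j
    obtain ⟨x, hx⟩ := hsurj (residue A ((Y : M2 A) i j))
    exact ⟨residue 𝒪 x, by rw [ResidueField.map_residue]; exact hx⟩
  choose Z hZ using hdesc
  have hinj : Function.Injective (ResidueField.map (algebraMap 𝒪 A)) := RingHom.injective _
  have hcomm : ∀ σ, (Matrix.of Z : M2 (ResidueField 𝒪)) * rbarHom ρbar D.b σ =
      rbarHom ρbar D.b σ * (Matrix.of Z : M2 (ResidueField 𝒪)) := by
    intro σ
    ext i j
    apply hinj
    have h1 := congrArg (fun M : M2 A => residue A (M i j)) (hY σ)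
    simp only [Matrix.mul_apply, map_sum, map_mul] at h1
    simp only [Matrix.mul_apply, map_sum, map_mul, Matrix.of_apply, hZ]
    rw [Fin.sum_univ_two, Fin.sum_univ_two] at h1 ⊢
    rw [← hres_r r hl, ← hres_r r hl, ← hres_r r' hl', ← hres_r r' hl']
    exact h1
  obtain ⟨z01, z10, z00⟩ := D.schur (Matrix.of Z) hcomm
  have m01 : (Y : M2 A) 0 1 ∈ maximalIdeal A := by
    rw [← IsLocalRing.residue_eq_zero_iff, ← hZ 0 1]
    simp only [Matrix.of_apply] at z01
    rw [z01, map_zero]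
  have m10 : (Y : M2 A) 1 0 ∈ maximalIdeal A := by
    rw [← IsLocalRing.residue_eq_zero_iff, ← hZ 1 0]
    simp only [Matrix.of_apply] at z10
    rw [z10, map_zero]
  have m00 : (Y : M2 A) 0 0 - (Y : M2 A) 1 1 ∈ maximalIdeal A := by
    rw [← IsLocalRing.residue_eq_zero_iff, map_sub, ← hZ 0 0, ← hZ 1 1]
    simp only [Matrix.of_apply] at z00
    rw [z00, sub_self]
  -- `Y 1 1` is a unit
  have hdet : IsUnit (Y : M2 A).det := (Matrix.isUnit_iff_isUnit_det _).mp Y.isUnit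
  have hu : IsUnit ((Y : M2 A) 1 1) := by
    by_contra hnu
    have h11 : (Y : M2 A) 1 1 ∈ maximalIdeal A := hnu
    have : (Y : M2 A).det ∈ maximalIdeal A := by
      rw [Matrix.det_fin_two]
      exact Ideal.sub_mem _ (Ideal.mul_mem_left _ _ h11) (Ideal.mul_mem_right _ _ m01)
    exact this hdet
  obtain ⟨u, hu⟩ := hu
  -- the rescaled matrix `Y' = u⁻¹ • Y`
  let su : (M2 A)ˣ := Units.map (Matrix.scalar (Fin 2)).toMonoidHom u⁻¹
  let Y' : (M2 A)ˣ := su * Y
  have hY'coe : (Y' : M2 A) = ((u⁻¹ : Aˣ) : A) • (Y : M2 A) := by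
    change Matrix.scalar (Fin 2) ((u⁻¹ : Aˣ) : A) * (Y : M2 A) = _
    rw [Matrix.scalar_apply]
    exact (Matrix.smul_eq_diagonal_mul _ _).symm
  have hY'1 : ∀ i j, ((Y' : M2 A) - 1) i j ∈ maximalIdeal A := by
    intro i j
    rw [hY'coe]
    fin_cases i <;> fin_cases j
    · have : (((u⁻¹ : Aˣ) : A) • (Y : M2 A) - 1) 0 0 =
          ((u⁻¹ : Aˣ) : A) * ((Y : M2 A) 0 0 - (Y : M2 A) 1 1) := by
        simp only [Matrix.sub_apply, Matrix.smul_apply, Matrix.one_apply_eq, smul_eq_mul]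
        rw [mul_sub, ← hu, Units.inv_mul]
      change (((u⁻¹ : Aˣ) : A) • (Y : M2 A) - 1) 0 0 ∈ _
      rw [this]
      exact Ideal.mul_mem_left _ _ m00
    · change (((u⁻¹ : Aˣ) : A) • (Y : M2 A) - 1) 0 1 ∈ _
      simp only [Matrix.sub_apply, Matrix.smul_apply, smul_eq_mul, ne_eq, zero_ne_one,
        not_false_eq_true, Matrix.one_apply_ne, sub_zero]
      exact Ideal.mul_mem_left _ _ m01
    · change (((u⁻¹ : Aˣ) : A) • (Y : M2 A) - 1) 1 0 ∈ _
      simp only [Matrix.sub_apply, Matrix.smul_apply, smul_eq_mul, ne_eq, one_ne_zero,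
        not_false_eq_true, Matrix.one_apply_ne, sub_zero]
      exact Ideal.mul_mem_left _ _ m10
    · change (((u⁻¹ : Aˣ) : A) • (Y : M2 A) - 1) 1 1 ∈ _
      simp only [Matrix.sub_apply, Matrix.smul_apply, Matrix.one_apply_eq, smul_eq_mul]
      rw [← hu, Units.inv_mul, sub_self]
      exact Ideal.zero_mem _
  -- `Y'` still intertwines
  have hY' : ∀ σ, (Y' : M2 A) * r σ = r' σ * (Y' : M2 A) := by
    intro σ
    rw [hY'coe, Matrix.smul_mul, Matrix.mul_smul, hY σ]
  have hconj : ∀ σ, (Y' : M2 A) * r σ * ((Y'⁻¹ : (M2 A)ˣ) : M2 A) = r' σ := by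
    intro σ
    rw [hY' σ, mul_assoc, Units.mul_inv, mul_one]
  obtain ⟨y01, y10, y00⟩ := normalizer_unique (fun a => r (D.sl a).1) (fun a => (D.sl a).2)
    (isUnit_det_sliceMat_of_isLift D.rt D.sl D.hsl r hl) Y' hY'1 (fun a => by
      rw [hconj]
      exact (hn' a).trans (hn a).symm)
  -- hence `Y'` is scalar and `r = r'`
  have hscal : (Y' : M2 A) = Matrix.scalar (Fin 2) ((Y' : M2 A) 0 0) := by
    ext i j
    fin_cases i <;> fin_cases j <;> simp [y01, y10, ← y00]
  ext σ : 1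
  have h2 := hY' σ
  rw [hscal] at h2
  have h3 : (Matrix.scalar (Fin 2) ((Y' : M2 A) 0 0)) * r σ =
      (Matrix.scalar (Fin 2) ((Y' : M2 A) 0 0)) * r' σ := by
    rw [h2]
    exact ((Matrix.scalar_commute _ (fun _ => Commute.all _ _) _).eq).symm
  have hunit : IsUnit (Matrix.scalar (Fin 2) ((Y' : M2 A) 0 0)) := by
    rw [← hscal]; exact Y'.isUnit
  exact hunit.mul_left_cancel h3

/-- an `𝒪`-algebra map into a local `𝒪`-algebra with residue field `k` is local -/
theorem isLocalHom_of_residue_surjective [IsLocalHom (algebraMap 𝒪 A)]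
    (hsurj : Function.Surjective (residue A ∘ algebraMap 𝒪 A))
    {B : Type} [CommRing B] [IsLocalRing B] [Algebra 𝒪 B] (φ : B →ₐ[𝒪] A) :
    IsLocalHom (φ : B →+* A) := by
  let f : B →+* ResidueField A := (residue A).comp (φ : B →+* A)
  have hf : Function.Surjective f := by
    intro y
    obtain ⟨x, hx⟩ := hsurj y
    refine ⟨algebraMap 𝒪 B x, ?_⟩
    change residue A (φ (algebraMap 𝒪 B x)) = y
    rw [φ.commutes]
    exact hx
  have hmax : (RingHom.ker f).IsMaximal := RingHom.ker_isMaximal_of_surjective f hf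
  have hker : RingHom.ker f = maximalIdeal B := IsLocalRing.eq_maximalIdeal hmax
  refine ⟨fun b hb => ?_⟩
  by_contra hnu
  have hb' : b ∈ RingHom.ker f := by
    rw [hker]
    exact hnu
  have h0 : residue A (φ b) = 0 := hb'
  exact ((IsLocalRing.residue_eq_zero_iff _).mp h0) hb

end Normalize

end Fermat.Agent.S53

end
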