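import Mathlib
import Fermat.Agent.S53.Defs
import Fermat.Agent.S53.Dictionary
import Fermat.Agent.S53.Normalize
import Fermat.Agent.S53.Closure

/-!
# S53: from a universal normalized lift to `DeformationRingData`
-/

set_option autoImplicit false
set_option linter.unusedSectionVars false

noncomputable section

namespace Fermat.Agent.S53

open IsLocalRing GaloisRep

/-- equal matrix representations give equivalent `GaloisRepAdic`s -/
def toAdicEquivOfEq {A : Type} [CommRing A] [IsLocalRing A] {s s' : Gal →* M2 A} (h : s = s')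
    (hs : IsCont s) (hs' : IsCont s') : GaloisRepAdic.Equiv (toAdic s hs) (toAdic s' hs') := by
  subst h
  exact GaloisRepAdic.Equiv.refl _

theorem deformationRingData_of_univData
    {𝒪 : Type} [CommRing 𝒪] [IsDomain 𝒪] [IsDiscreteValuationRing 𝒪]
    [IsAdicComplete (maximalIdeal 𝒪) 𝒪]
    {ρbar : ResidualGaloisRep (ResidueField 𝒪)}
    {𝒟 : ∀ ⦃A : Type⦄ [CommRing A] [IsLocalRing A] [Algebra 𝒪 A], GaloisRepAdic A → Prop}
    (D : ResData 𝒪 ρbar) (h𝒟 : IsDeformationCondition 𝒪 𝒟)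
    (habs : ρbar.IsAbsolutelyIrreducible) (W : UnivData 𝒪 𝒟 D.rt D.sl) :
    Nonempty (DeformationRingData 𝒪 ρbar 𝒟) := by
  refine ⟨{ R := W.R
            residue_surjective := W.residue_surjective
            absIrr := habs
            ρ := toAdic W.r W.nlift.cont
            isOfType := W.nlift.type
            residual_isEquiv := ?_
            universal := ?_ }⟩
  · exact residual_isEquiv_of_isLift D.b D.rt D.hrt (ResidueField.map (algebraMap 𝒪 W.R))
      (fun x => rfl) W.r W.nlift.cont W.nlift.lift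
  · intro A _ _ _ _ _ _ hsurj ρA hρA hres
    -- a matrix model of `ρA` lifting `rt`
    obtain ⟨r0, hc0, hl0, ⟨e0⟩⟩ := exists_lift_of_residual D.b D.rt D.hrt
      (ResidueField.map (algebraMap 𝒪 A)) (fun x => rfl) ρA hres
    -- normalize it
    obtain ⟨Y, hY, hnorm⟩ := exists_normalized_conj D r0 hl0
    have hcA : IsCont (conjHom Y r0) := hc0.conjHom Y
    have hlA : IsLift D.rt (conjHom Y r0) := hl0.conjHom Y hY
    obtain ⟨e1⟩ := toAdic_conjHom_isEquiv r0 hc0 Y hcA
    -- `eA : toAdic rA ≃ ρA`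
    have eA : GaloisRepAdic.Equiv (toAdic (conjHom Y r0) hcA) ρA := e1.trans e0
    have htype : 𝒟 (toAdic (conjHom Y r0) hcA) :=
      type_of_isEquiv_complete h𝒟 hsurj ⟨eA.symm⟩ hρA
    have hnl : NLift 𝒟 D.rt D.sl (conjHom Y r0) := ⟨hlA, hnorm, hcA, htype⟩
    obtain ⟨φ, hφ⟩ := W.exists_hom A hsurj (conjHom Y r0) hnl
    have hloc : ∀ ψ : W.R →ₐ[𝒪] A, IsLocalHom (ψ : W.R →+* A) := fun ψ =>
      isLocalHom_of_residue_surjective hsurj ψ
    refine ⟨φ, ⟨hloc φ, ?_⟩, ?_⟩
    · have hc' : IsCont (mapHom (φ : W.R →+* A) W.r) := W.nlift.cont.mapHom _ (hloc φ)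
      obtain ⟨e2⟩ := toAdic_baseChangeAlong_isEquiv (φ : W.R →+* A) (hloc φ) W.r W.nlift.cont hc'
      have e3 : GaloisRepAdic.Equiv (toAdic (mapHom (φ : W.R →+* A) W.r) hc')
          (toAdic (conjHom Y r0) hcA) := toAdicEquivOfEq hφ hc' hcA
      exact ⟨(e2.trans e3).trans eA⟩
    · rintro φ' ⟨hφ', ⟨e'⟩⟩
      have hc' : IsCont (mapHom (φ' : W.R →+* A) W.r) := W.nlift.cont.mapHom _ hφ'
      obtain ⟨e2⟩ := toAdic_baseChangeAlong_isEquiv (φ' : W.R →+* A) hφ' W.r W.nlift.cont hc'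
      have e4 : GaloisRepAdic.Equiv (toAdic (mapHom (φ' : W.R →+* A) W.r) hc')
          (toAdic (conjHom Y r0) hcA) := (e2.symm.trans e').trans eA.symm
      have heq : mapHom (φ' : W.R →+* A) W.r = conjHom Y r0 :=
        eq_of_toAdic_isEquiv D hsurj (W.nlift.lift.mapHom φ' hφ') hlA
          (W.nlift.norm.mapHom φ') hnorm hc' hcA ⟨e4⟩
      exact W.hom_ext A hsurj φ' φ (heq.trans hφ.symm)

end Fermat.Agent.S53

end
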