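import Fermat.Agent.S53.Defs

set_option autoImplicit false
set_option linter.unusedSectionVars false
set_option linter.style.haveILetI false
noncomputable section
namespace Fermat.Agent.S53
open IsLocalRing GaloisRep

/-! ## Part V-a: generic facts about Artinian test algebras -/

section DN
variable (k : Type) [Field k]

theorem dn_mem_maximalIdeal_iff (x : DualNumber k) :
    x ∈ maximalIdeal (DualNumber k) ↔ TrivSqZeroExt.fst x = 0 := by
  rw [DualNumber.maximalIdeal_eq_span_singleton_eps, Ideal.mem_span_singleton,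
    DualNumber.fst_eq_zero_iff_eps_dvd]

theorem dn_maximalIdeal_sq : maximalIdeal (DualNumber k) ^ 2 = ⊥ := by
  rw [DualNumber.maximalIdeal_eq_span_singleton_eps, Ideal.span_singleton_pow,
    DualNumber.eps_pow_two, Ideal.span_singleton_eq_bot]

theorem dn_isArtinianRing : IsArtinianRing (DualNumber k) := by
  haveI : Module.Finite k (DualNumber k) := inferInstanceAs (Module.Finite k (k × k))
  exact IsArtinianRing.of_finite k (DualNumber k)

/-- The dual number `a + b ε`. -/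
def dnMk (a b : k) : DualNumber k := TrivSqZeroExt.inl a + TrivSqZeroExt.inr b

theorem dnMk_zero : dnMk k 0 0 = 0 := by
  unfold dnMk; simp

theorem dnMk_one : dnMk k 1 0 = 1 := by
  unfold dnMk; simp

theorem dnMk_add (a b a' b' : k) : dnMk k (a + a') (b + b') = dnMk k a b + dnMk k a' b' := by
  unfold dnMk
  ext <;> simp only [TrivSqZeroExt.fst_add, TrivSqZeroExt.snd_add, TrivSqZeroExt.fst_inl,
    TrivSqZeroExt.fst_inr, TrivSqZeroExt.snd_inl, TrivSqZeroExt.snd_inr, add_zero, zero_add]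

theorem dnMk_mul (a b a' b' : k) :
    dnMk k (a * a') (a * b' + a' * b) = dnMk k a b * dnMk k a' b' := by
  unfold dnMk
  ext
  · simp only [TrivSqZeroExt.fst_add, TrivSqZeroExt.fst_mul, TrivSqZeroExt.fst_inl,
      TrivSqZeroExt.fst_inr, add_zero]
  · simp only [TrivSqZeroExt.snd_add, DualNumber.snd_mul, TrivSqZeroExt.fst_add,
      TrivSqZeroExt.fst_inl, TrivSqZeroExt.fst_inr, TrivSqZeroExt.snd_inl, TrivSqZeroExt.snd_inr,
      add_zero, zero_add]
    ring

theorem dn_snd_dnMk (a b : k) : TrivSqZeroExt.snd (dnMk k a b) = b := by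
  unfold dnMk; simp

theorem dn_inl_eq_dnMk (a : k) : (TrivSqZeroExt.inl a : DualNumber k) = dnMk k a 0 := by
  unfold dnMk; simp

end DN

section TestAlg
variable {𝒪 : Type} [CommRing 𝒪] [IsLocalRing 𝒪]
variable {E : Type} [CommRing E] [IsLocalRing E] [Algebra 𝒪 E]

/-- every element of a test algebra is congruent to a constant -/
theorem IsArtinianTestAlgebra.exists_sub_mem (h : IsArtinianTestAlgebra 𝒪 E) (x : E) :
    ∃ c : 𝒪, x - algebraMap 𝒪 E c ∈ maximalIdeal E := by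
  obtain ⟨c, hc⟩ := h.residue_surjective (residue E x)
  refine ⟨c, ?_⟩
  rw [← Ideal.Quotient.eq_zero_iff_mem (I := maximalIdeal E)]
  have h1 : residue E (x - algebraMap 𝒪 E c) = 0 := by
    rw [map_sub]
    simp only [Function.comp_apply] at hc
    rw [hc, sub_self]
  exact h1

theorem IsArtinianTestAlgebra.exists_pow_eq_bot (h : IsArtinianTestAlgebra 𝒪 E) :
    ∃ n : ℕ, maximalIdeal E ^ n = ⊥ := by
  have := h.isArtinian
  have h1 := IsArtinianRing.isNilpotent_jacobson_bot (R := E)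
  rw [IsLocalRing.jacobson_eq_maximalIdeal (⊥ : Ideal E) bot_ne_top] at h1
  obtain ⟨n, hn⟩ := h1
  exact ⟨n, hn⟩

theorem IsArtinianTestAlgebra.algebraMap_mem (h : IsArtinianTestAlgebra 𝒪 E) {c : 𝒪}
    (hc : c ∈ maximalIdeal 𝒪) : algebraMap 𝒪 E c ∈ maximalIdeal E := by
  have := h.isLocalHom
  rw [mem_maximalIdeal, mem_nonunits_iff] at hc ⊢
  exact fun hu => hc (isUnit_of_map_unit (algebraMap 𝒪 E) c hu)

theorem finite_of_isFiniteLength_aux [Finite (ResidueField E)] {M : Type} [AddCommGroup M]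
    [Module E M] (hM : IsFiniteLength E M) : Finite M := by
  induction hM with
  | of_subsingleton => infer_instance
  | @of_simple_quotient M _ _ N hs _ ih =>
    obtain ⟨I, hI, ⟨e⟩⟩ := isSimpleModule_iff_quot_maximal.mp hs
    have hIm : I = maximalIdeal E := IsLocalRing.eq_maximalIdeal hI
    subst hIm
    have h1 : Finite (E ⧸ maximalIdeal E) := ‹Finite (ResidueField E)›
    have h2 : Finite (M ⧸ N) := Finite.of_equiv _ e.symm.toEquiv
    have h3 : Finite (M ⧸ N.toAddSubgroup) := h2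
    have h4 : Finite N.toAddSubgroup := ih
    exact Finite.of_addSubgroup_quotient N.toAddSubgroup

theorem IsArtinianTestAlgebra.finite [Finite (ResidueField 𝒪)] (h : IsArtinianTestAlgebra 𝒪 E) :
    Finite E := by
  have := h.isArtinian
  have := h.isLocalHom
  have hk : Finite (ResidueField E) := by
    have hs : Function.Surjective (ResidueField.map (algebraMap 𝒪 E)) := by
      intro y
      obtain ⟨c, hc⟩ := h.residue_surjective y
      exact ⟨residue 𝒪 c, by simpa using hc⟩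
    exact Finite.of_surjective _ hs
  have hfl : IsFiniteLength E E :=
    isFiniteLength_iff_isNoetherian_isArtinian.mpr ⟨inferInstance, inferInstance⟩
  exact finite_of_isFiniteLength_aux hfl

/-- a finite local `𝒪`-algebra with local structure map and residue field `k` is a test algebra -/
theorem isArtinianTestAlgebra_of_finite [Finite E] (h1 : IsLocalHom (algebraMap 𝒪 E))
    (h2 : Function.Surjective (residue E ∘ algebraMap 𝒪 E)) : IsArtinianTestAlgebra 𝒪 E :=
  ⟨h1, h2, inferInstance⟩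

/-- the residue field itself is a test algebra -/
theorem isArtinianTestAlgebra_residueField : IsArtinianTestAlgebra 𝒪 (ResidueField 𝒪) := by
  refine ⟨?_, ?_, inferInstance⟩
  · show IsLocalHom (residue 𝒪)
    infer_instance
  · intro y
    obtain ⟨z, rfl⟩ := residue_surjective y
    obtain ⟨c, rfl⟩ := residue_surjective z
    exact ⟨c, rfl⟩

/-- The element `a + b ε` of `Tan 𝒪`. -/
def tanMk (a b : ResidueField 𝒪) : Tan 𝒪 := dnMk (ResidueField 𝒪) a b

/-- The constant part of an element of `Tan 𝒪`. -/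
def tanFst (x : Tan 𝒪) : ResidueField 𝒪 := TrivSqZeroExt.fst (x : DualNumber (ResidueField 𝒪))

/-- The `ε`-part of an element of `Tan 𝒪`. -/
def tanSnd (x : Tan 𝒪) : ResidueField 𝒪 := TrivSqZeroExt.snd (x : DualNumber (ResidueField 𝒪))

theorem tanMk_zero : tanMk (0 : ResidueField 𝒪) 0 = 0 := dnMk_zero _

theorem tanMk_one : tanMk (1 : ResidueField 𝒪) 0 = 1 := dnMk_one _

theorem tanMk_add (a b a' b' : ResidueField 𝒪) :
    tanMk (a + a') (b + b') = tanMk a b + tanMk a' b' := dnMk_add _ a b a' b'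

theorem tanMk_mul (a b a' b' : ResidueField 𝒪) :
    tanMk (a * a') (a * b' + a' * b) = tanMk a b * tanMk a' b' := dnMk_mul _ a b a' b'

theorem tanSnd_tanMk (a b : ResidueField 𝒪) : tanSnd (tanMk a b) = b := dn_snd_dnMk _ a b

theorem tanSnd_zero : tanSnd (0 : Tan 𝒪) = 0 := rfl

theorem tan_algebraMap_eq_tanMk (c : 𝒪) :
    algebraMap 𝒪 (Tan 𝒪) c = tanMk (residue 𝒪 c) 0 := dn_inl_eq_dnMk _ (residue 𝒪 c)

theorem tan_mem_maximalIdeal_iff (x : Tan 𝒪) :
    x ∈ maximalIdeal (Tan 𝒪) ↔ tanFst x = 0 :=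
  dn_mem_maximalIdeal_iff (ResidueField 𝒪) x

theorem tanFst_algebraMap (c : 𝒪) : tanFst (algebraMap 𝒪 (Tan 𝒪) c) = residue 𝒪 c := rfl

theorem tanFst_sub (x y : Tan 𝒪) : tanFst (x - y) = tanFst x - tanFst y := rfl

/-- `k[ε]` is a test algebra -/
theorem isArtinianTestAlgebra_tan : IsArtinianTestAlgebra 𝒪 (Tan 𝒪) := by
  refine ⟨⟨fun c hc => ?_⟩, ?_, dn_isArtinianRing (ResidueField 𝒪)⟩
  · by_contra hcu
    have hcm : c ∈ maximalIdeal 𝒪 := hcu
    have h0 : residue 𝒪 c = 0 := (residue_eq_zero_iff c).mpr hcm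
    have h1 : algebraMap 𝒪 (Tan 𝒪) c ∈ maximalIdeal (Tan 𝒪) := by
      rw [tan_mem_maximalIdeal_iff, tanFst_algebraMap, h0]
    exact h1 hc
  · intro y
    obtain ⟨x, rfl⟩ := residue_surjective y
    obtain ⟨c, hc⟩ := residue_surjective (tanFst x)
    refine ⟨c, ?_⟩
    simp only [Function.comp_apply]
    rw [← sub_eq_zero, ← map_sub, residue_eq_zero_iff, tan_mem_maximalIdeal_iff,
      tanFst_sub, tanFst_algebraMap, hc, sub_self]

theorem tan_maximalIdeal_sq : maximalIdeal (Tan 𝒪) ^ 2 = ⊥ :=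
  dn_maximalIdeal_sq (ResidueField 𝒪)

/-- quotients of test algebras by proper ideals are test algebras -/
theorem IsArtinianTestAlgebra.quotient (h : IsArtinianTestAlgebra 𝒪 E) (I : Ideal E)
    [IsLocalRing (E ⧸ I)] : IsArtinianTestAlgebra 𝒪 (E ⧸ I) := by
  have := h.isArtinian
  have := h.isLocalHom
  have hloc : IsLocalHom (Ideal.Quotient.mk I) :=
    IsLocalHom.of_surjective _ Ideal.Quotient.mk_surjective
  refine ⟨⟨fun c hc => ?_⟩, ?_, ?_⟩
  · have h1 : IsUnit (Ideal.Quotient.mk I (algebraMap 𝒪 E c)) := hc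
    exact isUnit_of_map_unit (algebraMap 𝒪 E) c (isUnit_of_map_unit (Ideal.Quotient.mk I) _ h1)
  · intro y
    obtain ⟨z, rfl⟩ := residue_surjective y
    obtain ⟨x, rfl⟩ := Ideal.Quotient.mk_surjective z
    obtain ⟨c, hc⟩ := h.residue_surjective (residue E x)
    refine ⟨c, ?_⟩
    simp only [Function.comp_apply] at hc ⊢
    rw [← sub_eq_zero, ← map_sub, residue_eq_zero_iff] at hc ⊢
    have h2 : algebraMap 𝒪 (E ⧸ I) c - Ideal.Quotient.mk I x =
        Ideal.Quotient.mk I (algebraMap 𝒪 E c - x) := by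
      rw [map_sub]; rfl
    rw [h2]
    exact map_nonunit (Ideal.Quotient.mk I) _ hc
  · exact Function.Surjective.isArtinianRing (f := Ideal.Quotient.mk I) Ideal.Quotient.mk_surjective

/-- any ring hom out of a local ring with nilpotent maximal ideal into a local ring is local -/
theorem isLocalHom_of_isNilpotent {B : Type} [CommRing B] [IsLocalRing B] (f : E →+* B)
    (hE : ∃ n : ℕ, maximalIdeal E ^ n = ⊥) : IsLocalHom f := by
  obtain ⟨n, hn⟩ := hE
  refine ⟨fun a ha => ?_⟩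
  by_contra hna
  have ham : a ∈ maximalIdeal E := hna
  have h0 : a ^ n = 0 := by
    have : a ^ n ∈ maximalIdeal E ^ n := Ideal.pow_mem_pow ham n
    rwa [hn, Ideal.mem_bot] at this
  have h1 : IsUnit (f a ^ n) := ha.pow n
  rw [← map_pow, h0, map_zero] at h1
  exact not_isUnit_zero h1

theorem IsArtinianTestAlgebra.map_bijective (h : IsArtinianTestAlgebra 𝒪 E) :
    Function.Bijective (@ResidueField.map _ _ _ _ _ _ (algebraMap 𝒪 E) h.isLocalHom) := by
  have := h.isLocalHom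
  refine ⟨RingHom.injective _, fun y => ?_⟩
  obtain ⟨c, hc⟩ := h.residue_surjective y
  exact ⟨residue 𝒪 c, by simpa using hc⟩

/-- The constant-residue map `E → k`. -/
def IsArtinianTestAlgebra.kappa (h : IsArtinianTestAlgebra 𝒪 E) : E →+* ResidueField 𝒪 :=
  ((RingEquiv.ofBijective (@ResidueField.map _ _ _ _ _ _ (algebraMap 𝒪 E) h.isLocalHom)
    (IsArtinianTestAlgebra.map_bijective h)).symm : ResidueField E →+* ResidueField 𝒪).comp
    (residue E)

theorem IsArtinianTestAlgebra.kappa_algebraMap (h : IsArtinianTestAlgebra 𝒪 E) (c : 𝒪) :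
    IsArtinianTestAlgebra.kappa h (algebraMap 𝒪 E c) = residue 𝒪 c := by
  have := h.isLocalHom
  unfold IsArtinianTestAlgebra.kappa
  simp only [RingHom.coe_comp, RingHom.coe_coe, Function.comp_apply]
  rw [RingEquiv.symm_apply_eq, RingEquiv.ofBijective_apply, ResidueField.map_residue]

theorem IsArtinianTestAlgebra.kappa_eq_zero_iff (h : IsArtinianTestAlgebra 𝒪 E) (x : E) :
    IsArtinianTestAlgebra.kappa h x = 0 ↔ x ∈ maximalIdeal E := by
  unfold IsArtinianTestAlgebra.kappa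
  simp only [RingHom.coe_comp, RingHom.coe_coe, Function.comp_apply]
  rw [map_eq_zero_iff _ (RingEquiv.injective _), residue_eq_zero_iff]

theorem exists_functional_aux (𝔞 : Ideal E)
    (hπ : ∀ c ∈ maximalIdeal 𝒪, algebraMap 𝒪 E c ∈ 𝔞)
    (x₀ : E) (hx₀ : x₀ ∈ maximalIdeal E) (hx₀' : x₀ ∉ 𝔞) :
    ∃ ℓ : E →+ ResidueField 𝒪,
      (∀ (c : 𝒪) (x : E), ℓ (algebraMap 𝒪 E c * x) = residue 𝒪 c * ℓ x) ∧
      (∀ x ∈ 𝔞, ℓ x = 0) ∧ ℓ 1 = 0 ∧ ℓ x₀ ≠ 0 := by
  have h𝔞le : 𝔞 ≤ maximalIdeal E :=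
    IsLocalRing.le_maximalIdeal (fun htop => hx₀' (htop ▸ Submodule.mem_top))
  let 𝔞' : Submodule 𝒪 E := 𝔞.restrictScalars 𝒪 ⊔ Submodule.span 𝒪 {(1 : E)}
  have h𝔞𝔞' : ∀ x ∈ 𝔞, x ∈ 𝔞' := fun x hx =>
    Submodule.mem_sup_left (show x ∈ 𝔞.restrictScalars 𝒪 from hx)
  have h1𝔞' : (1 : E) ∈ 𝔞' := Submodule.mem_sup_right (Submodule.mem_span_singleton_self _)
  have htors : Module.IsTorsionBySet 𝒪 (E ⧸ 𝔞') (maximalIdeal 𝒪 : Set 𝒪) := by
    rw [Module.isTorsionBySet_quotient_iff]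
    intro x r hr
    apply h𝔞𝔞'
    rw [Algebra.smul_def]
    exact 𝔞.mul_mem_right _ (hπ r hr)
  letI : Field (𝒪 ⧸ maximalIdeal 𝒪) := Ideal.Quotient.field (maximalIdeal 𝒪)
  letI : Module (𝒪 ⧸ maximalIdeal 𝒪) (E ⧸ 𝔞') := htors.module
  have hne : (Submodule.Quotient.mk x₀ : E ⧸ 𝔞') ≠ 0 := by
    rw [Ne, Submodule.Quotient.mk_eq_zero]
    intro hmem
    obtain ⟨a, ha, b, hb, hab⟩ := Submodule.mem_sup.mp hmem
    obtain ⟨c, rfl⟩ := Submodule.mem_span_singleton.mp hb
    have ha' : a ∈ 𝔞 := ha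
    have hc1 : c • (1 : E) = algebraMap 𝒪 E c := by rw [Algebra.smul_def, mul_one]
    rw [hc1] at hab
    by_cases hc : c ∈ maximalIdeal 𝒪
    · exact hx₀' (hab ▸ 𝔞.add_mem ha' (hπ c hc))
    · have hcu : IsUnit c := by
        by_contra hcu
        exact hc hcu
      have hu : IsUnit (algebraMap 𝒪 E c) := hcu.map _
      have hm : algebraMap 𝒪 E c ∈ maximalIdeal E := by
        have : algebraMap 𝒪 E c = x₀ - a := by rw [← hab]; ring
        rw [this]
        exact Ideal.sub_mem _ hx₀ (h𝔞le ha')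
      exact hm hu
  obtain ⟨f, hf⟩ : ∃ f : Module.Dual (𝒪 ⧸ maximalIdeal 𝒪) (E ⧸ 𝔞'),
      f (Submodule.Quotient.mk x₀) ≠ 0 := by
    by_contra hcon
    exact hne ((Module.forall_dual_apply_eq_zero_iff (𝒪 ⧸ maximalIdeal 𝒪) _).mp
      (fun φ => not_not.mp fun hφ => hcon ⟨φ, hφ⟩))
  have key : ∃ g : E →+ 𝒪 ⧸ maximalIdeal 𝒪,
      (∀ (c : 𝒪) (x : E), g (algebraMap 𝒪 E c * x) = Ideal.Quotient.mk (maximalIdeal 𝒪) c * g x) ∧
      (∀ x ∈ 𝔞, g x = 0) ∧ g 1 = 0 ∧ g x₀ ≠ 0 := by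
    refine ⟨f.toAddMonoidHom.comp 𝔞'.mkQ.toAddMonoidHom, fun c x => ?_, fun x hx => ?_, ?_, hf⟩
    · show f (Submodule.Quotient.mk (algebraMap 𝒪 E c * x)) =
        Ideal.Quotient.mk (maximalIdeal 𝒪) c * f (Submodule.Quotient.mk x)
      have h1 : (Submodule.Quotient.mk (algebraMap 𝒪 E c * x) : E ⧸ 𝔞') =
          (Ideal.Quotient.mk (maximalIdeal 𝒪) c) • (Submodule.Quotient.mk x : E ⧸ 𝔞') := by
        rw [← Algebra.smul_def, Submodule.Quotient.mk_smul]
        rfl
      rw [h1, map_smul, smul_eq_mul]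
    · show f (Submodule.Quotient.mk x) = 0
      rw [(Submodule.Quotient.mk_eq_zero 𝔞').mpr (h𝔞𝔞' x hx), map_zero]
    · show f (Submodule.Quotient.mk 1) = 0
      rw [(Submodule.Quotient.mk_eq_zero 𝔞').mpr h1𝔞', map_zero]
  exact key

/-- Tangent functionals: an element of the maximal ideal outside an ideal `𝔞 ⊇ 𝔪² + 𝔪_𝒪 E`
is detected by an `𝒪`-algebra map to `k[ε]` killing `𝔞`. -/
theorem exists_tangent_functional (h : IsArtinianTestAlgebra 𝒪 E) (𝔞 : Ideal E)
    (h2 : maximalIdeal E ^ 2 ≤ 𝔞) (hπ : ∀ c ∈ maximalIdeal 𝒪, algebraMap 𝒪 E c ∈ 𝔞)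
    (x₀ : E) (hx₀ : x₀ ∈ maximalIdeal E) (hx₀' : x₀ ∉ 𝔞) :
    ∃ ψ : E →ₐ[𝒪] Tan 𝒪, (∀ x ∈ 𝔞, ψ x = 0) ∧ ψ x₀ ≠ 0 := by
  obtain ⟨ℓ, hℓc, hℓ𝔞, hℓ1, hℓx₀⟩ := exists_functional_aux 𝔞 hπ x₀ hx₀ hx₀'
  have h𝔞le : 𝔞 ≤ maximalIdeal E :=
    IsLocalRing.le_maximalIdeal (fun htop => hx₀' (htop ▸ Submodule.mem_top))
  have hℓalg : ∀ c : 𝒪, ℓ (algebraMap 𝒪 E c) = 0 := fun c => by
    have := hℓc c 1
    rwa [mul_one, hℓ1, mul_zero] at this
  have hκc : ∀ (x : E) (c : 𝒪), x - algebraMap 𝒪 E c ∈ maximalIdeal E →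
      IsArtinianTestAlgebra.kappa h x = residue 𝒪 c := fun x c hc => by
    have := (IsArtinianTestAlgebra.kappa_eq_zero_iff h _).mpr hc
    rwa [map_sub, IsArtinianTestAlgebra.kappa_algebraMap, sub_eq_zero] at this
  have hκℓ : ∀ x y : E, ℓ (x * y) =
      IsArtinianTestAlgebra.kappa h x * ℓ y + IsArtinianTestAlgebra.kappa h y * ℓ x := by
    intro x y
    obtain ⟨c, hc⟩ := IsArtinianTestAlgebra.exists_sub_mem h x
    obtain ⟨d, hd⟩ := IsArtinianTestAlgebra.exists_sub_mem h y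
    have hprod : (x - algebraMap 𝒪 E c) * (y - algebraMap 𝒪 E d) ∈ 𝔞 :=
      h2 (by rw [pow_two]; exact Ideal.mul_mem_mul hc hd)
    have h0 := hℓ𝔞 _ hprod
    have hexp : (x - algebraMap 𝒪 E c) * (y - algebraMap 𝒪 E d) =
        x * y - algebraMap 𝒪 E c * y - algebraMap 𝒪 E d * x +
          algebraMap 𝒪 E c * (algebraMap 𝒪 E d * 1) := by ring
    rw [hexp, map_add, map_sub, map_sub, hℓc, hℓc, hℓc, hℓc, hℓ1, mul_zero, mul_zero,
      add_zero] at h0
    rw [hκc x c hc, hκc y d hd]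
    linear_combination h0
  let ψ : E →ₐ[𝒪] Tan 𝒪 :=
    { toFun := fun x => tanMk (IsArtinianTestAlgebra.kappa h x) (ℓ x)
      map_one' := by rw [map_one, hℓ1]; exact tanMk_one
      map_mul' := fun x y => by rw [map_mul, hκℓ]; exact tanMk_mul _ _ _ _
      map_zero' := by rw [map_zero, map_zero]; exact tanMk_zero
      map_add' := fun x y => by rw [map_add, map_add]; exact tanMk_add _ _ _ _
      commutes' := fun c => by
        rw [IsArtinianTestAlgebra.kappa_algebraMap, hℓalg]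
        exact (tan_algebraMap_eq_tanMk c).symm }
  refine ⟨ψ, fun x hx => ?_, fun h0 => ?_⟩
  · show tanMk (IsArtinianTestAlgebra.kappa h x) (ℓ x) = 0
    rw [(IsArtinianTestAlgebra.kappa_eq_zero_iff h x).mpr (h𝔞le hx), hℓ𝔞 x hx]
    exact tanMk_zero
  · have h1 : tanSnd (ψ x₀) = 0 := by rw [h0]; rfl
    change tanSnd (tanMk (IsArtinianTestAlgebra.kappa h x₀) (ℓ x₀)) = 0 at h1
    rw [tanSnd_tanMk] at h1
    exact hℓx₀ h1

/-- Generation: if `S ⊆ 𝔪_E` and every `𝒪`-algebra map `ψ : E → k[ε]` killing `S` kills `𝔪_E`,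
then `S` generates `E` as an `𝒪`-algebra. -/
theorem adjoin_eq_top_of_forall_tangent (h : IsArtinianTestAlgebra 𝒪 E) (S : Set E)
    (hS : S ⊆ maximalIdeal E)
    (hψ : ∀ ψ : E →ₐ[𝒪] Tan 𝒪, (∀ s ∈ S, ψ s = 0) → ∀ x ∈ maximalIdeal E, ψ x = 0) :
    Algebra.adjoin 𝒪 S = ⊤ := by
  have := h.isArtinian
  let G : Set E := S ∪ algebraMap 𝒪 E '' (maximalIdeal 𝒪 : Set 𝒪)
  have hGm : G ⊆ maximalIdeal E := by
    rintro g (hg | ⟨c, hc, rfl⟩)
    · exact hS hg
    · exact IsArtinianTestAlgebra.algebraMap_mem h hc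
  have hIm : Ideal.span G ≤ maximalIdeal E := Ideal.span_le.mpr hGm
  have h1 : maximalIdeal E ≤ Ideal.span G ⊔ maximalIdeal E ^ 2 := by
    intro x₀ hx₀
    by_contra hx₀'
    obtain ⟨ψ, hψ𝔞, hψx₀⟩ := exists_tangent_functional h (Ideal.span G ⊔ maximalIdeal E ^ 2)
      le_sup_right
      (fun c hc => Ideal.mem_sup_left (Ideal.subset_span (Or.inr ⟨c, hc, rfl⟩))) x₀ hx₀ hx₀'
    exact hψx₀ (hψ ψ
      (fun s hs => hψ𝔞 s (Ideal.mem_sup_left (Ideal.subset_span (Or.inl hs)))) x₀ hx₀)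
  have h2 : maximalIdeal E ≤ Ideal.span G := by
    refine Submodule.le_of_le_smul_of_le_jacobson_bot (I := maximalIdeal E)
      (IsNoetherian.noetherian _) ?_ ?_
    · rw [IsLocalRing.jacobson_eq_maximalIdeal ⊥ bot_ne_top]
    · rw [smul_eq_mul, ← pow_two]
      exact h1
  have hIeq : Ideal.span G = maximalIdeal E := le_antisymm hIm h2
  have hGA : ∀ g ∈ G, g ∈ Algebra.adjoin 𝒪 S := by
    rintro g (hg | ⟨c, -, rfl⟩)
    · exact Algebra.subset_adjoin hg
    · exact Subalgebra.algebraMap_mem _ c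
  have hP : ∀ j : ℕ, ∀ x ∈ maximalIdeal E ^ j,
      ∃ a ∈ Algebra.adjoin 𝒪 S, x - a ∈ maximalIdeal E ^ (j + 1) := by
    intro j
    induction j with
    | zero =>
      intro x _
      obtain ⟨c, hc⟩ := IsArtinianTestAlgebra.exists_sub_mem h x
      exact ⟨algebraMap 𝒪 E c, Subalgebra.algebraMap_mem _ c, by simpa using hc⟩
    | succ j ih =>
      intro x hx
      have hx' : x ∈ maximalIdeal E ^ j • Ideal.span G := by
        rw [smul_eq_mul, hIeq, ← pow_succ]
        exact hx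
      have hq : ∀ n ∈ Ideal.span G, ∀ r ∈ maximalIdeal E ^ j,
          ∃ a ∈ Algebra.adjoin 𝒪 S, r * n - a ∈ maximalIdeal E ^ (j + 1 + 1) := by
        intro n hn
        induction hn using Submodule.span_induction with
        | mem g hg =>
          intro r hr
          obtain ⟨a, ha, hra⟩ := ih r hr
          refine ⟨a * g, Subalgebra.mul_mem _ ha (hGA g hg), ?_⟩
          have : r * g - a * g = (r - a) * g := by ring
          rw [this, pow_succ (maximalIdeal E) (j + 1)]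
          exact Ideal.mul_mem_mul hra (hGm hg)
        | zero =>
          intro r _
          exact ⟨0, Subalgebra.zero_mem _, by simp⟩
        | add n n' _ _ ihn ihn' =>
          intro r hr
          obtain ⟨a, ha, hra⟩ := ihn r hr
          obtain ⟨a', ha', hra'⟩ := ihn' r hr
          refine ⟨a + a', Subalgebra.add_mem _ ha ha', ?_⟩
          have : r * (n + n') - (a + a') = (r * n - a) + (r * n' - a') := by ring
          rw [this]
          exact Ideal.add_mem _ hra hra'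
        | smul e n _ ihn =>
          intro r hr
          obtain ⟨a, ha, hra⟩ := ihn (r * e) (Ideal.mul_mem_right _ _ hr)
          refine ⟨a, ha, ?_⟩
          have : r * e • n - a = r * e * n - a := by rw [smul_eq_mul, mul_assoc]
          rw [this]
          exact hra
      refine Submodule.smul_induction_on hx' (fun r hr n hn => hq n hn r hr) ?_
      intro y y' ⟨a, ha, hya⟩ ⟨a', ha', hya'⟩
      refine ⟨a + a', Subalgebra.add_mem _ ha ha', ?_⟩
      have : y + y' - (a + a') = (y - a) + (y' - a') := by ring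
      rw [this]
      exact Ideal.add_mem _ hya hya'
  have hQ : ∀ j : ℕ, ∀ x : E, ∃ a ∈ Algebra.adjoin 𝒪 S, x - a ∈ maximalIdeal E ^ j := by
    intro j
    induction j with
    | zero =>
      intro x
      exact ⟨0, Subalgebra.zero_mem _, by simp⟩
    | succ j ih =>
      intro x
      obtain ⟨a, ha, hxa⟩ := ih x
      obtain ⟨a', ha', hxa'⟩ := hP j _ hxa
      exact ⟨a + a', Subalgebra.add_mem _ ha ha', by rwa [← sub_sub]⟩
  obtain ⟨n, hn⟩ := IsArtinianTestAlgebra.exists_pow_eq_bot h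
  refine eq_top_iff.mpr fun x _ => ?_
  obtain ⟨a, ha, hxa⟩ := hQ n x
  rw [hn, Ideal.mem_bot, sub_eq_zero] at hxa
  exact hxa ▸ ha

end TestAlg

end Fermat.Agent.S53
end
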