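import Fermat.Agent.S53.Normalize
import Fermat.Agent.S53.TestAlg

set_option autoImplicit false
set_option linter.unusedSectionVars false

noncomputable section

namespace Fermat.Agent.S53

open IsLocalRing GaloisRep

/-! ## Tangent.lean : tangent space bound and coordinates -/

section TangentAux

/-- A type mapping into a setoid with finite quotient, injectively up to the relation,
is finite. -/
theorem finite_of_quotient_finite {α β : Type*} (s : Setoid β) (hfin : Finite (Quotient s))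
    (f : α → β) (hf : ∀ a a', s.r (f a) (f a') → a = a') : Finite α :=
  Finite.of_injective (fun a => Quotient.mk s (f a)) fun a a' h => hf a a' (Quotient.exact h)

/-- The dual numbers are Hausdorff for the maximal ideal adic topology. -/
theorem isHausdorff_tan (𝒪 : Type) [CommRing 𝒪] [IsLocalRing 𝒪] :
    IsHausdorff (maximalIdeal (Tan 𝒪)) (Tan 𝒪) := by
  refine ⟨fun x hx => ?_⟩
  have h2 := hx 2
  rw [SModEq.zero] at h2
  have h1 : (maximalIdeal (Tan 𝒪) ^ 2 • (⊤ : Submodule (Tan 𝒪) (Tan 𝒪)) : Submodule (Tan 𝒪) (Tan 𝒪))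
      = maximalIdeal (Tan 𝒪) ^ 2 := Ideal.mul_top _
  rw [h1, tan_maximalIdeal_sq] at h2
  exact (Ideal.mem_bot).mp h2

end TangentAux

section Tangent

variable {𝒪 : Type} [CommRing 𝒪] [IsDomain 𝒪] [IsDiscreteValuationRing 𝒪]
  [Finite (ResidueField 𝒪)]
variable {ρbar : ResidualGaloisRep (ResidueField 𝒪)}
variable {𝒟 : ∀ ⦃A : Type⦄ [CommRing A] [IsLocalRing A] [Algebra 𝒪 A], GaloisRepAdic A → Prop}
variable {rt : Gal → M2 𝒪} {sl : Fin 3 → Pos}

theorem finite_tangent_nlift (D : ResData 𝒪 ρbar) (hfin : TangentFinite 𝒪 ρbar 𝒟) :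
    Finite {r : Gal →* M2 (Tan 𝒪) // NLift 𝒟 D.rt D.sl r} := by
  unfold GaloisRep.TangentFinite at hfin
  have hT : IsArtinianTestAlgebra 𝒪 (Tan 𝒪) := isArtinianTestAlgebra_tan
  have hloc : IsLocalHom (algebraMap 𝒪 (Tan 𝒪)) := hT.isLocalHom
  have hH : IsHausdorff (maximalIdeal (Tan 𝒪)) (Tan 𝒪) := isHausdorff_tan 𝒪
  have hres : ∀ (r : Gal →* M2 (Tan 𝒪)) (hr : NLift 𝒟 D.rt D.sl r),
      (toAdic r hr.cont).residual.IsEquiv
        (ρbar.baseChangeAlong ((residue (Tan 𝒪)).comp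
          (algebraMap (ResidueField 𝒪) (DualNumber (ResidueField 𝒪))))) := fun r hr =>
    residual_isEquiv_of_isLift (A := Tan 𝒪) D.b D.rt D.hrt
      ((residue (Tan 𝒪)).comp (algebraMap (ResidueField 𝒪) (DualNumber (ResidueField 𝒪))))
      (fun x => rfl) r hr.cont hr.lift
  refine finite_of_quotient_finite _ hfin
    (fun r : {r : Gal →* M2 (Tan 𝒪) // NLift 𝒟 D.rt D.sl r} =>
      ⟨toAdic r.1 r.2.cont, r.2.type, hres r.1 r.2⟩) ?_
  rintro ⟨r, hr⟩ ⟨r', hr'⟩ h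
  apply Subtype.ext
  exact eq_of_toAdic_isEquiv D hT.residue_surjective hr.lift hr'.lift hr.norm hr'.norm
    hr.cont hr'.cont h

theorem exists_coords (D : ResData 𝒪 ρbar) (hfin : TangentFinite 𝒪 ρbar 𝒟) :
    ∃ (d : ℕ) (co : Fin d → Pos), IsCoords 𝒟 D.rt D.sl co := by
  classical
  have hF : Finite {r : Gal →* M2 (Tan 𝒪) // NLift 𝒟 D.rt D.sl r} := finite_tangent_nlift D hfin
  let T : Type := {r : Gal →* M2 (Tan 𝒪) // NLift 𝒟 D.rt D.sl r}
  let e : T ≃ Fin (Nat.card T) := Finite.equivFin T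
  let pos : T → Pos := fun r =>
    if h : ∃ p : Pos, r.1 p.1 p.2.1 p.2.2 ≠ algebraMap 𝒪 (Tan 𝒪) (D.rt p.1 p.2.1 p.2.2) then
      h.choose else (1, 0, 0)
  refine ⟨Nat.card T, fun l => pos (e.symm l), ?_⟩
  intro r hr h p
  by_contra hne
  have hex : ∃ p : Pos, r p.1 p.2.1 p.2.2 ≠ algebraMap 𝒪 (Tan 𝒪) (D.rt p.1 p.2.1 p.2.2) :=
    ⟨p, hne⟩
  have h1 := h (e ⟨r, hr⟩)
  simp only [Equiv.symm_apply_apply] at h1
  have hpos : pos ⟨r, hr⟩ = hex.choose := dif_pos hex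
  rw [hpos] at h1
  exact hex.choose_spec h1

end Tangent

end Fermat.Agent.S53

end
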