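import Fermat.Agent.S53.Tower
set_option autoImplicit false
set_option linter.unusedSectionVars false
noncomputable section
namespace Fermat.Agent.S53
open IsLocalRing GaloisRep
section Tower
variable {𝒪 : Type} [CommRing 𝒪] [IsDomain 𝒪] [IsDiscreteValuationRing 𝒪]
  [IsAdicComplete (maximalIdeal 𝒪) 𝒪] [Finite (ResidueField 𝒪)]
variable {𝒟 : ∀ ⦃A : Type⦄ [CommRing A] [IsLocalRing A] [Algebra 𝒪 A], GaloisRepAdic A → Prop}
variable {rt : Gal → M2 𝒪} {sl : Fin 3 → Pos} {d : ℕ} {co : Fin d → Pos}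
namespace Tow
variable (T : Tow 𝒟 rt sl co)

namespace ExtAux

/-- a local ring homomorphism maps powers of the maximal ideal into powers of the maximal
ideal -/
theorem map_mem_pow_of_isLocalHom {R A : Type} [CommRing R] [IsLocalRing R] [CommRing A]
    [IsLocalRing A] (φ : R →+* A) [IsLocalHom φ] (m : ℕ) {x : R}
    (hx : x ∈ maximalIdeal R ^ m) : φ x ∈ maximalIdeal A ^ m := by
  have h1 : (maximalIdeal R).map φ ≤ maximalIdeal A := by
    rw [Ideal.map_le_iff_le_comap]
    intro y hy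
    exact (map_mem_nonunits_iff φ y).mpr hy
  have h2 : (maximalIdeal R ^ m).map φ ≤ maximalIdeal A ^ m := by
    rw [Ideal.map_pow]
    exact Ideal.pow_right_mono h1 m
  exact h2 (Ideal.mem_map_of_mem φ hx)

end ExtAux

/-- uniqueness of the classifying map out of the universal ring -/
theorem hom_ext (A : Type) [CommRing A] [IsLocalRing A] [IsNoetherianRing A]
    [IsAdicComplete (maximalIdeal A) A] [Algebra 𝒪 A] [IsLocalHom (algebraMap 𝒪 A)]
    (hsurj : Function.Surjective (residue A ∘ algebraMap 𝒪 A))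
    (φ φ' : T.R →ₐ[𝒪] A) (h : mapHom (φ : T.R →+* A) T.r = mapHom (φ' : T.R →+* A) T.r) :
    φ = φ' := by
  have hι : φ.comp T.ι = φ'.comp T.ι := by
    apply MvPolynomial.algHom_ext
    rintro ⟨σ, i, j⟩
    have h1 := congrFun (congrFun (DFunLike.congr_fun h σ) i) j
    rw [mapHom_apply, mapHom_apply] at h1
    rw [AlgHom.comp_apply, AlgHom.comp_apply, ← T.r_eq_ι]
    exact h1
  have hloc : IsLocalHom (φ : T.R →+* A) := isLocalHom_of_residue_surjective hsurj φ
  have hloc' : IsLocalHom (φ' : T.R →+* A) := isLocalHom_of_residue_surjective hsurj φ'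
  ext x
  apply eq_of_forall_sub_mem_pow
  intro n
  obtain ⟨u, hu⟩ := Ideal.Quotient.mk_surjective (T.g n x)
  have hx : x - T.ι u ∈ maximalIdeal T.R ^ (n + 1) := by
    rw [← T.g_eq_zero_iff, map_sub, T.g_ι, hu, sub_self]
  have h1 : (φ : T.R →+* A) (x - T.ι u) ∈ maximalIdeal A ^ (n + 1) :=
    ExtAux.map_mem_pow_of_isLocalHom (φ : T.R →+* A) (n + 1) hx
  have h2 : (φ' : T.R →+* A) (x - T.ι u) ∈ maximalIdeal A ^ (n + 1) :=
    ExtAux.map_mem_pow_of_isLocalHom (φ' : T.R →+* A) (n + 1) hx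
  have h3 : φ (T.ι u) = φ' (T.ι u) := DFunLike.congr_fun hι u
  have h4 : φ x - φ' x = (φ : T.R →+* A) (x - T.ι u) - (φ' : T.R →+* A) (x - T.ι u) := by
    simp only [RingHom.coe_coe, map_sub, h3]
    ring
  rw [h4]
  exact Ideal.pow_le_pow_right (Nat.le_succ n) (Ideal.sub_mem _ h1 h2)

end Tow
end Tower
end Fermat.Agent.S53
end
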