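import Fermat.Agent.S53.Tower

set_option autoImplicit false
set_option linter.unusedSectionVars false
noncomputable section
namespace Fermat.Agent.S53
open IsLocalRing GaloisRep

section Tower
variable {𝒪 : Type} [CommRing 𝒪] [IsDomain 𝒪] [IsDiscreteValuationRing 𝒪]
  [IsAdicComplete (maximalIdeal 𝒪) 𝒪] [Finite (ResidueField 𝒪)]
variable {𝒟 : ∀ ⦃A : Type⦄ [CommRing A] [IsLocalRing A] [Algebra 𝒪 A], GaloisRepAdic A → Prop}
variable {rt : Gal → M2 𝒪} {sl : Fin 3 → Pos} {d : ℕ} {co : Fin d → Pos}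

namespace Tow

variable (T : Tow 𝒟 rt sl co)

namespace HomAux

/-- evaluation of the big polynomial ring commutes with pushing forward along an algebra hom -/
theorem ev_mapHom {A B : Type} [CommRing A] [IsLocalRing A] [Algebra 𝒪 A] [CommRing B]
    [Algebra 𝒪 B] (q : A →ₐ[𝒪] B) (rA : Gal →* M2 A) (u : U 𝒪) :
    ev (𝒪 := 𝒪) (fun σ => mapHom (q : A →+* B) rA σ) u =
      q (ev (𝒪 := 𝒪) (fun σ => rA σ) u) := by
  have h : ev (𝒪 := 𝒪) (fun σ => mapHom (q : A →+* B) rA σ) =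
      q.comp (ev (𝒪 := 𝒪) (fun σ => rA σ)) := by
    apply MvPolynomial.algHom_ext
    intro p
    rw [AlgHom.comp_apply, ev_X, ev_X]
    rfl
  rw [h]
  rfl

/-- the projections of the tower are compatible: agreement at level `n` implies agreement at
every lower level -/
theorem g_eq_of_le {m n : ℕ} (hmn : m ≤ n) {x y : T.R} (h : T.g n x = T.g n y) :
    T.g m x = T.g m y := by
  have h1 : T.g n (x - y) = 0 := by rw [map_sub, h, sub_self]
  rw [T.g_eq_zero_iff] at h1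
  have h2 : x - y ∈ maximalIdeal T.R ^ (m + 1) :=
    Ideal.pow_le_pow_right (Nat.succ_le_succ hmn) h1
  rw [← T.g_eq_zero_iff, map_sub] at h2
  exact sub_eq_zero.mp h2

/-- the level `n` approximation of the classifying map of a normalized lift -/
theorem exists_level (A : Type) [CommRing A] [IsLocalRing A] [IsNoetherianRing A]
    [IsAdicComplete (maximalIdeal A) A] [Algebra 𝒪 A] [IsLocalHom (algebraMap 𝒪 A)]
    (hsurj : Function.Surjective (residue A ∘ algebraMap 𝒪 A))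
    (rA : Gal →* M2 A) (hrA : NLift 𝒟 rt sl rA) (n : ℕ) :
    ∃ ψ : T.R →ₐ[𝒪] A ⧸ maximalIdeal A ^ n, ∀ (x : T.R) (u : U 𝒪),
      T.g n x = Ideal.Quotient.mk (minAdm 𝒟 rt sl (n + 1)) u →
        ψ x = Ideal.Quotient.mk (maximalIdeal A ^ n) (ev (𝒪 := 𝒪) (fun σ => rA σ) u) := by
  have := isLocalRing_quot_pow (A := A) n
  have hB := isArtinianTestAlgebra_quot_pow (𝒪 := 𝒪) hsurj n
  have hqs : Function.Surjective (Ideal.Quotient.mkₐ 𝒪 (maximalIdeal A ^ (n + 1))) :=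
    Ideal.Quotient.mkₐ_surjective 𝒪 _
  have hr := NLift.map_complete T.h𝒟 hsurj hB (Ideal.Quotient.mkₐ 𝒪 (maximalIdeal A ^ (n + 1)))
    hqs hrA
  have hadm := adm_of_nlift T.h𝒟 hB (maximalIdeal_quot_pow_pow n) hr
  have hle : minAdm 𝒟 rt sl (n + 1) ≤ RingHom.ker (ev (𝒪 := 𝒪) (fun σ =>
      mapHom ((Ideal.Quotient.mkₐ 𝒪 (maximalIdeal A ^ (n + 1)) :
        A →ₐ[𝒪] A ⧸ maximalIdeal A ^ (n + 1)) : A →+* A ⧸ maximalIdeal A ^ (n + 1)) rA σ)) :=
    sInf_le hadm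
  refine ⟨(Ideal.Quotient.factorₐ 𝒪 (Ideal.pow_le_pow_right (Nat.le_succ n))).comp
    ((Ideal.Quotient.liftₐ (minAdm 𝒟 rt sl (n + 1)) (ev (𝒪 := 𝒪) (fun σ =>
      mapHom ((Ideal.Quotient.mkₐ 𝒪 (maximalIdeal A ^ (n + 1)) :
        A →ₐ[𝒪] A ⧸ maximalIdeal A ^ (n + 1)) : A →+* A ⧸ maximalIdeal A ^ (n + 1)) rA σ))
      (fun a ha => RingHom.mem_ker.mp (hle ha))).comp (T.g n)), ?_⟩
  intro x u hxu
  rw [AlgHom.comp_apply, AlgHom.comp_apply, hxu]
  have h1 : (Ideal.Quotient.liftₐ (minAdm 𝒟 rt sl (n + 1)) (ev (𝒪 := 𝒪) (fun σ =>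
      mapHom ((Ideal.Quotient.mkₐ 𝒪 (maximalIdeal A ^ (n + 1)) :
        A →ₐ[𝒪] A ⧸ maximalIdeal A ^ (n + 1)) : A →+* A ⧸ maximalIdeal A ^ (n + 1)) rA σ))
      (fun a ha => RingHom.mem_ker.mp (hle ha)))
        (Ideal.Quotient.mk (minAdm 𝒟 rt sl (n + 1)) u) =
      ev (𝒪 := 𝒪) (fun σ =>
      mapHom ((Ideal.Quotient.mkₐ 𝒪 (maximalIdeal A ^ (n + 1)) :
        A →ₐ[𝒪] A ⧸ maximalIdeal A ^ (n + 1)) : A →+* A ⧸ maximalIdeal A ^ (n + 1)) rA σ) u :=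
    rfl
  rw [h1, ev_mapHom]
  rfl

end HomAux

theorem exists_hom (A : Type) [CommRing A] [IsLocalRing A] [IsNoetherianRing A]
    [IsAdicComplete (maximalIdeal A) A] [Algebra 𝒪 A] [IsLocalHom (algebraMap 𝒪 A)]
    (hsurj : Function.Surjective (residue A ∘ algebraMap 𝒪 A))
    (rA : Gal →* M2 A) (hrA : NLift 𝒟 rt sl rA) :
    ∃ φ : T.R →ₐ[𝒪] A, mapHom (φ : T.R →+* A) T.r = rA := by
  choose ψ hψ using fun n => HomAux.exists_level T A hsurj rA hrA n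
  have hcompat : ∀ {m n : ℕ} (hle : m ≤ n),
      (Ideal.Quotient.factorₐ 𝒪 (Ideal.pow_le_pow_right hle)).comp (ψ n) = ψ m := by
    intro m n hle
    ext x
    obtain ⟨u, hu⟩ := Ideal.Quotient.mk_surjective (T.g n x)
    have hn : T.g n x = T.g n (T.ι u) := by rw [T.g_ι, hu]
    have hm : T.g m x = Ideal.Quotient.mk _ u := by
      rw [HomAux.g_eq_of_le T hle hn, T.g_ι]
    rw [AlgHom.comp_apply, hψ n x u hu.symm, hψ m x u hm]
    rfl
  refine ⟨IsAdicComplete.liftAlgHom (maximalIdeal A) ψ hcompat, ?_⟩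
  ext σ i j
  rw [mapHom_apply]
  apply eq_of_forall_sub_mem_pow
  intro n
  rw [← Ideal.Quotient.eq]
  have h1 := IsAdicComplete.mk_liftAlgHom (maximalIdeal A) ψ hcompat n (T.r σ i j)
  have h2 : ψ n (T.r σ i j) = Ideal.Quotient.mk (maximalIdeal A ^ n) (rA σ i j) := by
    rw [T.r_eq_ι, hψ n _ _ (T.g_ι n _), ev_X]
  exact h1.trans h2

end Tow

end Tower

end Fermat.Agent.S53
end
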