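import Fermat.Agent.S53.Tower
import Fermat.Agent.S53.Closure

set_option autoImplicit false
set_option linter.unusedSectionVars false
set_option linter.style.haveILetI false
noncomputable section
namespace Fermat.Agent.S53
open IsLocalRing GaloisRep

section Tower
variable {𝒪 : Type} [CommRing 𝒪] [IsDomain 𝒪] [IsDiscreteValuationRing 𝒪]
  [IsAdicComplete (maximalIdeal 𝒪) 𝒪] [Finite (ResidueField 𝒪)]
variable {𝒟 : ∀ ⦃A : Type⦄ [CommRing A] [IsLocalRing A] [Algebra 𝒪 A], GaloisRepAdic A → Prop}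
variable {rt : Gal → M2 𝒪} {sl : Fin 3 → Pos} {d : ℕ} {co : Fin d → Pos}

namespace Tow

variable (T : Tow 𝒟 rt sl co)

namespace TypeAux

/-- A surjection of local rings maps powers of the maximal ideal into powers of the
maximal ideal. -/
theorem map_mem_pow_of_surjective {A B : Type} [CommRing A] [IsLocalRing A] [CommRing B]
    [IsLocalRing B] (φ : A →+* B) (hφ : Function.Surjective φ) (n : ℕ) {x : A}
    (hx : x ∈ maximalIdeal A ^ n) : φ x ∈ maximalIdeal B ^ n := by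
  rw [← map_maximalIdeal_of_surjective φ hφ, ← Ideal.map_pow]
  exact Ideal.mem_map_of_mem φ hx

end TypeAux

/-- The universal lift is of type `𝒟`. -/
theorem type_of_cont (hc : IsCont T.r) : 𝒟 (toAdic T.r hc) := by
  refine type_of_forall_quotient T.h𝒟 T.residue_surjective T.r hc ?_
  intro B _ _ _ hB q hq hc'
  obtain ⟨N, hN⟩ := Fermat.Agent.S53.IsArtinianTestAlgebra.exists_pow_eq_bot hB
  -- the surjection `q` kills the image of the minimal admissible ideal of level `N + 1`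
  have hkill : ∀ u ∈ minAdm 𝒟 rt sl (N + 1), (q.comp T.ι) u = 0 := by
    intro u hu
    have h1 : T.g N (T.ι u) = 0 := by
      rw [T.g_ι]
      exact Ideal.Quotient.eq_zero_iff_mem.mpr hu
    have h2 : T.ι u ∈ maximalIdeal T.R ^ (N + 1) := (T.g_eq_zero_iff N _).mp h1
    have h3 : (q : T.R →+* B) (T.ι u) ∈ maximalIdeal B ^ (N + 1) :=
      TypeAux.map_mem_pow_of_surjective (q : T.R →+* B) hq (N + 1) h2
    have h4 : maximalIdeal B ^ (N + 1) = ⊥ :=
      le_bot_iff.mp (hN ▸ Ideal.pow_le_pow_right (Nat.le_succ N))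
    rw [h4] at h3
    exact (Ideal.mem_bot).mp h3
  let q' : (U 𝒪 ⧸ minAdm 𝒟 rt sl (N + 1)) →ₐ[𝒪] B :=
    Ideal.Quotient.liftₐ (minAdm 𝒟 rt sl (N + 1)) (q.comp T.ι) hkill
  haveI := T.isLocalRing_level N
  obtain ⟨rN, h1, hrN⟩ := (T.adm N).exists_taut
  have hmap : mapHom (q' : (U 𝒪 ⧸ minAdm 𝒟 rt sl (N + 1)) →+* B) rN =
      mapHom (q : T.R →+* B) T.r := by
    ext σ i j
    rw [mapHom_apply, mapHom_apply, h1, T.r_eq_ι]
    rfl
  have hNL : NLift 𝒟 rt sl (mapHom (q' : (U 𝒪 ⧸ minAdm 𝒟 rt sl (N + 1)) →+* B) rN) :=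
    NLift.map T.h𝒟 (T.adm N).isArtinianTestAlgebra hB q' hrN
  rw [hmap] at hNL
  exact hNL.type

end Tow

end Tower

end Fermat.Agent.S53
end
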