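import Fermat.Agent.S53.TowNLift
import Fermat.Agent.S53.TowType
import Fermat.Agent.S53.TowHom
import Fermat.Agent.S53.TowExt
import Fermat.Agent.S53.Tangent

/-!
# S53: the universal normalized lift exists

Assembles the tower of minimal admissible ideals (`Tower.lean`) and the three properties of
its limit (`TowNLift`, `TowType`, `TowHom`, `TowExt`) into `UnivData`.
-/

set_option autoImplicit false
set_option linter.unusedSectionVars false
noncomputable section
namespace Fermat.Agent.S53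
open IsLocalRing GaloisRep

section Tower
variable {𝒪 : Type} [CommRing 𝒪] [IsDomain 𝒪] [IsDiscreteValuationRing 𝒪]
  [IsAdicComplete (maximalIdeal 𝒪) 𝒪] [Finite (ResidueField 𝒪)]
variable {𝒟 : ∀ ⦃A : Type⦄ [CommRing A] [IsLocalRing A] [Algebra 𝒪 A], GaloisRepAdic A → Prop}
variable {rt : Gal → M2 𝒪} {sl : Fin 3 → Pos} {d : ℕ} {co : Fin d → Pos}

/-- the universal lift is a normalized lift of type `𝒟` -/
theorem Tow.nlift (T : Tow 𝒟 rt sl co) : NLift 𝒟 rt sl T.r :=
  ⟨T.isLift, T.isNormalized, T.isCont, T.type_of_cont T.isCont⟩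

theorem univData_of_tow (T : Tow 𝒟 rt sl co) : Nonempty (UnivData 𝒪 𝒟 rt sl) :=
  ⟨{ R := T.R
     residue_surjective := T.residue_surjective
     r := T.r
     nlift := T.nlift
     exists_hom := T.exists_hom
     hom_ext := T.hom_ext }⟩

end Tower

/-- The universal normalized lift exists. -/
theorem exists_univData {𝒪 : Type} [CommRing 𝒪] [IsDomain 𝒪] [IsDiscreteValuationRing 𝒪]
    [IsAdicComplete (maximalIdeal 𝒪) 𝒪] [Finite (ResidueField 𝒪)]
    {ρbar : ResidualGaloisRep (ResidueField 𝒪)}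
    {𝒟 : ∀ ⦃A : Type⦄ [CommRing A] [IsLocalRing A] [Algebra 𝒪 A], GaloisRepAdic A → Prop}
    (D : ResData 𝒪 ρbar) (h𝒟 : IsDeformationCondition 𝒪 𝒟)
    (hbar : 𝒟 (GaloisRepAdic.ofResidualGaloisRep ρbar))
    (hfin : TangentFinite 𝒪 ρbar 𝒟) : Nonempty (UnivData 𝒪 𝒟 D.rt D.sl) := by
  obtain ⟨d, co, hco⟩ := exists_coords D hfin
  obtain ⟨T⟩ := exists_tow h𝒟 hco (adm_augIdeal h𝒟 D hbar)
  exact univData_of_tow T

end Fermat.Agent.S53
end
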