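import Fermat.Agent.S53.Defs

set_option autoImplicit false
noncomputable section
namespace Fermat.Agent.S53
open IsLocalRing TensorProduct

section Schur

variable {k : Type} [Field k] (ρbar : ResidualGaloisRep k)
  (b : Module.Basis (Fin 2) k ρbar.V)

/-- Schur's lemma in matrix form for an absolutely irreducible residual representation. -/
theorem schur_of_absIrr (habs : ρbar.IsAbsolutelyIrreducible) (Z : M2 k)
    (hZ : ∀ σ, Z * rbarHom ρbar b σ = rbarHom ρbar b σ * Z) :
    Z 0 1 = 0 ∧ Z 1 0 = 0 ∧ Z 0 0 = Z 1 1 := by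
  classical
  let K := AlgebraicClosure k
  let f : ρbar.V →ₗ[k] ρbar.V := Matrix.toLin b b Z
  have hcomm : ∀ σ, f ∘ₗ ρbar.ρ σ = ρbar.ρ σ ∘ₗ f := by
    intro σ
    have h1 : ρbar.ρ σ = Matrix.toLin b b (rbarHom ρbar b σ) := by
      rw [rbarHom_apply, Matrix.toLin_toMatrix]
    rw [h1]
    change Matrix.toLin b b Z ∘ₗ Matrix.toLin b b (rbarHom ρbar b σ) =
      Matrix.toLin b b (rbarHom ρbar b σ) ∘ₗ Matrix.toLin b b Z
    rw [← Matrix.toLin_mul b b b, ← Matrix.toLin_mul b b b, hZ σ]
  let F : Module.End K (K ⊗[k] ρbar.V) := f.baseChange K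
  have hfr : Module.finrank K (K ⊗[k] ρbar.V) = 2 := by
    rw [Module.finrank_baseChange, ρbar.finrank_eq]
  have : Nontrivial (K ⊗[k] ρbar.V) :=
    Module.nontrivial_of_finrank_pos (R := K) (by rw [hfr]; norm_num)
  obtain ⟨μ, hμ⟩ := Module.End.exists_eigenvalue F
  have hW : Module.End.eigenspace F μ = ⊤ := by
    have habs' : (ρbar.baseChange K).IsIrreducible := habs
    have hstab : ∀ σ : AlgebraicClosure ℚ ≃ₐ[ℚ] AlgebraicClosure ℚ,
        ∀ x ∈ Module.End.eigenspace F μ,
          (ρbar.baseChange K).ρ σ x ∈ Module.End.eigenspace F μ := by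
      intro σ x hx
      rw [Module.End.mem_eigenspace_iff] at hx ⊢
      change F ((ρbar.ρ σ).baseChange K x) = μ • (ρbar.ρ σ).baseChange K x
      have h2 : F ((ρbar.ρ σ).baseChange K x) = (ρbar.ρ σ).baseChange K (F x) := by
        change (f.baseChange K ∘ₗ (ρbar.ρ σ).baseChange K) x =
          ((ρbar.ρ σ).baseChange K ∘ₗ f.baseChange K) x
        rw [← LinearMap.baseChange_comp, ← LinearMap.baseChange_comp, hcomm σ]
      rw [h2, hx, map_smul]
    rcases habs' (Module.End.eigenspace F μ) hstab with h | h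
    · exact absurd h hμ
    · exact h
  have hF : ∀ x, F x = μ • x := fun x =>
    Module.End.mem_eigenspace_iff.mp (hW ▸ Submodule.mem_top)
  let B := b.baseChange K
  have key : ∀ i j : Fin 2, algebraMap k K (Z i j) = if i = j then μ else 0 := by
    intro i j
    have h3 : F (B j) = ∑ i, algebraMap k K (Z i j) • B i := by
      change f.baseChange K (b.baseChange K j) = _
      rw [Module.Basis.baseChange_apply, LinearMap.baseChange_tmul]
      change (1 : K) ⊗ₜ[k] (Matrix.toLin b b Z (b j)) = _
      rw [Matrix.toLin_self, TensorProduct.tmul_sum]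
      refine Finset.sum_congr rfl fun i _ => ?_
      rw [Module.Basis.baseChange_apply, TensorProduct.tmul_smul, TensorProduct.smul_tmul',
        TensorProduct.smul_tmul', Algebra.smul_def, mul_one, smul_eq_mul, mul_one]
    have h4 := congrArg (fun v => B.repr v i) (h3.symm.trans (hF (B j)))
    simp only [map_sum, map_smul, Module.Basis.repr_self, Finsupp.smul_apply, Finset.sum_apply',
      Finsupp.single_apply, smul_eq_mul] at h4
    rw [Finset.sum_eq_single i (by intro c _ hc; simp [hc]) (by simp)] at h4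
    simpa [eq_comm] using h4
  have hinj := (algebraMap k K).injective
  refine ⟨hinj ?_, hinj ?_, hinj ?_⟩
  · rw [key 0 1]; simp
  · rw [key 1 0]; simp
  · rw [key 0 0, key 1 1]; simp

end Schur

section Slice

/-- From a family of vectors in `k³` with trivial joint orthogonal complement, extract three
rows with nonzero determinant. -/
theorem exists_rows_det_ne_zero {k : Type} [Field k] {T : Type} (c : T → Fin 3 → k)
    (hc : ∀ z : Fin 3 → k, (∀ t, ∑ e, c t e * z e = 0) → z = 0) :
    ∃ s : Fin 3 → T,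
      (Matrix.of fun a e => c (s a) e : Matrix (Fin 3) (Fin 3) k).det ≠ 0 := by
  classical
  have hspan : ⊤ ≤ Submodule.span k (Set.range c) := by
    by_contra hne
    obtain ⟨f, hf0, hf⟩ := Submodule.exists_le_ker_of_lt_top _
      (lt_top_iff_ne_top.mpr fun h => hne h.ge)
    apply hf0
    have hz : (fun e : Fin 3 => f (fun j => if e = j then 1 else 0)) = 0 := hc _ (fun t => by
      have h1 : f (c t) = 0 := hf (Submodule.subset_span ⟨t, rfl⟩)
      rw [LinearMap.pi_apply_eq_sum_univ f (c t)] at h1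
      simpa [smul_eq_mul] using h1)
    apply LinearMap.ext
    intro v
    rw [LinearMap.pi_apply_eq_sum_univ f v]
    have hz' : ∀ e : Fin 3, f (fun j => if e = j then 1 else 0) = 0 := fun e => congrFun hz e
    simp [hz']
  let B := Module.Basis.ofSpan hspan
  let eqv := B.indexEquiv (Pi.basisFun k (Fin 3))
  have hmem : ∀ a : Fin 3, ∃ t, c t = B (eqv.symm a) := fun a =>
    Module.Basis.ofSpan_subset hspan ⟨_, rfl⟩
  choose s hs using hmem
  refine ⟨s, ?_⟩
  have hli : LinearIndependent k
      (Matrix.of fun a e => c (s a) e : Matrix (Fin 3) (Fin 3) k).row := by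
    have hrow : (Matrix.of fun a e => c (s a) e : Matrix (Fin 3) (Fin 3) k).row
        = B ∘ eqv.symm := by
      funext a
      exact hs a
    rw [hrow]
    exact B.linearIndependent.comp _ eqv.symm.injective
  have hu := Matrix.linearIndependent_rows_iff_isUnit.mp hli
  exact ((Matrix.isUnit_iff_isUnit_det _).mp hu).ne_zero

theorem sliceMat_map {A B : Type} [CommRing A] [CommRing B] (φ : A →+* B)
    (N : Fin 3 → M2 A) (pos : Fin 3 → Fin 2 × Fin 2) :
    (sliceMat N pos).map φ = sliceMat (fun a => (N a).map φ) pos := by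
  have hEb : ∀ e, (Eb A e).map φ = Eb B e := by
    intro e
    fin_cases e <;> simp [Eb]
  ext a e
  simp only [sliceMat, Matrix.map_apply, Matrix.of_apply]
  rw [← hEb e]
  change ((Eb A e * N a - N a * Eb A e).map φ) (pos a).1 (pos a).2 = _
  rw [Matrix.map_sub (f := φ) (map_sub φ), Matrix.map_mul, Matrix.map_mul]

theorem exists_slice {k : Type} [Field k] (ρbar : ResidualGaloisRep k)
    (b : Module.Basis (Fin 2) k ρbar.V)
    (hschur : ∀ Z : M2 k, (∀ σ, Z * rbarHom ρbar b σ = rbarHom ρbar b σ * Z) →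
      Z 0 1 = 0 ∧ Z 1 0 = 0 ∧ Z 0 0 = Z 1 1) :
    ∃ sl : Fin 3 → Pos,
      (sliceMat (fun a => rbarHom ρbar b (sl a).1) (fun a => (sl a).2)).det ≠ 0 := by
  let c : Pos → Fin 3 → k := fun t e =>
    (Eb k e * rbarHom ρbar b t.1 - rbarHom ρbar b t.1 * Eb k e) t.2.1 t.2.2
  obtain ⟨s, hs⟩ := exists_rows_det_ne_zero c (by
    intro z hz
    let Z : M2 k := ∑ e, z e • Eb k e
    have hZ : ∀ σ, Z * rbarHom ρbar b σ = rbarHom ρbar b σ * Z := by
      intro σ
      rw [← sub_eq_zero]
      ext i j
      have h1 := hz (σ, i, j)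
      have h2 : (Z * rbarHom ρbar b σ - rbarHom ρbar b σ * Z) i j =
          ∑ e, c (σ, i, j) e * z e := by
        simp only [Z, c, Finset.sum_mul, Finset.mul_sum, Matrix.sub_apply, Matrix.sum_apply,
          Matrix.smul_mul, Matrix.mul_smul, Matrix.smul_apply, smul_eq_mul]
        rw [← Finset.sum_sub_distrib]
        refine Finset.sum_congr rfl fun e _ => ?_
        ring
      rw [h2, h1]
      rfl
    obtain ⟨h01, h10, h00⟩ := hschur Z hZ
    have e01 : Z 0 1 = z 0 := by
      simp [Z, Eb, Fin.sum_univ_three, Matrix.single]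
    have e10 : Z 1 0 = z 1 := by
      simp [Z, Eb, Fin.sum_univ_three, Matrix.single]
    have e00 : Z 0 0 = 0 := by
      simp [Z, Eb, Fin.sum_univ_three, Matrix.single]
    have e11 : Z 1 1 = z 2 := by
      simp [Z, Eb, Fin.sum_univ_three, Matrix.single]
    funext e
    fin_cases e
    · simpa [e01] using h01
    · simpa [e10] using h10
    · simpa [e00, e11, eq_comm] using h00)
  exact ⟨s, hs⟩

end Slice

/-- Part I: residual data exist for an absolutely irreducible residual representation. -/
theorem exists_resData (𝒪 : Type) [CommRing 𝒪] [IsLocalRing 𝒪]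
    (ρbar : ResidualGaloisRep (ResidueField 𝒪)) (habs : ρbar.IsAbsolutelyIrreducible) :
    Nonempty (ResData 𝒪 ρbar) := by
  classical
  let b := Module.finBasisOfFinrankEq (ResidueField 𝒪) ρbar.V ρbar.finrank_eq
  have hschur := schur_of_absIrr ρbar b habs
  obtain ⟨sl, hsl⟩ := exists_slice ρbar b hschur
  have hsurj : ∀ σ i j, ∃ x : 𝒪, residue 𝒪 x = rbarHom ρbar b σ i j :=
    fun σ i j => residue_surjective _
  choose rt hrt using hsurj
  refine ⟨⟨b, fun σ => Matrix.of (rt σ), fun σ i j => hrt σ i j, sl, ?_, hschur⟩⟩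
  have hdet : residue 𝒪 (sliceMat (fun a => (Matrix.of (rt (sl a).1) : M2 𝒪))
      (fun a => (sl a).2)).det ≠ 0 := by
    rw [RingHom.map_det, RingHom.mapMatrix_apply, sliceMat_map]
    have hN : (fun a => ((Matrix.of (rt (sl a).1) : M2 𝒪)).map (residue 𝒪)) =
        fun a => rbarHom ρbar b (sl a).1 := by
      funext a
      ext i j
      exact hrt (sl a).1 i j
    rw [hN]
    exact hsl
  exact (IsLocalRing.residue_ne_zero_iff_isUnit _).mp hdet

end Fermat.Agent.S53
end
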