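import Fermat.Agent.S53.Dictionary
import Fermat.Agent.S53.TestAlg
import Fermat.Agent.S53.Closure

set_option autoImplicit false
set_option linter.unusedSectionVars false

noncomputable section

namespace Fermat.Agent.S53

open IsLocalRing GaloisRep

namespace Admissible

section Aux

variable {𝒪 : Type} [CommRing 𝒪] [IsLocalRing 𝒪]

/-- evaluation at `rt`, as a ring hom `U 𝒪 → 𝒪` -/
def evalRt (rt : Gal → M2 𝒪) : U 𝒪 →+* 𝒪 :=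
  MvPolynomial.eval (fun p : Pos => rt p.1 p.2.1 p.2.2)

theorem mem_augIdeal_iff (rt : Gal → M2 𝒪) (f : U 𝒪) :
    f ∈ augIdeal rt ↔ evalRt rt f ∈ maximalIdeal 𝒪 := by
  rw [augIdeal, RingHom.mem_ker, RingHom.comp_apply, residue_eq_zero_iff]
  rfl

theorem sub_C_eval_mem_span (rt : Gal → M2 𝒪) (f : U 𝒪) :
    f - MvPolynomial.C (evalRt rt f) ∈ Ideal.span
      (Set.range (fun p : Pos => (MvPolynomial.X p - MvPolynomial.C (rt p.1 p.2.1 p.2.2) : U 𝒪))) := by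
  induction f using MvPolynomial.induction_on with
  | C a => simp [evalRt]
  | add f g hf hg =>
    have h : f + g - MvPolynomial.C (evalRt rt (f + g)) =
        (f - MvPolynomial.C (evalRt rt f)) + (g - MvPolynomial.C (evalRt rt g)) := by
      rw [map_add, map_add]; ring
    rw [h]
    exact add_mem hf hg
  | mul_X f p hf =>
    have h : f * MvPolynomial.X p - MvPolynomial.C (evalRt rt (f * MvPolynomial.X p)) =
        (f - MvPolynomial.C (evalRt rt f)) * MvPolynomial.X p +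
          MvPolynomial.C (evalRt rt f) *
            (MvPolynomial.X p - MvPolynomial.C (rt p.1 p.2.1 p.2.2)) := by
      have h1 : evalRt rt (MvPolynomial.X p) = rt p.1 p.2.1 p.2.2 := by simp [evalRt]
      rw [map_mul, map_mul, h1]; ring
    rw [h]
    exact add_mem (Ideal.mul_mem_right _ _ hf)
      (Ideal.mul_mem_left _ _ (Ideal.subset_span ⟨p, rfl⟩))

theorem X_sub_C_mem_augIdeal (rt : Gal → M2 𝒪) (p : Pos) :
    (MvPolynomial.X p - MvPolynomial.C (rt p.1 p.2.1 p.2.2) : U 𝒪) ∈ augIdeal rt := by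
  rw [mem_augIdeal_iff]
  simp [evalRt]

theorem C_mem_augIdeal_iff (rt : Gal → M2 𝒪) (c : 𝒪) :
    (MvPolynomial.C c : U 𝒪) ∈ augIdeal rt ↔ c ∈ maximalIdeal 𝒪 := by
  rw [mem_augIdeal_iff]
  simp [evalRt]

theorem sub_C_eval_mem_augIdeal (rt : Gal → M2 𝒪) (f : U 𝒪) :
    f - MvPolynomial.C (evalRt rt f) ∈ augIdeal rt := by
  refine (Ideal.span_le.mpr ?_) (sub_C_eval_mem_span rt f)
  rintro _ ⟨p, rfl⟩
  exact X_sub_C_mem_augIdeal rt p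

instance augIdeal_isMaximal (rt : Gal → M2 𝒪) : (augIdeal rt).IsMaximal := by
  rw [augIdeal]
  apply RingHom.ker_isMaximal_of_surjective
  intro x
  obtain ⟨c, rfl⟩ := residue_surjective x
  exact ⟨MvPolynomial.C c, by simp⟩

end Aux

end Admissible

open Admissible

section Admissible

variable {𝒪 : Type} [CommRing 𝒪] [IsLocalRing 𝒪]
variable {𝒟 : ∀ ⦃A : Type⦄ [CommRing A] [IsLocalRing A] [Algebra 𝒪 A], GaloisRepAdic A → Prop}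
variable {rt : Gal → M2 𝒪} {sl : Fin 3 → Pos}

theorem augIdeal_eq_span (rt : Gal → M2 𝒪) :
    augIdeal rt = Ideal.span
      (Set.range (fun p : Pos => (MvPolynomial.X p - MvPolynomial.C (rt p.1 p.2.1 p.2.2) : U 𝒪))
        ∪ MvPolynomial.C '' (maximalIdeal 𝒪 : Set 𝒪)) := by
  apply le_antisymm
  · intro f hf
    have h1 := sub_C_eval_mem_span rt f
    have h2 : evalRt rt f ∈ maximalIdeal 𝒪 := (mem_augIdeal_iff rt f).mp hf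
    have h3 : f = (f - MvPolynomial.C (evalRt rt f)) + MvPolynomial.C (evalRt rt f) := by ring
    rw [h3]
    refine add_mem (Ideal.span_mono Set.subset_union_left h1)
      (Ideal.subset_span (Or.inr ⟨_, h2, rfl⟩))
  · rw [Ideal.span_le]
    rintro _ (⟨p, rfl⟩ | ⟨c, hc, rfl⟩)
    · exact X_sub_C_mem_augIdeal rt p
    · exact (C_mem_augIdeal_iff rt c).mpr hc

theorem isLocalRing_quot {n : ℕ} {𝔟 : Ideal (U 𝒪)} (h1 : augIdeal rt ^ n ≤ 𝔟)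
    (h2 : 𝔟 ≤ augIdeal rt) : IsLocalRing (U 𝒪 ⧸ 𝔟) := by
  have hne : 𝔟 ≠ ⊤ := fun h => (augIdeal_isMaximal rt).ne_top (top_le_iff.mp (h ▸ h2))
  have : Nontrivial (U 𝒪 ⧸ 𝔟) := Ideal.Quotient.nontrivial_iff.mpr hne
  apply IsLocalRing.of_unique_max_ideal
  refine ⟨(augIdeal rt).map (Ideal.Quotient.mk 𝔟), ?_, ?_⟩
  · exact Ideal.IsMaximal.map_of_surjective_of_ker_le Ideal.Quotient.mk_surjective
      (by rw [Ideal.mk_ker]; exact h2)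
  · intro J hJ
    have hJc : (J.comap (Ideal.Quotient.mk 𝔟)).IsMaximal :=
      Ideal.comap_isMaximal_of_surjective _ Ideal.Quotient.mk_surjective
    have h3 : 𝔟 ≤ J.comap (Ideal.Quotient.mk 𝔟) := by
      intro x hx
      rw [Ideal.mem_comap, Ideal.Quotient.eq_zero_iff_mem.mpr hx]
      exact J.zero_mem
    have h4 : augIdeal rt ≤ J.comap (Ideal.Quotient.mk 𝔟) :=
      hJc.isPrime.le_of_pow_le (h1.trans h3)
    have h5 : augIdeal rt = J.comap (Ideal.Quotient.mk 𝔟) :=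
      (augIdeal_isMaximal rt).eq_of_le hJc.ne_top h4
    rw [h5, Ideal.map_comap_of_surjective _ Ideal.Quotient.mk_surjective]

theorem maximalIdeal_quot {𝔟 : Ideal (U 𝒪)} [IsLocalRing (U 𝒪 ⧸ 𝔟)] (h2 : 𝔟 ≤ augIdeal rt) :
    maximalIdeal (U 𝒪 ⧸ 𝔟) = (augIdeal rt).map (Ideal.Quotient.mk 𝔟) := by
  have h : ((augIdeal rt).map (Ideal.Quotient.mk 𝔟)).IsMaximal :=
    Ideal.IsMaximal.map_of_surjective_of_ker_le Ideal.Quotient.mk_surjective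
      (by rw [Ideal.mk_ker]; exact h2)
  exact (IsLocalRing.eq_maximalIdeal h).symm

theorem isLocalHom_algebraMap_quot {𝔟 : Ideal (U 𝒪)} [IsLocalRing (U 𝒪 ⧸ 𝔟)]
    (h2 : 𝔟 ≤ augIdeal rt) : IsLocalHom (algebraMap 𝒪 (U 𝒪 ⧸ 𝔟)) := by
  constructor
  intro c hc
  by_contra hcu
  have h3 : c ∈ maximalIdeal 𝒪 := (IsLocalRing.mem_maximalIdeal c).mpr hcu
  have h4 : algebraMap 𝒪 (U 𝒪 ⧸ 𝔟) c ∈ maximalIdeal (U 𝒪 ⧸ 𝔟) := by
    rw [maximalIdeal_quot h2]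
    exact Ideal.mem_map_of_mem _ ((C_mem_augIdeal_iff rt c).mpr h3)
  exact (IsLocalRing.mem_maximalIdeal _).mp h4 hc

theorem residue_surjective_quot {𝔟 : Ideal (U 𝒪)} [IsLocalRing (U 𝒪 ⧸ 𝔟)]
    (h2 : 𝔟 ≤ augIdeal rt) :
    Function.Surjective (residue (U 𝒪 ⧸ 𝔟) ∘ algebraMap 𝒪 (U 𝒪 ⧸ 𝔟)) := by
  intro x
  obtain ⟨y, rfl⟩ := residue_surjective x
  obtain ⟨f, rfl⟩ := Ideal.Quotient.mk_surjective y
  refine ⟨evalRt rt f, ?_⟩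
  rw [Function.comp_apply]
  symm
  rw [← sub_eq_zero, ← map_sub, residue_eq_zero_iff, maximalIdeal_quot h2]
  exact Ideal.mem_map_of_mem _ (sub_C_eval_mem_augIdeal rt f)

theorem Adm.isArtinianTestAlgebra {n : ℕ} {𝔟 : Ideal (U 𝒪)} (h : Adm 𝒟 rt sl n 𝔟)
    [IsLocalRing (U 𝒪 ⧸ 𝔟)] : IsArtinianTestAlgebra 𝒪 (U 𝒪 ⧸ 𝔟) := by
  have : Finite (U 𝒪 ⧸ 𝔟) := h.2.2.1
  exact isArtinianTestAlgebra_of_finite (isLocalHom_algebraMap_quot h.2.1)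
    (residue_surjective_quot h.2.1)

theorem Adm.maximalIdeal_pow {n : ℕ} {𝔟 : Ideal (U 𝒪)} (h : Adm 𝒟 rt sl n 𝔟)
    [IsLocalRing (U 𝒪 ⧸ 𝔟)] : maximalIdeal (U 𝒪 ⧸ 𝔟) ^ n = ⊥ := by
  rw [maximalIdeal_quot h.2.1, ← Ideal.map_pow, eq_bot_iff]
  refine (Ideal.map_mono h.1).trans ?_
  rw [Ideal.map_quotient_self]

theorem Adm.exists_taut {n : ℕ} {𝔟 : Ideal (U 𝒪)} (h : Adm 𝒟 rt sl n 𝔟)
    [IsLocalRing (U 𝒪 ⧸ 𝔟)] :
    ∃ r : Gal →* M2 (U 𝒪 ⧸ 𝔟),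
      (∀ σ i j, r σ i j = Ideal.Quotient.mk 𝔟 (MvPolynomial.X (σ, i, j))) ∧ NLift 𝒟 rt sl r := by
  obtain ⟨_, _, _, _, r, hr, hn⟩ := h
  exact ⟨r, hr, hn⟩

end Admissible

namespace Admissible

section Aux2

variable {𝒪 : Type} [CommRing 𝒪] [IsLocalRing 𝒪]
variable {𝒟 : ∀ ⦃A : Type⦄ [CommRing A] [IsLocalRing A] [Algebra 𝒪 A], GaloisRepAdic A → Prop}
variable {rt : Gal → M2 𝒪} {sl : Fin 3 → Pos}

theorem maximalIdeal_quot_pow {n : ℕ} {𝔟 : Ideal (U 𝒪)} [IsLocalRing (U 𝒪 ⧸ 𝔟)]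
    (h1 : augIdeal rt ^ n ≤ 𝔟) (h2 : 𝔟 ≤ augIdeal rt) : maximalIdeal (U 𝒪 ⧸ 𝔟) ^ n = ⊥ := by
  rw [maximalIdeal_quot h2, ← Ideal.map_pow, eq_bot_iff]
  refine (Ideal.map_mono h1).trans ?_
  rw [Ideal.map_quotient_self]

theorem testAlg_quot {𝔟 : Ideal (U 𝒪)} [Finite (U 𝒪 ⧸ 𝔟)] [IsLocalRing (U 𝒪 ⧸ 𝔟)]
    (h2 : 𝔟 ≤ augIdeal rt) : IsArtinianTestAlgebra 𝒪 (U 𝒪 ⧸ 𝔟) :=
  isArtinianTestAlgebra_of_finite (isLocalHom_algebraMap_quot h2) (residue_surjective_quot h2)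

theorem algebraMap_quot_eq (𝔟 : Ideal (U 𝒪)) (c : 𝒪) :
    algebraMap 𝒪 (U 𝒪 ⧸ 𝔟) c = Ideal.Quotient.mk 𝔟 (MvPolynomial.C c) := rfl

theorem taut_isLift {𝔟 : Ideal (U 𝒪)} [IsLocalRing (U 𝒪 ⧸ 𝔟)] (h2 : 𝔟 ≤ augIdeal rt)
    (r : Gal →* M2 (U 𝒪 ⧸ 𝔟))
    (hr : ∀ σ i j, r σ i j = Ideal.Quotient.mk 𝔟 (MvPolynomial.X (σ, i, j))) : IsLift rt r := by
  intro σ i j
  rw [hr, algebraMap_quot_eq, ← map_sub, maximalIdeal_quot h2]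
  exact Ideal.mem_map_of_mem _ (X_sub_C_mem_augIdeal rt (σ, i, j))

theorem type_of_eq {A : Type} [CommRing A] [IsLocalRing A] [Algebra 𝒪 A] {r r' : Gal →* M2 A}
    (e : r' = r) (hc : IsCont r) (hc' : IsCont r') (h : 𝒟 (toAdic r hc)) : 𝒟 (toAdic r' hc') := by
  subst e
  exact h

theorem isEquiv_symm {A : Type} [CommRing A] [IsLocalRing A] {ρ ρ' : GaloisRepAdic A}
    (h : ρ.IsEquiv ρ') : ρ'.IsEquiv ρ := by
  obtain ⟨e⟩ := h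
  exact ⟨e.symm⟩

/-- images of the augmentation ideal under the classifying map of a lift lie in the maximal
ideal -/
theorem ev_mem_of_mem_augIdeal {B : Type} [CommRing B] [IsLocalRing B] [Algebra 𝒪 B]
    (hB : IsArtinianTestAlgebra 𝒪 B) {r : Gal →* M2 B} (hl : IsLift rt r) {f : U 𝒪}
    (hf : f ∈ augIdeal rt) : ev (𝒪 := 𝒪) (fun σ => r σ) f ∈ maximalIdeal B := by
  have hle : augIdeal rt ≤ (maximalIdeal B).comap (ev (𝒪 := 𝒪) (fun σ => r σ)) := by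
    rw [augIdeal_eq_span, Ideal.span_le]
    rintro _ (⟨p, rfl⟩ | ⟨c, hc, rfl⟩)
    · show ev (𝒪 := 𝒪) (fun σ => r σ) _ ∈ maximalIdeal B
      rw [map_sub, ev_X]
      have h3 : ev (𝒪 := 𝒪) (fun σ => r σ) (MvPolynomial.C (rt p.1 p.2.1 p.2.2)) =
          algebraMap 𝒪 B (rt p.1 p.2.1 p.2.2) := by simp [ev]
      rw [h3]
      exact hl p.1 p.2.1 p.2.2
    · show ev (𝒪 := 𝒪) (fun σ => r σ) _ ∈ maximalIdeal B
      have h3 : ev (𝒪 := 𝒪) (fun σ => r σ) (MvPolynomial.C c) = algebraMap 𝒪 B c := by simp [ev]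
      rw [h3]
      exact IsArtinianTestAlgebra.algebraMap_mem hB hc
  exact hle hf

end Aux2

end Admissible

section Admissible2

variable {𝒪 : Type} [CommRing 𝒪] [IsLocalRing 𝒪]
variable {𝒟 : ∀ ⦃A : Type⦄ [CommRing A] [IsLocalRing A] [Algebra 𝒪 A], GaloisRepAdic A → Prop}
variable {rt : Gal → M2 𝒪} {sl : Fin 3 → Pos}

/-- the kernel of the classifying map of a normalized lift of type `𝒟` is admissible -/
theorem adm_of_nlift [Finite (ResidueField 𝒪)] (h𝒟 : IsDeformationCondition 𝒪 𝒟)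
    {B : Type} [CommRing B] [IsLocalRing B] [Algebra 𝒪 B]
    (hB : IsArtinianTestAlgebra 𝒪 B) {n : ℕ} (hn : maximalIdeal B ^ n = ⊥)
    {r : Gal →* M2 B} (hr : NLift 𝒟 rt sl r) :
    Adm 𝒟 rt sl n (RingHom.ker (ev (𝒪 := 𝒪) (fun σ => r σ))) := by
  set φ : U 𝒪 →ₐ[𝒪] B := ev (𝒪 := 𝒪) (fun σ => r σ) with hφ
  have hφC : ∀ c : 𝒪, φ (MvPolynomial.C c) = algebraMap 𝒪 B c := fun c => by simp [hφ, ev]
  have hA1 : augIdeal rt ^ n ≤ RingHom.ker φ := by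
    intro f hf
    rw [RingHom.mem_ker]
    have h1 : Ideal.map φ (augIdeal rt) ≤ maximalIdeal B := by
      rw [Ideal.map_le_iff_le_comap]
      intro g hg
      exact ev_mem_of_mem_augIdeal hB hr.lift hg
    have h2 : φ f ∈ Ideal.map φ (augIdeal rt ^ n) := Ideal.mem_map_of_mem _ hf
    rw [Ideal.map_pow] at h2
    have h3 := Ideal.pow_right_mono h1 n h2
    rw [hn] at h3
    exact h3
  have hA2 : RingHom.ker φ ≤ augIdeal rt := by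
    intro f hf
    rw [RingHom.mem_ker] at hf
    rw [mem_augIdeal_iff]
    by_contra hunit
    have hu : IsUnit (evalRt rt f) := by
      by_contra h'
      exact hunit ((IsLocalRing.mem_maximalIdeal _).mpr h')
    have h1 := ev_mem_of_mem_augIdeal hB hr.lift (sub_C_eval_mem_augIdeal rt f)
    rw [map_sub, ← hφ, hf, zero_sub, hφC] at h1
    have h2 : algebraMap 𝒪 B (evalRt rt f) ∈ maximalIdeal B := by simpa using neg_mem h1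
    exact (IsLocalRing.mem_maximalIdeal _).mp h2 (hu.map _)
  have : Finite B := IsArtinianTestAlgebra.finite hB
  set ι : (U 𝒪 ⧸ RingHom.ker φ) →ₐ[𝒪] B := Ideal.kerLiftAlg φ with hι
  have hιinj : Function.Injective ι := Ideal.kerLiftAlg_injective φ
  have hfin : Finite (U 𝒪 ⧸ RingHom.ker φ) := Finite.of_injective ι hιinj
  have hloc : IsLocalRing (U 𝒪 ⧸ RingHom.ker φ) := isLocalRing_quot hA1 hA2
  have hιX : ∀ σ i j, ι (Ideal.Quotient.mk (RingHom.ker φ) (MvPolynomial.X (σ, i, j))) = r σ i j := by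
    intro σ i j
    rw [hι, Ideal.kerLiftAlg_mk, hφ, ev_X]
  have hmatinj : ∀ M M' : M2 (U 𝒪 ⧸ RingHom.ker φ), (∀ i j, ι (M i j) = ι (M' i j)) → M = M' :=
    fun M M' h => Matrix.ext fun i j => hιinj (h i j)
  let T : Gal → M2 (U 𝒪 ⧸ RingHom.ker φ) := fun σ =>
    Matrix.of fun i j => Ideal.Quotient.mk (RingHom.ker φ) (MvPolynomial.X (σ, i, j))
  have hT : ∀ σ i j, ι (T σ i j) = r σ i j := fun σ i j => hιX σ i j
  let r' : Gal →* M2 (U 𝒪 ⧸ RingHom.ker φ) :=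
    { toFun := T
      map_one' := by
        apply hmatinj
        intro i j
        rw [hT, map_one, Matrix.one_apply, Matrix.one_apply]
        split_ifs <;> simp
      map_mul' := by
        intro σ τ
        apply hmatinj
        intro i j
        rw [hT, map_mul, Matrix.mul_apply, Matrix.mul_apply, map_sum]
        exact Finset.sum_congr rfl fun l _ => by rw [map_mul, hT, hT] }
  have hr'X : ∀ σ i j, r' σ i j = Ideal.Quotient.mk (RingHom.ker φ) (MvPolynomial.X (σ, i, j)) :=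
    fun σ i j => rfl
  have hmap : mapHom (ι : (U 𝒪 ⧸ RingHom.ker φ) →+* B) r' = r := by
    ext σ i j
    rw [mapHom_apply]
    exact hT σ i j
  refine ⟨hA1, hA2, hfin, hloc, r', hr'X, ?_⟩
  have hA : IsArtinianTestAlgebra 𝒪 (U 𝒪 ⧸ RingHom.ker φ) := testAlg_quot hA2
  refine NLift.of_map_injective h𝒟 hA hB ι hιinj ?_
  rw [hmap]
  exact hr

theorem Adm.of_le (h𝒟 : IsDeformationCondition 𝒪 𝒟) {m n : ℕ} {𝔟 𝔠 : Ideal (U 𝒪)}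
    (h : Adm 𝒟 rt sl m 𝔟) (h1 : 𝔟 ≤ 𝔠) (h2 : 𝔠 ≤ augIdeal rt) (h3 : augIdeal rt ^ n ≤ 𝔠) :
    Adm 𝒟 rt sl n 𝔠 := by
  obtain ⟨hb1, hb2, hfin, hloc, r, hr, hnl⟩ := h
  have := hfin
  have := hloc
  have hfinc : Finite (U 𝒪 ⧸ 𝔠) :=
    Finite.of_surjective _ (Ideal.Quotient.factor_surjective h1)
  have hlocc : IsLocalRing (U 𝒪 ⧸ 𝔠) := isLocalRing_quot h3 h2
  have hA : IsArtinianTestAlgebra 𝒪 (U 𝒪 ⧸ 𝔟) := testAlg_quot hb2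
  have hC : IsArtinianTestAlgebra 𝒪 (U 𝒪 ⧸ 𝔠) := testAlg_quot h2
  let φ : (U 𝒪 ⧸ 𝔟) →ₐ[𝒪] (U 𝒪 ⧸ 𝔠) := Ideal.Quotient.factorₐ 𝒪 h1
  refine ⟨h3, h2, hfinc, hlocc, mapHom (φ : (U 𝒪 ⧸ 𝔟) →+* (U 𝒪 ⧸ 𝔠)) r, ?_, NLift.map h𝒟 hA hC φ hnl⟩
  intro σ i j
  rw [mapHom_apply, hr]
  rfl

theorem Adm.inf (h𝒟 : IsDeformationCondition 𝒪 𝒟) {n : ℕ} {𝔟₁ 𝔟₂ : Ideal (U 𝒪)}
    (h₁ : Adm 𝒟 rt sl n 𝔟₁) (h₂ : Adm 𝒟 rt sl n 𝔟₂) : Adm 𝒟 rt sl n (𝔟₁ ⊓ 𝔟₂) := by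
  obtain ⟨ha1, hb1, hfin1, hloc1, r₁, hr₁, hn₁⟩ := h₁
  obtain ⟨ha2, hb2, hfin2, hloc2, r₂, hr₂, hn₂⟩ := h₂
  have := hfin1
  have := hfin2
  have := hloc1
  have := hloc2
  have hPa : augIdeal rt ^ n ≤ 𝔟₁ ⊓ 𝔟₂ := le_inf ha1 ha2
  have hPb : 𝔟₁ ⊓ 𝔟₂ ≤ augIdeal rt := inf_le_left.trans hb1
  have hCa : augIdeal rt ^ n ≤ 𝔟₁ ⊔ 𝔟₂ := ha1.trans le_sup_left
  have hCb : 𝔟₁ ⊔ 𝔟₂ ≤ augIdeal rt := sup_le hb1 hb2
  let pA : (U 𝒪 ⧸ 𝔟₁ ⊓ 𝔟₂) →ₐ[𝒪] (U 𝒪 ⧸ 𝔟₁) := Ideal.Quotient.factorₐ 𝒪 inf_le_left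
  let pB : (U 𝒪 ⧸ 𝔟₁ ⊓ 𝔟₂) →ₐ[𝒪] (U 𝒪 ⧸ 𝔟₂) := Ideal.Quotient.factorₐ 𝒪 inf_le_right
  let f : (U 𝒪 ⧸ 𝔟₁) →ₐ[𝒪] (U 𝒪 ⧸ 𝔟₁ ⊔ 𝔟₂) := Ideal.Quotient.factorₐ 𝒪 le_sup_left
  let g : (U 𝒪 ⧸ 𝔟₂) →ₐ[𝒪] (U 𝒪 ⧸ 𝔟₁ ⊔ 𝔟₂) := Ideal.Quotient.factorₐ 𝒪 le_sup_right
  have hpA : ∀ x : U 𝒪, pA (Ideal.Quotient.mk _ x) = Ideal.Quotient.mk _ x := fun x => rfl
  have hpB : ∀ x : U 𝒪, pB (Ideal.Quotient.mk _ x) = Ideal.Quotient.mk _ x := fun x => rfl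
  have hf : ∀ x : U 𝒪, f (Ideal.Quotient.mk _ x) = Ideal.Quotient.mk _ x := fun x => rfl
  have hg : ∀ x : U 𝒪, g (Ideal.Quotient.mk _ x) = Ideal.Quotient.mk _ x := fun x => rfl
  have hinj : Function.Injective (fun x : U 𝒪 ⧸ 𝔟₁ ⊓ 𝔟₂ => (pA x, pB x)) := by
    intro x y hxy
    obtain ⟨u, rfl⟩ := Ideal.Quotient.mk_surjective x
    obtain ⟨v, rfl⟩ := Ideal.Quotient.mk_surjective y
    simp only [Prod.mk.injEq, hpA, hpB] at hxy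
    rw [Ideal.Quotient.eq] at hxy ⊢
    rw [Ideal.Quotient.eq] at hxy
    exact ⟨hxy.1, hxy.2⟩
  have hfinP : Finite (U 𝒪 ⧸ 𝔟₁ ⊓ 𝔟₂) := Finite.of_injective _ hinj
  have hlocP : IsLocalRing (U 𝒪 ⧸ 𝔟₁ ⊓ 𝔟₂) := isLocalRing_quot hPa hPb
  have hfinC : Finite (U 𝒪 ⧸ 𝔟₁ ⊔ 𝔟₂) :=
    Finite.of_surjective f (Ideal.Quotient.factor_surjective le_sup_left)
  have hlocC : IsLocalRing (U 𝒪 ⧸ 𝔟₁ ⊔ 𝔟₂) := isLocalRing_quot hCa hCb
  have hA : IsArtinianTestAlgebra 𝒪 (U 𝒪 ⧸ 𝔟₁) := testAlg_quot hb1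
  have hB : IsArtinianTestAlgebra 𝒪 (U 𝒪 ⧸ 𝔟₂) := testAlg_quot hb2
  have hC : IsArtinianTestAlgebra 𝒪 (U 𝒪 ⧸ 𝔟₁ ⊔ 𝔟₂) := testAlg_quot hCb
  have hP : IsArtinianTestAlgebra 𝒪 (U 𝒪 ⧸ 𝔟₁ ⊓ 𝔟₂) := testAlg_quot hPb
  have hmatinj : ∀ M M' : M2 (U 𝒪 ⧸ 𝔟₁ ⊓ 𝔟₂), (∀ i j, pA (M i j) = pA (M' i j)) →
      (∀ i j, pB (M i j) = pB (M' i j)) → M = M' :=
    fun M M' h h' => Matrix.ext fun i j => hinj (Prod.ext (h i j) (h' i j))
  let T : Gal → M2 (U 𝒪 ⧸ 𝔟₁ ⊓ 𝔟₂) := fun σ =>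
    Matrix.of fun i j => Ideal.Quotient.mk (𝔟₁ ⊓ 𝔟₂) (MvPolynomial.X (σ, i, j))
  have hTA : ∀ σ i j, pA (T σ i j) = r₁ σ i j := fun σ i j => by rw [hr₁]; rfl
  have hTB : ∀ σ i j, pB (T σ i j) = r₂ σ i j := fun σ i j => by rw [hr₂]; rfl
  let r : Gal →* M2 (U 𝒪 ⧸ 𝔟₁ ⊓ 𝔟₂) :=
    { toFun := T
      map_one' := by
        apply hmatinj
        · intro i j
          rw [hTA, map_one, Matrix.one_apply, Matrix.one_apply]
          split_ifs <;> simp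
        · intro i j
          rw [hTB, map_one, Matrix.one_apply, Matrix.one_apply]
          split_ifs <;> simp
      map_mul' := by
        intro σ τ
        apply hmatinj
        · intro i j
          rw [hTA, map_mul, Matrix.mul_apply, Matrix.mul_apply, map_sum]
          exact Finset.sum_congr rfl fun l _ => by rw [map_mul, hTA, hTA]
        · intro i j
          rw [hTB, map_mul, Matrix.mul_apply, Matrix.mul_apply, map_sum]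
          exact Finset.sum_congr rfl fun l _ => by rw [map_mul, hTB, hTB] }
  have hrX : ∀ σ i j, r σ i j = Ideal.Quotient.mk (𝔟₁ ⊓ 𝔟₂) (MvPolynomial.X (σ, i, j)) :=
    fun σ i j => rfl
  have hmapA : mapHom (pA : (U 𝒪 ⧸ 𝔟₁ ⊓ 𝔟₂) →+* (U 𝒪 ⧸ 𝔟₁)) r = r₁ := by
    ext σ i j
    rw [mapHom_apply]
    exact hTA σ i j
  have hmapB : mapHom (pB : (U 𝒪 ⧸ 𝔟₁ ⊓ 𝔟₂) →+* (U 𝒪 ⧸ 𝔟₂)) r = r₂ := by
    ext σ i j
    rw [mapHom_apply]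
    exact hTB σ i j
  have hpow1 : maximalIdeal (U 𝒪 ⧸ 𝔟₁) ^ n = ⊥ := maximalIdeal_quot_pow ha1 hb1
  have hpow2 : maximalIdeal (U 𝒪 ⧸ 𝔟₂) ^ n = ⊥ := maximalIdeal_quot_pow ha2 hb2
  have hpowP : maximalIdeal (U 𝒪 ⧸ 𝔟₁ ⊓ 𝔟₂) ^ n = ⊥ := maximalIdeal_quot_pow hPa hPb
  have hcont : IsCont r := by
    intro k
    obtain ⟨L₁, hL₁, h1⟩ := hn₁.cont n
    obtain ⟨L₂, hL₂, h2⟩ := hn₂.cont n
    have := hL₁
    have := hL₂
    refine ⟨L₁ ⊔ L₂, inferInstance, fun σ hσ i j => ?_⟩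
    have e1 : r₁ σ = 1 := by
      ext i j
      have h3 := h1 σ (fun x hx => hσ x ((le_sup_left : L₁ ≤ L₁ ⊔ L₂) hx)) i j
      rw [hpow1, Ideal.mem_bot, Matrix.sub_apply, sub_eq_zero] at h3
      exact h3
    have e2 : r₂ σ = 1 := by
      ext i j
      have h3 := h2 σ (fun x hx => hσ x ((le_sup_right : L₂ ≤ L₁ ⊔ L₂) hx)) i j
      rw [hpow2, Ideal.mem_bot, Matrix.sub_apply, sub_eq_zero] at h3
      exact h3
    have e : r σ = 1 := by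
      apply hmatinj
      · intro i j
        rw [show pA (r σ i j) = r₁ σ i j from hTA σ i j, e1, Matrix.one_apply, Matrix.one_apply]
        split_ifs <;> simp
      · intro i j
        rw [show pB (r σ i j) = r₂ σ i j from hTB σ i j, e2, Matrix.one_apply, Matrix.one_apply]
        split_ifs <;> simp
    rw [e, sub_self]
    exact Ideal.zero_mem _
  have hlA : IsLocalHom (pA : (U 𝒪 ⧸ 𝔟₁ ⊓ 𝔟₂) →+* (U 𝒪 ⧸ 𝔟₁)) :=
    isLocalHom_of_isNilpotent _ ⟨n, hpowP⟩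
  have hlB : IsLocalHom (pB : (U 𝒪 ⧸ 𝔟₁ ⊓ 𝔟₂) →+* (U 𝒪 ⧸ 𝔟₂)) :=
    isLocalHom_of_isNilpotent _ ⟨n, hpowP⟩
  have hnorm : IsNormalized rt sl r := by
    intro a
    rw [hrX, algebraMap_quot_eq, Ideal.Quotient.eq]
    constructor
    · have h3 := hn₁.norm a
      rw [hr₁, algebraMap_quot_eq, Ideal.Quotient.eq] at h3
      exact h3
    · have h3 := hn₂.norm a
      rw [hr₂, algebraMap_quot_eq, Ideal.Quotient.eq] at h3
      exact h3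
  refine ⟨hPa, hPb, hfinP, hlocP, r, hrX, taut_isLift hPb r hrX, hnorm, hcont, ?_⟩
  have hcA : IsCont (mapHom (pA : (U 𝒪 ⧸ 𝔟₁ ⊓ 𝔟₂) →+* (U 𝒪 ⧸ 𝔟₁)) r) := hcont.mapHom _ hlA
  have hcB : IsCont (mapHom (pB : (U 𝒪 ⧸ 𝔟₁ ⊓ 𝔟₂) →+* (U 𝒪 ⧸ 𝔟₂)) r) := hcont.mapHom _ hlB
  have hDA : 𝒟 ((toAdic r hcont).baseChangeAlong (pA : (U 𝒪 ⧸ 𝔟₁ ⊓ 𝔟₂) →+* (U 𝒪 ⧸ 𝔟₁)) hlA) :=
    h𝒟.of_isEquiv hA (isEquiv_symm (toAdic_baseChangeAlong_isEquiv _ hlA r hcont hcA))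
      (type_of_eq hmapA hn₁.cont hcA hn₁.type)
  have hDB : 𝒟 ((toAdic r hcont).baseChangeAlong (pB : (U 𝒪 ⧸ 𝔟₁ ⊓ 𝔟₂) →+* (U 𝒪 ⧸ 𝔟₂)) hlB) :=
    h𝒟.of_isEquiv hB (isEquiv_symm (toAdic_baseChangeAlong_isEquiv _ hlB r hcont hcB))
      (type_of_eq hmapB hn₂.cont hcB hn₂.type)
  refine h𝒟.of_fibreProduct hA hB hC hP f g pA pB hlA hlB ?_ hinj ?_ hDA hDB
  · apply Ideal.Quotient.algHom_ext
    ext x
    rfl
  · intro a b hab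
    obtain ⟨u, rfl⟩ := Ideal.Quotient.mk_surjective a
    obtain ⟨v, rfl⟩ := Ideal.Quotient.mk_surjective b
    rw [hf, hg, Ideal.Quotient.eq, Submodule.mem_sup] at hab
    obtain ⟨β₁, hβ₁, β₂, hβ₂, hβ⟩ := hab
    refine ⟨Ideal.Quotient.mk _ (u - β₁), ?_, ?_⟩
    · rw [hpA, Ideal.Quotient.eq]
      simpa using neg_mem hβ₁
    · rw [hpB, Ideal.Quotient.eq]
      have h4 : u - β₁ - v = β₂ := by linear_combination -hβ
      rw [h4]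
      exact hβ₂

theorem adm_augIdeal [Finite (ResidueField 𝒪)] (h𝒟 : IsDeformationCondition 𝒪 𝒟)
    {ρbar : ResidualGaloisRep (ResidueField 𝒪)} (D : ResData 𝒪 ρbar)
    (hbar : 𝒟 (GaloisRepAdic.ofResidualGaloisRep ρbar)) :
    Adm 𝒟 D.rt D.sl 1 (augIdeal D.rt) := by
  have hk : IsArtinianTestAlgebra 𝒪 (ResidueField 𝒪) := isArtinianTestAlgebra_residueField
  have hentry : ∀ σ i j, rbarHom ρbar D.b σ i j = algebraMap 𝒪 (ResidueField 𝒪) (D.rt σ i j) :=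
    fun σ i j => (D.hrt σ i j).symm
  have hnl : NLift 𝒟 D.rt D.sl (rbarHom ρbar D.b) := by
    refine ⟨fun σ i j => ?_, fun a => hentry _ _ _, isCont_rbarHom ρbar D.b, ?_⟩
    · rw [hentry, sub_self]
      exact Ideal.zero_mem _
    · exact h𝒟.of_isEquiv hk (isEquiv_symm (toAdic_rbarHom_isEquiv ρbar D.b)) hbar
  have hpow : maximalIdeal (ResidueField 𝒪) ^ 1 = ⊥ := by
    rw [pow_one]
    exact IsLocalRing.maximalIdeal_eq_bot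
  have h := adm_of_nlift h𝒟 hk hpow hnl
  have hker : RingHom.ker (ev (𝒪 := 𝒪) (fun σ => rbarHom ρbar D.b σ)) = augIdeal D.rt := by
    have hhom : (ev (𝒪 := 𝒪) (fun σ => rbarHom ρbar D.b σ) : U 𝒪 →+* ResidueField 𝒪) =
        (residue 𝒪).comp (MvPolynomial.eval (fun p : Pos => D.rt p.1 p.2.1 p.2.2)) := by
      apply MvPolynomial.ringHom_ext
      · intro c
        simp [ev]
      · intro p
        simp [ev, hentry]
    ext x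
    rw [augIdeal, RingHom.mem_ker, RingHom.mem_ker, ← hhom]
    rfl
  rw [hker] at h
  exact h

end Admissible2

end Fermat.Agent.S53

end
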