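import Mathlib

set_option autoImplicit false
set_option linter.unusedSectionVars false

namespace Fermat.Agent.S53

open IsLocalRing

section LimitLemma

variable {P : Type} [CommRing P] [IsLocalRing P] [IsNoetherianRing P]
  [IsAdicComplete (maximalIdeal P) P]

omit [IsLocalRing P] [IsNoetherianRing P] [IsAdicComplete (maximalIdeal P) P] in
/-- a sequence with small successive differences is adically Cauchy -/
theorem limit_aux_cauchy (I : Ideal P) (f : ℕ → P) (hf : ∀ j, f j - f (j + 1) ∈ I ^ j)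
    {a b : ℕ} (hab : a ≤ b) : f a - f b ∈ I ^ a := by
  induction b, hab using Nat.le_induction with
  | base => rw [sub_self]; exact Ideal.zero_mem _
  | succ b hb ih =>
    have h1 : f a - f (b + 1) = (f a - f b) + (f b - f (b + 1)) := by ring
    rw [h1]
    exact Ideal.add_mem _ ih (Ideal.pow_le_pow_right hb (hf b))

omit [IsLocalRing P] [IsNoetherianRing P] [IsAdicComplete (maximalIdeal P) P] in
/-- existence of adic limits -/
theorem limit_aux_exists (I : Ideal P) [IsPrecomplete I P] (f : ℕ → P)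
    (hf : ∀ j, f j - f (j + 1) ∈ I ^ j) : ∃ L : P, ∀ j, f j - L ∈ I ^ j := by
  have hc : ∀ {m n : ℕ}, m ≤ n → f m ≡ f n [SMOD (I ^ m • ⊤ : Submodule P P)] := by
    intro m n hmn
    rw [SModEq.sub_mem, smul_eq_mul, Ideal.mul_top]
    exact limit_aux_cauchy I f hf hmn
  obtain ⟨L, hL⟩ := IsPrecomplete.prec ‹_› hc
  refine ⟨L, fun j => ?_⟩
  have := hL j
  rwa [SModEq.sub_mem, smul_eq_mul, Ideal.mul_top] at this

omit [IsLocalRing P] [IsNoetherianRing P] [IsAdicComplete (maximalIdeal P) P] in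
theorem limit_aux_antitone (K : ℕ → Ideal P) (anti : ∀ n, K (n + 1) ≤ K n) {a b : ℕ}
    (hab : a ≤ b) : K b ≤ K a := by
  induction b, hab using Nat.le_induction with
  | base => exact le_rfl
  | succ b _ ih => exact (anti b).trans ih

theorem limit_le_sup (K : ℕ → Ideal P) (hm : ∀ n, maximalIdeal P ^ (n + 1) ≤ K n)
    (anti : ∀ n, K (n + 1) ≤ K n) (hK : ∀ n, K n ≤ K (n + 1) ⊔ maximalIdeal P ^ (n + 1))
    (n : ℕ) : K n ≤ (⨅ m, K m) ⊔ maximalIdeal P ^ (n + 1) := by
  intro x hx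
  have hstep : ∀ (m : ℕ) (u : P), u ∈ K m →
      ∃ u' : P, u' ∈ K (m + 1) ∧ u - u' ∈ maximalIdeal P ^ (m + 1) := by
    intro m u hu
    obtain ⟨a, ha, b, hb, hab⟩ := Submodule.mem_sup.mp (hK m hu)
    exact ⟨a, ha, by rw [← hab, add_sub_cancel_left]; exact hb⟩
  choose step hstep1 hstep2 using hstep
  let s : (j : ℕ) → {u : P // u ∈ K (n + j)} := fun j =>
    Nat.rec (motive := fun j => {u : P // u ∈ K (n + j)}) ⟨x, hx⟩
      (fun j u => ⟨step (n + j) u.1 u.2, hstep1 (n + j) u.1 u.2⟩) j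
  have hs0 : (s 0).1 = x := rfl
  have hs1 : ∀ j, (s (j + 1)).1 = step (n + j) (s j).1 (s j).2 := fun j => rfl
  have hdiff : ∀ j, (s j).1 - (s (j + 1)).1 ∈ maximalIdeal P ^ (n + j + 1) := by
    intro j
    rw [hs1]
    exact hstep2 (n + j) (s j).1 (s j).2
  have hdiff' : ∀ j, (s j).1 - (s (j + 1)).1 ∈ maximalIdeal P ^ j := fun j =>
    Ideal.pow_le_pow_right (by omega) (hdiff j)
  obtain ⟨L, hL⟩ := limit_aux_exists (maximalIdeal P) (fun j => (s j).1) hdiff'
  have hLmem : L ∈ ⨅ m, K m := by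
    rw [Ideal.mem_iInf]
    intro m
    have h1 : (s (m + 1)).1 ∈ K m :=
      limit_aux_antitone K anti (by omega) (s (m + 1)).2
    have h2 : (s (m + 1)).1 - L ∈ K m := hm m (hL (m + 1))
    have h3 := Ideal.sub_mem _ h1 h2
    rwa [sub_sub_cancel] at h3
  -- all the `s j` are congruent to `x` modulo `𝔪 ^ (n + 1)`
  have hx0 : ∀ j, x - (s j).1 ∈ maximalIdeal P ^ (n + 1) := by
    intro j
    induction j with
    | zero => rw [hs0, sub_self]; exact Ideal.zero_mem _
    | succ j ih =>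
      have h1 : x - (s (j + 1)).1 = (x - (s j).1) + ((s j).1 - (s (j + 1)).1) := by ring
      rw [h1]
      exact Ideal.add_mem _ ih (Ideal.pow_le_pow_right (by omega) (hdiff j))
  have hxL : x - L ∈ maximalIdeal P ^ (n + 1) := by
    have h1 : x - L = (x - (s (n + 1)).1) + ((s (n + 1)).1 - L) := by ring
    rw [h1]
    exact Ideal.add_mem _ (hx0 (n + 1)) (hL (n + 1))
  refine Submodule.mem_sup.mpr ⟨L, hLmem, x - L, hxL, ?_⟩
  ring

theorem limit_exists (K : ℕ → Ideal P) (hm : ∀ n, maximalIdeal P ^ (n + 1) ≤ K n)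
    (anti : ∀ n, K (n + 1) ≤ K n) (hK : ∀ n, K n ≤ K (n + 1) ⊔ maximalIdeal P ^ (n + 1))
    (y : ℕ → P) (hy : ∀ n, y (n + 1) - y n ∈ K n) : ∃ z : P, ∀ n, z - y n ∈ K n := by
  have hdec : ∀ n, ∃ i w : P, i ∈ ⨅ m, K m ∧ w ∈ maximalIdeal P ^ (n + 1) ∧
      y (n + 1) - y n = i + w := by
    intro n
    obtain ⟨a, ha, b, hb, hab⟩ := Submodule.mem_sup.mp (limit_le_sup K hm anti hK n (hy n))
    exact ⟨a, b, ha, hb, hab.symm⟩
  choose i w hi hw hiw using hdec
  let g : ℕ → P := fun n => y n - ∑ l ∈ Finset.range n, i l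
  have hg : ∀ n, g (n + 1) - g n = w n := by
    intro n
    simp only [g, Finset.sum_range_succ]
    have := hiw n
    linear_combination this
  have hg' : ∀ j, g j - g (j + 1) ∈ maximalIdeal P ^ j := by
    intro j
    have h1 : g j - g (j + 1) = -(w j) := by rw [← hg]; ring
    rw [h1]
    exact neg_mem (Ideal.pow_le_pow_right (by omega) (hw j))
  obtain ⟨z, hz⟩ := limit_aux_exists (maximalIdeal P) g hg'
  refine ⟨z, fun n => ?_⟩
  have h1 : z - y n = -(g (n + 1) - z) + w n + -(∑ l ∈ Finset.range n, i l) := by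
    rw [← hg]
    simp only [g]
    ring
  rw [h1]
  refine Ideal.add_mem _ (Ideal.add_mem _ (neg_mem (hm n (hz (n + 1)))) (hm n (hw n))) ?_
  refine neg_mem (Ideal.sum_mem _ fun l _ => ?_)
  exact (Ideal.mem_iInf.mp (hi l)) n

end LimitLemma

end Fermat.Agent.S53
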