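import Fermat.Agent.S53.Admissible

set_option autoImplicit false
set_option linter.unusedSectionVars false

noncomputable section

namespace Fermat.Agent.S53

open IsLocalRing GaloisRep

namespace MinAdmAux

variable {𝒪 : Type} [CommRing 𝒪] [IsLocalRing 𝒪]

/-- The coordinate elements lie in the augmentation ideal. -/
theorem coordElt_mem_augIdeal (rt : Gal → M2 𝒪) {d : ℕ} (co : Fin d → Pos) (l : Fin d) :
    coordElt rt co l ∈ augIdeal rt :=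
  Admissible.X_sub_C_mem_augIdeal rt (co l)

/-- The structure map of `Tan 𝒪` kills the maximal ideal of `𝒪`. -/
theorem tan_algebraMap_eq_zero {c : 𝒪} (hc : c ∈ maximalIdeal 𝒪) :
    algebraMap 𝒪 (Tan 𝒪) c = 0 := by
  rw [tan_algebraMap_eq_tanMk, (residue_eq_zero_iff c).mpr hc]
  exact tanMk_zero

/-- The polynomial ring on the coordinates. -/
abbrev Q (𝒪 : Type) [CommRing 𝒪] (d : ℕ) : Type := MvPolynomial (Fin d) 𝒪

/-- The coordinate map from the small polynomial ring to the big one. -/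
def theta (rt : Gal → M2 𝒪) {d : ℕ} (co : Fin d → Pos) : Q 𝒪 d →ₐ[𝒪] U 𝒪 :=
  MvPolynomial.aeval (coordElt rt co)

/-- The pullback of the augmentation ideal to the small polynomial ring. -/
def nIdeal (rt : Gal → M2 𝒪) {d : ℕ} (co : Fin d → Pos) : Ideal (Q 𝒪 d) :=
  (augIdeal rt).comap (theta rt co : Q 𝒪 d →+* U 𝒪)

theorem finite_quot_nIdeal [Finite (ResidueField 𝒪)] (rt : Gal → M2 𝒪) {d : ℕ}
    (co : Fin d → Pos) : Finite (Q 𝒪 d ⧸ nIdeal rt co) := by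
  have h : nIdeal rt co = RingHom.ker (((residue 𝒪).comp
      (MvPolynomial.eval (fun p : Pos => rt p.1 p.2.1 p.2.2) : U 𝒪 →+* 𝒪)).comp
      (theta rt co : Q 𝒪 d →+* U 𝒪)) := by
    rw [nIdeal, augIdeal, RingHom.comap_ker]
  rw [h]
  exact Finite.of_injective _ (RingHom.kerLift_injective _)

theorem finite_quot_nIdeal_pow [IsNoetherianRing 𝒪] [Finite (ResidueField 𝒪)] (rt : Gal → M2 𝒪)
    {d : ℕ} (co : Fin d → Pos) (n : ℕ) : Finite (Q 𝒪 d ⧸ nIdeal rt co ^ n) := by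
  have := finite_quot_nIdeal rt co
  exact Ideal.finite_quotient_pow (IsNoetherian.noetherian _) n

theorem nIdeal_pow_le (rt : Gal → M2 𝒪) {d : ℕ} (co : Fin d → Pos) {n : ℕ} {𝔟 : Ideal (U 𝒪)}
    (h1 : augIdeal rt ^ n ≤ 𝔟) :
    nIdeal rt co ^ n ≤ RingHom.ker ((Ideal.Quotient.mk 𝔟).comp (theta rt co : Q 𝒪 d →+* U 𝒪)) := by
  intro x hx
  have h2 : (theta rt co : Q 𝒪 d →+* U 𝒪) x ∈ augIdeal rt ^ n :=
    Ideal.le_comap_pow (theta rt co : Q 𝒪 d →+* U 𝒪) n hx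
  rw [RingHom.mem_ker, RingHom.comp_apply, Ideal.Quotient.eq_zero_iff_mem]
  exact h1 h2

theorem mk_comp_theta_surjective (rt : Gal → M2 𝒪) {d : ℕ} (co : Fin d → Pos) {𝔟 : Ideal (U 𝒪)}
    (h : Algebra.adjoin 𝒪 (Set.range fun l : Fin d => Ideal.Quotient.mk 𝔟 (coordElt rt co l)) = ⊤) :
    Function.Surjective ((Ideal.Quotient.mk 𝔟).comp (theta rt co : Q 𝒪 d →+* U 𝒪)) := by
  have h1 : (Ideal.Quotient.mkₐ 𝒪 𝔟).comp (theta rt co) =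
      MvPolynomial.aeval (fun l : Fin d => Ideal.Quotient.mk 𝔟 (coordElt rt co l)) := by
    apply MvPolynomial.algHom_ext
    intro l
    simp [theta]
  rw [Algebra.adjoin_range_eq_range_aeval, ← h1] at h
  intro y
  have hy : y ∈ ((Ideal.Quotient.mkₐ 𝒪 𝔟).comp (theta rt co)).range := by
    rw [h]; exact Algebra.mem_top
  obtain ⟨x, hx⟩ := hy
  exact ⟨x, hx⟩

end MinAdmAux

section Tangent

variable {𝒪 : Type} [CommRing 𝒪] [IsDomain 𝒪] [IsDiscreteValuationRing 𝒪]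
  [Finite (ResidueField 𝒪)]
variable {ρbar : ResidualGaloisRep (ResidueField 𝒪)}
variable {𝒟 : ∀ ⦃A : Type⦄ [CommRing A] [IsLocalRing A] [Algebra 𝒪 A], GaloisRepAdic A → Prop}
variable {rt : Gal → M2 𝒪} {sl : Fin 3 → Pos}

theorem adm_adjoin_eq_top (h𝒟 : IsDeformationCondition 𝒪 𝒟) {d : ℕ} {co : Fin d → Pos}
    (hco : IsCoords 𝒟 rt sl co) {n : ℕ} {𝔟 : Ideal (U 𝒪)} (h : Adm 𝒟 rt sl n 𝔟) :
    Algebra.adjoin 𝒪 (Set.range fun l : Fin d => Ideal.Quotient.mk 𝔟 (coordElt rt co l)) = ⊤ := by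
  obtain ⟨-, h2, -, hloc, r, hr, hN⟩ := id h
  have hE : IsArtinianTestAlgebra 𝒪 (U 𝒪 ⧸ 𝔟) := h.isArtinianTestAlgebra
  have hmax : maximalIdeal (U 𝒪 ⧸ 𝔟) = (augIdeal rt).map (Ideal.Quotient.mk 𝔟) :=
    maximalIdeal_quot h2
  have hC : ∀ (ψ : (U 𝒪 ⧸ 𝔟) →ₐ[𝒪] Tan 𝒪) (c : 𝒪),
      ψ (Ideal.Quotient.mk 𝔟 (MvPolynomial.C c)) = algebraMap 𝒪 (Tan 𝒪) c := by
    intro ψ c
    exact ψ.commutes c
  apply adjoin_eq_top_of_forall_tangent hE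
  · rintro _ ⟨l, rfl⟩
    rw [SetLike.mem_coe, hmax]
    exact Ideal.mem_map_of_mem _ (MinAdmAux.coordElt_mem_augIdeal rt co l)
  · intro ψ hψ x hx
    have hN' := NLift.map h𝒟 hE isArtinianTestAlgebra_tan ψ hN
    have key := hco _ hN' (fun l => by
      have h3 : ψ (Ideal.Quotient.mk 𝔟 (MvPolynomial.X (co l) -
          MvPolynomial.C (rt (co l).1 (co l).2.1 (co l).2.2))) = 0 := hψ _ ⟨l, rfl⟩
      rw [map_sub, map_sub, hC, sub_eq_zero] at h3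
      rw [mapHom_apply, hr]
      exact h3)
    rw [hmax, augIdeal_eq_span, Ideal.map_span] at hx
    have hle : Ideal.span (⇑(Ideal.Quotient.mk 𝔟) ''
        (Set.range (fun p : Pos =>
          (MvPolynomial.X p - MvPolynomial.C (rt p.1 p.2.1 p.2.2) : U 𝒪)) ∪
          MvPolynomial.C '' (maximalIdeal 𝒪 : Set 𝒪))) ≤
        RingHom.ker (ψ : (U 𝒪 ⧸ 𝔟) →+* Tan 𝒪) := by
      rw [Ideal.span_le]
      rintro _ ⟨y, (⟨p, rfl⟩ | ⟨c, hc, rfl⟩), rfl⟩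
      · have h4 := key p
        rw [mapHom_apply, hr] at h4
        rw [SetLike.mem_coe, RingHom.mem_ker]
        change ψ (Ideal.Quotient.mk 𝔟 (MvPolynomial.X p - MvPolynomial.C (rt p.1 p.2.1 p.2.2))) = 0
        rw [map_sub, map_sub, hC, sub_eq_zero]
        exact h4
      · rw [SetLike.mem_coe, RingHom.mem_ker]
        change ψ (Ideal.Quotient.mk 𝔟 (MvPolynomial.C c)) = 0
        rw [hC]
        exact MinAdmAux.tan_algebraMap_eq_zero hc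
    exact hle hx

theorem exists_min_adm (h𝒟 : IsDeformationCondition 𝒪 𝒟) {d : ℕ} {co : Fin d → Pos}
    (hco : IsCoords 𝒟 rt sl co) (n : ℕ) (hne : ∃ 𝔟, Adm 𝒟 rt sl n 𝔟) :
    ∃ 𝔟, Adm 𝒟 rt sl n 𝔟 ∧ ∀ 𝔠, Adm 𝒟 rt sl n 𝔠 → 𝔟 ≤ 𝔠 := by
  have hfinQ : Finite (MinAdmAux.Q 𝒪 d ⧸ MinAdmAux.nIdeal rt co ^ n) :=
    MinAdmAux.finite_quot_nIdeal_pow rt co n
  have hbound : ∀ 𝔟, Adm 𝒟 rt sl n 𝔟 →
      Nat.card (U 𝒪 ⧸ 𝔟) ≤ Nat.card (MinAdmAux.Q 𝒪 d ⧸ MinAdmAux.nIdeal rt co ^ n) := by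
    intro 𝔟 h𝔟
    have hsurj := MinAdmAux.mk_comp_theta_surjective rt co (adm_adjoin_eq_top h𝒟 hco h𝔟)
    have hker := MinAdmAux.nIdeal_pow_le rt co h𝔟.1
    exact Nat.card_le_card_of_surjective
      (Ideal.Quotient.lift (MinAdmAux.nIdeal rt co ^ n)
        ((Ideal.Quotient.mk 𝔟).comp (MinAdmAux.theta rt co : MinAdmAux.Q 𝒪 d →+* U 𝒪))
        (fun x hx => hker hx))
      (Ideal.Quotient.lift_surjective_of_surjective _ _ hsurj)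
  let S : Set ℕ := {m | ∃ 𝔟, Adm 𝒟 rt sl n 𝔟 ∧ Nat.card (U 𝒪 ⧸ 𝔟) = m}
  have hSne : S.Nonempty := by
    obtain ⟨𝔟, h𝔟⟩ := hne
    exact ⟨_, 𝔟, h𝔟, rfl⟩
  have hSbdd : BddAbove S := by
    refine ⟨Nat.card (MinAdmAux.Q 𝒪 d ⧸ MinAdmAux.nIdeal rt co ^ n), ?_⟩
    rintro m ⟨𝔟, h𝔟, rfl⟩
    exact hbound 𝔟 h𝔟
  obtain ⟨𝔟₀, h𝔟₀, hcard⟩ := Nat.sSup_mem hSne hSbdd
  refine ⟨𝔟₀, h𝔟₀, fun 𝔠 h𝔠 => ?_⟩
  have hinf : Adm 𝒟 rt sl n (𝔟₀ ⊓ 𝔠) := Adm.inf h𝒟 h𝔟₀ h𝔠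
  have hle : Nat.card (U 𝒪 ⧸ (𝔟₀ ⊓ 𝔠)) ≤ Nat.card (U 𝒪 ⧸ 𝔟₀) := by
    rw [hcard]
    exact le_csSup hSbdd ⟨𝔟₀ ⊓ 𝔠, hinf, rfl⟩
  have hfin : Finite (U 𝒪 ⧸ (𝔟₀ ⊓ 𝔠)) := hinf.2.2.1
  have hbij : Function.Bijective (Ideal.Quotient.factor (inf_le_left : 𝔟₀ ⊓ 𝔠 ≤ 𝔟₀)) :=
    (Ideal.Quotient.factor_surjective inf_le_left).bijective_of_nat_card_le hle
  intro x hx
  have h0 : Ideal.Quotient.factor (inf_le_left : 𝔟₀ ⊓ 𝔠 ≤ 𝔟₀) (Ideal.Quotient.mk (𝔟₀ ⊓ 𝔠) x) =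
      Ideal.Quotient.factor (inf_le_left : 𝔟₀ ⊓ 𝔠 ≤ 𝔟₀) 0 := by
    rw [Ideal.Quotient.factor_mk, map_zero]
    exact Ideal.Quotient.eq_zero_iff_mem.mpr hx
  have h1 := hbij.1 h0
  exact (Ideal.Quotient.eq_zero_iff_mem.mp h1).2

end Tangent

end Fermat.Agent.S53

end
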