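import Mathlib
import Fermat.Agent.S53.Defs

/-!
# S53, Part IV: the power series ring `𝒪⟦X₁, …, X_d⟧`

Completeness, the residue field, Artinian quotients and the mapping property of the
power series ring with respect to Artinian local `𝒪`-algebras.
-/

set_option autoImplicit false
set_option linter.unusedSectionVars false
noncomputable section
namespace Fermat.Agent.S53
open IsLocalRing

section PSgen0

variable {R : Type} [CommRing R] {d : ℕ}

theorem mvps_algebraMap_poly (q : MvPolynomial (Fin d) R) :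
    algebraMap (MvPolynomial (Fin d) R) (MvPowerSeries (Fin d) R) q =
      (q : MvPowerSeries (Fin d) R) := by
  rw [MvPowerSeries.algebraMap_apply', Algebra.algebraMap_self, MvPowerSeries.map_id]
  rfl

theorem mvps_mem_pow_span_X_of_coeff {n : ℕ} (p : MvPowerSeries (Fin d) R)
    (h : ∀ e : Fin d →₀ ℕ, Finsupp.degree e < n → MvPowerSeries.coeff e p = 0) :
    p ∈ (Ideal.span (Set.range (MvPowerSeries.X : Fin d → MvPowerSeries (Fin d) R))) ^ n := by
  have h1 : MvPowerSeries.toAdicCompletion (Fin d) R p ∈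
      (AdicCompletion.eval (MvPolynomial.idealOfVars (Fin d) R) (MvPolynomial (Fin d) R) n).ker := by
    rw [LinearMap.mem_ker, AdicCompletion.eval_apply,
      MvPowerSeries.toAdicCompletion_apply_eq_mk_truncTotal]
    have h2 : MvPowerSeries.truncTotal n p ∈ MvPolynomial.idealOfVars (Fin d) R ^ n := by
      rw [MvPolynomial.mem_pow_idealOfVars_iff']
      intro e he
      rw [MvPowerSeries.coeff_truncTotal _ he, h e he]
    rw [Ideal.Quotient.eq_zero_iff_mem]
    simpa using h2
  rw [← AdicCompletion.pow_smul_top_eq_ker_eval (MvPolynomial.idealOfVars_fg _ _)] at h1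
  have key : ∀ y ∈ (MvPolynomial.idealOfVars (Fin d) R ^ n • ⊤ :
      Submodule (MvPolynomial (Fin d) R)
        (AdicCompletion (MvPolynomial.idealOfVars (Fin d) R) (MvPolynomial (Fin d) R))),
      (MvPowerSeries.toAdicCompletionAlgEquiv (Fin d) R).symm y ∈
        (Ideal.span (Set.range (MvPowerSeries.X : Fin d → MvPowerSeries (Fin d) R))) ^ n := by
    intro y hy
    refine Submodule.smul_induction_on hy ?_ ?_
    · intro a ha x _
      rw [map_smul, Algebra.smul_def]
      refine Ideal.mul_mem_right _ _ ?_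
      have h3 := Ideal.mem_map_of_mem
        (algebraMap (MvPolynomial (Fin d) R) (MvPowerSeries (Fin d) R)) ha
      rw [Ideal.map_pow, Ideal.map_span, ← Set.range_comp] at h3
      have h4 : (⇑(algebraMap (MvPolynomial (Fin d) R) (MvPowerSeries (Fin d) R)) ∘
          (MvPolynomial.X : Fin d → MvPolynomial (Fin d) R)) = MvPowerSeries.X := by
        funext l
        rw [Function.comp_apply, mvps_algebraMap_poly, MvPolynomial.coe_X]
      rw [h4] at h3
      exact h3
    · intro x y hx hy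
      rw [map_add]
      exact Ideal.add_mem _ hx hy
  have := key _ h1
  rwa [← MvPowerSeries.toAdicCompletionAlgEquiv_apply, AlgEquiv.symm_apply_apply] at this

/-- tail of a power series lies in the `n`-th power of the ideal of variables -/
theorem mvps_sub_truncTotal_mem (n : ℕ) (p : MvPowerSeries (Fin d) R) :
    p - ((MvPowerSeries.truncTotal n p : MvPolynomial (Fin d) R) : MvPowerSeries (Fin d) R) ∈
      (Ideal.span (Set.range (MvPowerSeries.X : Fin d → MvPowerSeries (Fin d) R))) ^ n := by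
  apply mvps_mem_pow_span_X_of_coeff
  intro e he
  rw [map_sub, MvPolynomial.coeff_coe, MvPowerSeries.coeff_truncTotal _ he, sub_self]

end PSgen0

section PSgen

variable {R : Type} [CommRing R] [IsLocalRing R] {d : ℕ}

theorem mvps_mem_maximalIdeal_iff (p : MvPowerSeries (Fin d) R) :
    p ∈ maximalIdeal (MvPowerSeries (Fin d) R) ↔
      MvPowerSeries.constantCoeff p ∈ maximalIdeal R := by
  rw [mem_maximalIdeal, mem_nonunits_iff, MvPowerSeries.isUnit_iff_constantCoeff,
    mem_maximalIdeal, mem_nonunits_iff]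

theorem mvps_X_mem (l : Fin d) :
    (MvPowerSeries.X l : MvPowerSeries (Fin d) R) ∈ maximalIdeal (MvPowerSeries (Fin d) R) := by
  rw [mvps_mem_maximalIdeal_iff, MvPowerSeries.constantCoeff_X]
  exact Ideal.zero_mem _

theorem mvps_C_mem_pow {k : ℕ} {c : R} (hc : c ∈ maximalIdeal R ^ k) :
    (MvPowerSeries.C c : MvPowerSeries (Fin d) R) ∈ maximalIdeal (MvPowerSeries (Fin d) R) ^ k := by
  have h1 : (maximalIdeal R).map (MvPowerSeries.C (σ := Fin d) (R := R)) ≤
      maximalIdeal (MvPowerSeries (Fin d) R) := by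
    rw [Ideal.map_le_iff_le_comap]
    intro x hx
    rw [Ideal.mem_comap, mvps_mem_maximalIdeal_iff, MvPowerSeries.constantCoeff_C]
    exact hx
  have h2 := Ideal.mem_map_of_mem (MvPowerSeries.C (σ := Fin d) (R := R)) hc
  rw [Ideal.map_pow] at h2
  exact Ideal.pow_right_mono h1 k h2

theorem mvps_span_X_le :
    Ideal.span (Set.range (MvPowerSeries.X : Fin d → MvPowerSeries (Fin d) R)) ≤
      maximalIdeal (MvPowerSeries (Fin d) R) := by
  rw [Ideal.span_le]
  rintro _ ⟨l, rfl⟩
  exact mvps_X_mem l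

/-- coefficients of elements of `𝔪^n` -/
theorem mvps_coeff_mem_of_mem_pow (n : ℕ) (p : MvPowerSeries (Fin d) R)
    (hp : p ∈ maximalIdeal (MvPowerSeries (Fin d) R) ^ n) (e : Fin d →₀ ℕ) :
    MvPowerSeries.coeff e p ∈ maximalIdeal R ^ (n - Finsupp.degree e) := by
  induction n generalizing p e with
  | zero => simp
  | succ n ih =>
    rw [pow_succ'] at hp
    refine Submodule.mul_induction_on hp ?_ ?_
    · intro a ha b hb
      classical
      rw [MvPowerSeries.coeff_mul]
      refine Ideal.sum_mem _ ?_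
      rintro ⟨i, j⟩ hij
      have hij : i + j = e := Finset.HasAntidiagonal.mem_antidiagonal.mp hij
      simp only
      by_cases hi : i = 0
      · subst hi
        rw [zero_add] at hij
        subst hij
        have h1 : MvPowerSeries.coeff 0 a ∈ maximalIdeal R := by
          rw [MvPowerSeries.coeff_zero_eq_constantCoeff_apply]
          exact (mvps_mem_maximalIdeal_iff a).mp ha
        have h2 := ih b hb j
        have h3 : MvPowerSeries.coeff 0 a * MvPowerSeries.coeff j b ∈
            maximalIdeal R ^ (n - Finsupp.degree j + 1) := by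
          rw [pow_succ']
          exact Ideal.mul_mem_mul h1 h2
        exact Ideal.pow_le_pow_right (by omega) h3
      · have hdeg : Finsupp.degree i ≠ 0 := by
          rw [Ne, Finsupp.degree_eq_zero_iff]
          exact hi
        have hsum : Finsupp.degree e = Finsupp.degree i + Finsupp.degree j := by
          rw [← hij, map_add]
        have h2 := ih b hb j
        exact Ideal.mul_mem_left _ _ (Ideal.pow_le_pow_right (by omega) h2)
    · intro x y hx hy
      rw [map_add]
      exact Ideal.add_mem _ hx hy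

theorem mvps_prod_X_mem (v : Fin d →₀ ℕ) :
    (v.prod fun s e => (MvPowerSeries.X s : MvPowerSeries (Fin d) R) ^ e) ∈
      maximalIdeal (MvPowerSeries (Fin d) R) ^ (Finsupp.degree v) := by
  rw [Finsupp.prod, Finsupp.degree_apply, ← Finset.prod_pow_eq_pow_sum]
  exact Ideal.prod_mem_prod fun s _ => Ideal.pow_mem_pow (mvps_X_mem s) _

theorem mvps_poly_mem_pow (n : ℕ) (q : MvPolynomial (Fin d) R)
    (hq : ∀ e, MvPolynomial.coeff e q ∈ maximalIdeal R ^ (n - Finsupp.degree e)) :
    (q : MvPowerSeries (Fin d) R) ∈ maximalIdeal (MvPowerSeries (Fin d) R) ^ n := by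
  have hq' : (q : MvPowerSeries (Fin d) R) = ∑ v ∈ q.support,
      ((MvPolynomial.monomial v (MvPolynomial.coeff v q) : MvPolynomial (Fin d) R) :
        MvPowerSeries (Fin d) R) := by
    conv_lhs => rw [q.as_sum]
    rw [← MvPolynomial.coeToMvPowerSeries.ringHom_apply, map_sum]
    rfl
  rw [hq']
  refine Ideal.sum_mem _ fun v _ => ?_
  rw [MvPolynomial.coe_monomial, MvPowerSeries.monomial_eq']
  have h1 := mvps_C_mem_pow (d := d) (hq v)
  have h2 := mvps_prod_X_mem (R := R) v
  have h3 := Ideal.mul_mem_mul h1 h2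
  rw [← pow_add] at h3
  exact Ideal.pow_le_pow_right (by omega) h3

theorem mvps_mem_pow_of_coeff (n : ℕ) (p : MvPowerSeries (Fin d) R)
    (hp : ∀ e, MvPowerSeries.coeff e p ∈ maximalIdeal R ^ (n - Finsupp.degree e)) :
    p ∈ maximalIdeal (MvPowerSeries (Fin d) R) ^ n := by
  have h1 : ((MvPowerSeries.truncTotal n p : MvPolynomial (Fin d) R) :
      MvPowerSeries (Fin d) R) ∈ maximalIdeal (MvPowerSeries (Fin d) R) ^ n := by
    apply mvps_poly_mem_pow
    intro e
    rw [MvPowerSeries.coeff_truncTotal_eq_ite]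
    split_ifs
    · exact hp e
    · exact Ideal.zero_mem _
  have h2 := Ideal.pow_right_mono (mvps_span_X_le (R := R) (d := d)) n
    (mvps_sub_truncTotal_mem n p)
  have h3 := Ideal.add_mem _ h1 h2
  rwa [add_sub_cancel] at h3

theorem mvps_isPrecomplete [IsPrecomplete (maximalIdeal R) R] :
    IsPrecomplete (maximalIdeal (MvPowerSeries (Fin d) R)) (MvPowerSeries (Fin d) R) := by
  refine ⟨fun f hf => ?_⟩
  have hf' : ∀ {m n : ℕ}, m ≤ n → f m - f n ∈ maximalIdeal (MvPowerSeries (Fin d) R) ^ m := by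
    intro m n hmn
    have := hf hmn
    rw [SModEq.sub_mem, smul_eq_mul, Ideal.mul_top] at this
    exact this
  have hex : ∀ e : Fin d →₀ ℕ, ∃ L : R, ∀ n : ℕ,
      MvPowerSeries.coeff e (f (n + Finsupp.degree e)) - L ∈ maximalIdeal R ^ n := by
    intro e
    have hc : ∀ {m n : ℕ}, m ≤ n →
        MvPowerSeries.coeff e (f (m + Finsupp.degree e)) ≡
          MvPowerSeries.coeff e (f (n + Finsupp.degree e))
          [SMOD (maximalIdeal R ^ m • ⊤ : Submodule R R)] := by
      intro m n hmn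
      rw [SModEq.sub_mem, smul_eq_mul, Ideal.mul_top, ← map_sub]
      have h1 := mvps_coeff_mem_of_mem_pow _ _
        (hf' (Nat.add_le_add_right hmn (Finsupp.degree e))) e
      rwa [Nat.add_sub_cancel] at h1
    obtain ⟨L, hL⟩ := IsPrecomplete.prec ‹_› hc
    refine ⟨L, fun n => ?_⟩
    have := hL n
    rwa [SModEq.sub_mem, smul_eq_mul, Ideal.mul_top] at this
  choose L hL using hex
  obtain ⟨F, hF⟩ : ∃ F : MvPowerSeries (Fin d) R, ∀ e, MvPowerSeries.coeff e F = L e :=
    ⟨(fun e => L e : (Fin d →₀ ℕ) → R), fun e => rfl⟩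
  refine ⟨F, fun n => ?_⟩
  rw [SModEq.sub_mem, smul_eq_mul, Ideal.mul_top]
  apply mvps_mem_pow_of_coeff
  intro e
  by_cases hle : Finsupp.degree e ≤ n
  · have h1 := hL e (n - Finsupp.degree e)
    rw [Nat.sub_add_cancel hle] at h1
    rw [map_sub, hF]
    exact h1
  · rw [Nat.sub_eq_zero_of_le (by omega), pow_zero, Ideal.one_eq_top]
    exact Submodule.mem_top

end PSgen

section PSHom0

variable {R : Type} [CommRing R] {d : ℕ} {B : Type} [CommRing B] [Algebra R B]

/-- an algebra hom out of a power series ring sends the `n`-th power of the ideal of variables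
into the `n`-th power of any ideal containing the images of the variables -/
theorem mvps_hom_map_pow_span_X (f : MvPowerSeries (Fin d) R →ₐ[R] B) (J : Ideal B)
    (hf : ∀ l, f (MvPowerSeries.X l) ∈ J) (n : ℕ) (p : MvPowerSeries (Fin d) R)
    (hp : p ∈ (Ideal.span (Set.range
      (MvPowerSeries.X : Fin d → MvPowerSeries (Fin d) R))) ^ n) : f p ∈ J ^ n := by
  have h1 : (Ideal.span (Set.range
      (MvPowerSeries.X : Fin d → MvPowerSeries (Fin d) R))).map (f : MvPowerSeries (Fin d) R →+* B)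
      ≤ J := by
    rw [Ideal.map_span, Ideal.span_le]
    rintro _ ⟨_, ⟨l, rfl⟩, rfl⟩
    exact hf l
  have h2 := Ideal.mem_map_of_mem (f : MvPowerSeries (Fin d) R →+* B) hp
  rw [Ideal.map_pow] at h2
  exact Ideal.pow_right_mono h1 n h2

theorem mvps_hom_coe_poly (f : MvPowerSeries (Fin d) R →ₐ[R] B) (q : MvPolynomial (Fin d) R) :
    f (q : MvPowerSeries (Fin d) R) = MvPolynomial.aeval (fun l => f (MvPowerSeries.X l)) q := by
  have h : f.comp (MvPolynomial.coeToMvPowerSeries.algHom (σ := Fin d) (R := R) R) =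
      MvPolynomial.aeval (fun l => f (MvPowerSeries.X l)) := by
    apply MvPolynomial.algHom_ext
    intro l
    simp
  have := congrArg (fun g => g q) h
  simpa using this

/-- existence of a hom from the power series ring with prescribed nilpotent values -/
theorem mvps_exists_hom (J : Ideal B) (n : ℕ) (hJ : J ^ n = ⊥) (a : Fin d → B)
    (ha : ∀ l, a l ∈ J) :
    ∃ f : MvPowerSeries (Fin d) R →ₐ[R] B, ∀ l, f (MvPowerSeries.X l) = a l := by
  have hker : ∀ q : MvPolynomial (Fin d) R, q ∈ MvPolynomial.idealOfVars (Fin d) R ^ n →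
      MvPolynomial.aeval a q = 0 := by
    intro q hq
    have h1 : (MvPolynomial.idealOfVars (Fin d) R).map
        ((MvPolynomial.aeval a : MvPolynomial (Fin d) R →ₐ[R] B) : MvPolynomial (Fin d) R →+* B)
        ≤ J := by
      rw [MvPolynomial.idealOfVars, Ideal.map_span, Ideal.span_le]
      rintro _ ⟨_, ⟨l, rfl⟩, rfl⟩
      simpa using ha l
    have h2 := Ideal.mem_map_of_mem
      ((MvPolynomial.aeval a : MvPolynomial (Fin d) R →ₐ[R] B) : MvPolynomial (Fin d) R →+* B) hq
    rw [Ideal.map_pow] at h2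
    have h3 := Ideal.pow_right_mono h1 n h2
    rw [hJ] at h3
    simpa using h3
  let e : (MvPolynomial (Fin d) R ⧸ MvPolynomial.idealOfVars (Fin d) R ^ n) →ₐ[R] B :=
    Ideal.Quotient.liftₐ _ (MvPolynomial.aeval a) hker
  have he : ∀ q : MvPolynomial (Fin d) R,
      e (Ideal.Quotient.mk (MvPolynomial.idealOfVars (Fin d) R ^ n) q) = MvPolynomial.aeval a q :=
    fun q => rfl
  let t : MvPowerSeries (Fin d) R →ₐ[R]
      (MvPolynomial (Fin d) R ⧸ MvPolynomial.idealOfVars (Fin d) R ^ n) :=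
    (MvPowerSeries.truncTotalAlgHom (Fin d) R n).restrictScalars R
  refine ⟨e.comp t, fun l => ?_⟩
  have h1 : t (MvPowerSeries.X l) = Ideal.Quotient.mk _ (MvPolynomial.X l) := by
    have h2 := (MvPowerSeries.truncTotalAlgHom (Fin d) R n).commutes' (MvPolynomial.X l)
    rw [mvps_algebraMap_poly, MvPolynomial.coe_X] at h2
    exact h2
  rw [AlgHom.comp_apply, h1]
  rw [he]
  simp

end PSHom0

theorem ps_exists_pow_maximalIdeal_eq_bot (B : Type) [CommRing B] [IsLocalRing B]
    [IsArtinianRing B] : ∃ n : ℕ, maximalIdeal B ^ n = ⊥ := by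
  have h := (isArtinianRing_iff_isNilpotent_maximalIdeal B).mp ‹_›
  obtain ⟨n, hn⟩ := h
  exact ⟨n, hn⟩

section PS
variable (𝒪 : Type) [CommRing 𝒪] [IsDomain 𝒪] [IsDiscreteValuationRing 𝒪]
  [IsAdicComplete (maximalIdeal 𝒪) 𝒪] (d : ℕ)

/-- The power series ring in `d` variables over `𝒪`. -/
abbrev PS : Type := MvPowerSeries (Fin d) 𝒪

instance ps_isAdicComplete : IsAdicComplete (maximalIdeal (PS 𝒪 d)) (PS 𝒪 d) :=
  { toIsHausdorff := inferInstance
    toIsPrecomplete := mvps_isPrecomplete }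

instance ps_isLocalHom : IsLocalHom (algebraMap 𝒪 (PS 𝒪 d)) := by
  refine ⟨fun a ha => ?_⟩
  have h := ha.map (MvPowerSeries.constantCoeff (σ := Fin d) (R := 𝒪))
  rwa [MvPowerSeries.algebraMap_apply, MvPowerSeries.constantCoeff_C, Algebra.algebraMap_self,
    RingHom.id_apply] at h

theorem ps_residue_surjective :
    Function.Surjective (residue (PS 𝒪 d) ∘ algebraMap 𝒪 (PS 𝒪 d)) := by
  intro x
  obtain ⟨p, rfl⟩ := residue_surjective x
  refine ⟨MvPowerSeries.constantCoeff p, ?_⟩
  rw [Function.comp_apply]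
  apply (Ideal.Quotient.eq).mpr
  rw [mvps_mem_maximalIdeal_iff, map_sub, MvPowerSeries.algebraMap_apply,
    MvPowerSeries.constantCoeff_C, Algebra.algebraMap_self, RingHom.id_apply, sub_self]
  exact Ideal.zero_mem _

theorem ps_X_mem (l : Fin d) : (MvPowerSeries.X l : PS 𝒪 d) ∈ maximalIdeal (PS 𝒪 d) :=
  mvps_X_mem l

theorem ps_isArtinianRing_quotient (n : ℕ) :
    IsArtinianRing (PS 𝒪 d ⧸ maximalIdeal (PS 𝒪 d) ^ n) := by
  by_cases hI : maximalIdeal (PS 𝒪 d) ^ n = ⊤
  · have : Subsingleton (PS 𝒪 d ⧸ maximalIdeal (PS 𝒪 d) ^ n) :=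
      Ideal.Quotient.subsingleton_iff.mpr hI
    infer_instance
  have : Nontrivial (PS 𝒪 d ⧸ maximalIdeal (PS 𝒪 d) ^ n) := Ideal.Quotient.nontrivial_iff.mpr hI
  have := IsLocalRing.of_surjective' (Ideal.Quotient.mk (maximalIdeal (PS 𝒪 d) ^ n))
    Ideal.Quotient.mk_surjective
  have := IsLocalHom.of_surjective (Ideal.Quotient.mk (maximalIdeal (PS 𝒪 d) ^ n))
    Ideal.Quotient.mk_surjective
  have hmax : (maximalIdeal (PS 𝒪 d)).map (Ideal.Quotient.mk (maximalIdeal (PS 𝒪 d) ^ n)) =
      maximalIdeal (PS 𝒪 d ⧸ maximalIdeal (PS 𝒪 d) ^ n) := by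
    ext x
    obtain ⟨x, rfl⟩ := Ideal.Quotient.mk_surjective x
    simp [sup_eq_left.mpr (le_maximalIdeal hI)]
  rw [isArtinianRing_iff_isNilpotent_maximalIdeal]
  refine ⟨n, ?_⟩
  rw [← hmax, ← Ideal.map_pow, Ideal.zero_eq_bot, Ideal.map_eq_bot_iff_le_ker, Ideal.mk_ker]

variable {𝒪 d}

theorem ps_exists_hom {B : Type} [CommRing B] [IsLocalRing B] [Algebra 𝒪 B]
    [IsLocalHom (algebraMap 𝒪 B)] [IsArtinianRing B]
    (a : Fin d → B) (ha : ∀ l, a l ∈ maximalIdeal B) :
    ∃ f : PS 𝒪 d →ₐ[𝒪] B, ∀ l, f (MvPowerSeries.X l) = a l := by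
  obtain ⟨n, hn⟩ := ps_exists_pow_maximalIdeal_eq_bot B
  exact mvps_exists_hom (maximalIdeal B) n hn a ha

theorem ps_hom_ext {B : Type} [CommRing B] [IsLocalRing B] [Algebra 𝒪 B]
    [IsLocalHom (algebraMap 𝒪 B)] [IsArtinianRing B]
    (f g : PS 𝒪 d →ₐ[𝒪] B) (hf : ∀ l, f (MvPowerSeries.X l) ∈ maximalIdeal B)
    (h : ∀ l, f (MvPowerSeries.X l) = g (MvPowerSeries.X l)) : f = g := by
  obtain ⟨n, hn⟩ := ps_exists_pow_maximalIdeal_eq_bot B
  have hg : ∀ l, g (MvPowerSeries.X l) ∈ maximalIdeal B := fun l => h l ▸ hf l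
  apply AlgHom.ext
  intro p
  have hp := mvps_sub_truncTotal_mem n p
  have h1 := mvps_hom_map_pow_span_X f (maximalIdeal B) hf n _ hp
  have h2 := mvps_hom_map_pow_span_X g (maximalIdeal B) hg n _ hp
  rw [hn, Ideal.mem_bot, map_sub, sub_eq_zero] at h1 h2
  rw [h1, h2, mvps_hom_coe_poly, mvps_hom_coe_poly]
  congr 2
  funext l
  exact h l

theorem ps_hom_isLocalHom {B : Type} [CommRing B] [IsLocalRing B] [Algebra 𝒪 B]
    [IsLocalHom (algebraMap 𝒪 B)]
    (f : PS 𝒪 d →ₐ[𝒪] B) (hf : ∀ l, f (MvPowerSeries.X l) ∈ maximalIdeal B) :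
    IsLocalHom (f : PS 𝒪 d →+* B) := by
  refine ⟨fun p hp => ?_⟩
  rw [MvPowerSeries.isUnit_iff_constantCoeff]
  have hp' : IsUnit (f p) := hp
  -- decompose `p = C p₀ + (p - C p₀)`
  have h1 : p - MvPowerSeries.C (MvPowerSeries.constantCoeff p) ∈
      (Ideal.span (Set.range (MvPowerSeries.X : Fin d → MvPowerSeries (Fin d) 𝒪))) ^ 1 := by
    apply mvps_mem_pow_span_X_of_coeff
    intro e he
    have he0 : e = 0 := by
      rw [← Finsupp.degree_eq_zero_iff]
      omega
    subst he0
    rw [map_sub, MvPowerSeries.coeff_zero_eq_constantCoeff_apply,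
      MvPowerSeries.coeff_zero_eq_constantCoeff_apply, MvPowerSeries.constantCoeff_C, sub_self]
  have h2 := mvps_hom_map_pow_span_X f (maximalIdeal B) hf 1 _ h1
  rw [pow_one, map_sub] at h2
  have h3 : f (MvPowerSeries.C (MvPowerSeries.constantCoeff p)) =
      algebraMap 𝒪 B (MvPowerSeries.constantCoeff p) := by
    have := f.commutes (MvPowerSeries.constantCoeff p)
    rwa [MvPowerSeries.algebraMap_apply, Algebra.algebraMap_self, RingHom.id_apply] at this
  rw [h3] at h2
  -- `algebraMap p₀` is a unit since it differs from the unit `f p` by an element of `𝔪`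
  have h4 : IsUnit (algebraMap 𝒪 B (MvPowerSeries.constantCoeff p)) := by
    by_contra hnu
    have h5 : algebraMap 𝒪 B (MvPowerSeries.constantCoeff p) ∈ maximalIdeal B := hnu
    have h6 := Ideal.add_mem _ h2 h5
    rw [sub_add_cancel] at h6
    exact h6 hp'
  exact isUnit_of_map_unit (algebraMap 𝒪 B) _ h4

end PS

end Fermat.Agent.S53
end
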