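import Fermat.Agent.S53.Defs
import Fermat.Agent.S53.TestAlg

set_option autoImplicit false
noncomputable section
namespace Fermat.Agent.S53
open IsLocalRing GaloisRep

theorem map_maximalIdeal_of_surjective {A B : Type} [CommRing A] [IsLocalRing A] [CommRing B]
    [IsLocalRing B] (φ : A →+* B) (hφ : Function.Surjective φ) :
    (maximalIdeal A).map φ = maximalIdeal B := by
  have hloc : IsLocalHom φ := IsLocalHom.of_surjective φ hφ
  apply le_antisymm
  · rw [Ideal.map_le_iff_le_comap]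
    intro x hx
    exact map_nonunit φ x hx
  · intro y hy
    obtain ⟨x, rfl⟩ := hφ y
    refine Ideal.mem_map_of_mem φ ?_
    rw [mem_maximalIdeal, mem_nonunits_iff]
    intro hx
    exact hy (hx.map φ)

theorem mem_maximalIdeal_iff_of_surjective {A B : Type} [CommRing A] [IsLocalRing A] [CommRing B]
    [IsLocalRing B] (φ : A →+* B) (hφ : Function.Surjective φ) (x : A) :
    φ x ∈ maximalIdeal B ↔ x ∈ maximalIdeal A := by
  have hloc : IsLocalHom φ := IsLocalHom.of_surjective φ hφ
  constructor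
  · intro h
    rw [mem_maximalIdeal, mem_nonunits_iff]
    intro hx
    exact h (hx.map φ)
  · intro h
    exact map_nonunit φ x h

theorem isLocalRing_quot_pow {A : Type} [CommRing A] [IsLocalRing A] (n : ℕ) :
    IsLocalRing (A ⧸ maximalIdeal A ^ (n + 1)) := by
  have hne : maximalIdeal A ^ (n + 1) ≠ ⊤ := by
    intro htop
    have h1 : maximalIdeal A ^ (n + 1) ≤ maximalIdeal A := Ideal.pow_le_self (Nat.succ_ne_zero n)
    rw [htop] at h1
    exact (maximalIdeal.isMaximal A).ne_top (top_le_iff.mp h1)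
  have : Nontrivial (A ⧸ maximalIdeal A ^ (n + 1)) := Ideal.Quotient.nontrivial_iff.mpr hne
  exact IsLocalRing.of_surjective' (Ideal.Quotient.mk _) Ideal.Quotient.mk_surjective

theorem maximalIdeal_quot_pow_pow {A : Type} [CommRing A] [IsLocalRing A] (n : ℕ)
    [IsLocalRing (A ⧸ maximalIdeal A ^ (n + 1))] :
    maximalIdeal (A ⧸ maximalIdeal A ^ (n + 1)) ^ (n + 1) = ⊥ := by
  rw [← map_maximalIdeal_of_surjective (Ideal.Quotient.mk (maximalIdeal A ^ (n + 1)))
    Ideal.Quotient.mk_surjective, ← Ideal.map_pow, Ideal.map_quotient_self]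

theorem isArtinianTestAlgebra_quot_pow {𝒪 : Type} [CommRing 𝒪] [IsLocalRing 𝒪]
    [Finite (ResidueField 𝒪)]
    {A : Type} [CommRing A] [IsLocalRing A] [IsNoetherianRing A] [Algebra 𝒪 A]
    [IsLocalHom (algebraMap 𝒪 A)] (hsurj : Function.Surjective (residue A ∘ algebraMap 𝒪 A))
    (n : ℕ) [IsLocalRing (A ⧸ maximalIdeal A ^ (n + 1))] :
    IsArtinianTestAlgebra 𝒪 (A ⧸ maximalIdeal A ^ (n + 1)) := by
  have hk : Finite (A ⧸ maximalIdeal A) := by
    have hs : Function.Surjective (ResidueField.map (algebraMap 𝒪 A)) := by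
      intro y
      obtain ⟨c, hc⟩ := hsurj y
      exact ⟨residue 𝒪 c, by simpa using hc⟩
    exact Finite.of_surjective _ hs
  have hfin : Finite (A ⧸ maximalIdeal A ^ (n + 1)) :=
    Ideal.finite_quotient_pow (IsNoetherian.noetherian _) (n + 1)
  have hlocmk : IsLocalHom (Ideal.Quotient.mk (maximalIdeal A ^ (n + 1))) :=
    IsLocalHom.of_surjective _ Ideal.Quotient.mk_surjective
  refine isArtinianTestAlgebra_of_finite ⟨fun c hc => ?_⟩ ?_
  · have h1 : IsUnit (Ideal.Quotient.mk (maximalIdeal A ^ (n + 1)) (algebraMap 𝒪 A c)) := hc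
    exact isUnit_of_map_unit (algebraMap 𝒪 A) c
      (isUnit_of_map_unit (Ideal.Quotient.mk (maximalIdeal A ^ (n + 1))) _ h1)
  · intro y
    obtain ⟨z, rfl⟩ := residue_surjective y
    obtain ⟨x, rfl⟩ := Ideal.Quotient.mk_surjective z
    obtain ⟨c, hc⟩ := hsurj (residue A x)
    refine ⟨c, ?_⟩
    simp only [Function.comp_apply] at hc ⊢
    rw [← sub_eq_zero, ← map_sub, residue_eq_zero_iff] at hc ⊢
    have h2 : algebraMap 𝒪 (A ⧸ maximalIdeal A ^ (n + 1)) c -
        Ideal.Quotient.mk (maximalIdeal A ^ (n + 1)) x =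
        Ideal.Quotient.mk (maximalIdeal A ^ (n + 1)) (algebraMap 𝒪 A c - x) := by
      rw [map_sub]; rfl
    rw [h2]
    exact map_nonunit (Ideal.Quotient.mk (maximalIdeal A ^ (n + 1))) _ hc

theorem eq_of_forall_sub_mem_pow {A : Type} [CommRing A] [IsLocalRing A]
    [IsHausdorff (maximalIdeal A) A] {x y : A} (h : ∀ n : ℕ, x - y ∈ maximalIdeal A ^ n) :
    x = y := by
  rw [← sub_eq_zero]
  refine IsHausdorff.haus (inferInstance : IsHausdorff (maximalIdeal A) A) (x - y) fun n => ?_
  rw [SModEq.zero]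
  have h1 : (maximalIdeal A ^ n • (⊤ : Submodule A A) : Submodule A A) = maximalIdeal A ^ n :=
    Ideal.mul_top _
  rw [h1]
  exact h n

end Fermat.Agent.S53
end
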