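import Fermat.Agent.S53.Tower
set_option autoImplicit false
set_option linter.unusedSectionVars false
set_option linter.style.haveILetI false
noncomputable section
namespace Fermat.Agent.S53
open IsLocalRing GaloisRep
section Tower
variable {𝒪 : Type} [CommRing 𝒪] [IsDomain 𝒪] [IsDiscreteValuationRing 𝒪]
  [IsAdicComplete (maximalIdeal 𝒪) 𝒪] [Finite (ResidueField 𝒪)]
variable {𝒟 : ∀ ⦃A : Type⦄ [CommRing A] [IsLocalRing A] [Algebra 𝒪 A], GaloisRepAdic A → Prop}
variable {rt : Gal → M2 𝒪} {sl : Fin 3 → Pos} {d : ℕ} {co : Fin d → Pos}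
namespace Tow
variable (T : Tow 𝒟 rt sl co)

/-- the universal matrix function lifts the residual representation -/
theorem isLift : IsLift rt T.r := by
  intro σ i j
  haveI := T.isLocalRing_level 0
  obtain ⟨rn, h1, hn⟩ := T.exists_taut 0
  have h := hn.lift σ i j
  rw [h1] at h
  have h2 : (T.g 0 : T.R →+* U 𝒪 ⧸ minAdm 𝒟 rt sl (0 + 1))
      (T.r σ i j - algebraMap 𝒪 T.R (rt σ i j)) ∈
        maximalIdeal (U 𝒪 ⧸ minAdm 𝒟 rt sl (0 + 1)) := by
    have h3 : (T.g 0 : T.R →+* U 𝒪 ⧸ minAdm 𝒟 rt sl (0 + 1))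
        (T.r σ i j - algebraMap 𝒪 T.R (rt σ i j)) =
          T.g 0 (T.zfun (σ, i, j)) -
            algebraMap 𝒪 (U 𝒪 ⧸ minAdm 𝒟 rt sl (0 + 1)) (rt σ i j) := by
      rw [RingHom.coe_coe, map_sub, AlgHom.commutes, r_apply]
    rw [h3]
    exact h
  exact (mem_maximalIdeal_iff_of_surjective
    (T.g 0 : T.R →+* U 𝒪 ⧸ minAdm 𝒟 rt sl (0 + 1)) (T.g_surj 0) _).mp h2

/-- the universal matrix function is normalized -/
theorem isNormalized : IsNormalized rt sl T.r := by
  intro a
  refine sub_eq_zero.mp (T.joint_inj _ fun n => ?_)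
  haveI := T.isLocalRing_level n
  obtain ⟨rn, h1, hn⟩ := T.exists_taut n
  have h := hn.norm a
  rw [h1] at h
  rw [map_sub, AlgHom.commutes, r_apply, h, sub_self]

/-- the universal matrix function is adically continuous -/
theorem isCont : IsCont T.r := by
  intro n
  haveI := T.isLocalRing_level n
  obtain ⟨rn, h1, hn⟩ := T.exists_taut n
  obtain ⟨L, hL, h⟩ := hn.cont (n + 1)
  refine ⟨L, hL, fun σ hσ i j => ?_⟩
  have h2 := h σ hσ i j
  rw [(T.adm n).maximalIdeal_pow, Ideal.mem_bot] at h2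
  have h3 : T.g n ((T.r σ - 1) i j) = (rn σ - 1) i j := by
    rw [Matrix.sub_apply, Matrix.sub_apply, map_sub, r_apply, h1, Matrix.one_apply,
      Matrix.one_apply, apply_ite (T.g n), map_one, map_zero]
  rw [← h3] at h2
  exact Ideal.pow_le_pow_right (Nat.le_succ n) ((T.g_eq_zero_iff n _).mp h2)

end Tow
end Tower
end Fermat.Agent.S53
end
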