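import Fermat.Agent.S53.Admissible
import Fermat.Agent.S53.MinAdm
import Fermat.Agent.S53.PowerSeries
import Fermat.Agent.S53.LimitLemma
import Fermat.Agent.S53.QuotPow
import Fermat.Agent.S53.Normalize
import Fermat.Prelude.Thm_IsLocalRing_isAdicComplete_of_module_finite

set_option autoImplicit false
set_option linter.unusedSectionVars false
set_option linter.style.haveILetI false
noncomputable section
namespace Fermat.Agent.S53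
open IsLocalRing GaloisRep

section Tower
variable {𝒪 : Type} [CommRing 𝒪] [IsDomain 𝒪] [IsDiscreteValuationRing 𝒪]
  [IsAdicComplete (maximalIdeal 𝒪) 𝒪] [Finite (ResidueField 𝒪)]
variable {𝒟 : ∀ ⦃A : Type⦄ [CommRing A] [IsLocalRing A] [Algebra 𝒪 A], GaloisRepAdic A → Prop}
variable {rt : Gal → M2 𝒪} {sl : Fin 3 → Pos} {d : ℕ} {co : Fin d → Pos}

theorem Adm.succ (h𝒟 : IsDeformationCondition 𝒪 𝒟) {n : ℕ} {𝔟 : Ideal (U 𝒪)}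
    (h : Adm 𝒟 rt sl n 𝔟) : Adm 𝒟 rt sl (n + 1) 𝔟 :=
  h.of_le h𝒟 le_rfl h.2.1 ((Ideal.pow_le_pow_right (Nat.le_succ n)).trans h.1)

theorem adm_minAdm (h𝒟 : IsDeformationCondition 𝒪 𝒟) (hco : IsCoords 𝒟 rt sl co)
    (h1 : Adm 𝒟 rt sl 1 (augIdeal rt)) (n : ℕ) :
    Adm 𝒟 rt sl (n + 1) (minAdm 𝒟 rt sl (n + 1)) := by
  have hne : ∃ 𝔟, Adm 𝒟 rt sl (n + 1) 𝔟 :=
    ⟨augIdeal rt, h1.of_le h𝒟 le_rfl le_rfl (Ideal.pow_le_self (Nat.succ_ne_zero n))⟩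
  obtain ⟨𝔟, h𝔟, hmin⟩ := exists_min_adm h𝒟 hco (n + 1) hne
  have : minAdm 𝒟 rt sl (n + 1) = 𝔟 :=
    le_antisymm (sInf_le h𝔟) (le_sInf fun 𝔠 h𝔠 => hmin 𝔠 h𝔠)
  rw [this]; exact h𝔟

theorem minAdm_succ_le (h𝒟 : IsDeformationCondition 𝒪 𝒟) (hco : IsCoords 𝒟 rt sl co)
    (h1 : Adm 𝒟 rt sl 1 (augIdeal rt)) (n : ℕ) :
    minAdm 𝒟 rt sl (n + 2) ≤ minAdm 𝒟 rt sl (n + 1) :=
  sInf_le ((adm_minAdm h𝒟 hco h1 n).succ h𝒟)

theorem minAdm_le_sup (h𝒟 : IsDeformationCondition 𝒪 𝒟) (hco : IsCoords 𝒟 rt sl co)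
    (h1 : Adm 𝒟 rt sl 1 (augIdeal rt)) (n : ℕ) :
    minAdm 𝒟 rt sl (n + 1) ≤ minAdm 𝒟 rt sl (n + 2) ⊔ augIdeal rt ^ (n + 1) := by
  have h2 := adm_minAdm h𝒟 hco h1 (n + 1)
  exact sInf_le (h2.of_le h𝒟 le_sup_left
    (sup_le h2.2.1 (Ideal.pow_le_self (Nat.succ_ne_zero n))) le_sup_right)

theorem coordElt_mem_augIdeal (l : Fin d) : coordElt rt co l ∈ augIdeal rt := by
  rw [augIdeal_eq_span]
  exact Ideal.subset_span (Or.inl ⟨co l, rfl⟩)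

/-- existence of the classifying map of an admissible ideal -/
theorem exists_clf (h𝒟 : IsDeformationCondition 𝒪 𝒟) (hco : IsCoords 𝒟 rt sl co) {n : ℕ}
    {𝔟 : Ideal (U 𝒪)} (h : Adm 𝒟 rt sl n 𝔟) :
    ∃ f : PS 𝒪 d →ₐ[𝒪] U 𝒪 ⧸ 𝔟,
      (∀ l, f (MvPowerSeries.X l) = Ideal.Quotient.mk 𝔟 (coordElt rt co l)) ∧
        Function.Surjective f := by
  haveI := isLocalRing_quot h.1 h.2.1
  have hT := h.isArtinianTestAlgebra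
  haveI := hT.isLocalHom
  haveI := hT.isArtinian
  have hmem : ∀ l, Ideal.Quotient.mk 𝔟 (coordElt rt co l) ∈ maximalIdeal (U 𝒪 ⧸ 𝔟) := by
    intro l
    rw [maximalIdeal_quot h.2.1]
    exact Ideal.mem_map_of_mem _ (coordElt_mem_augIdeal l)
  obtain ⟨f, hf⟩ := ps_exists_hom (𝒪 := 𝒪) (fun l => Ideal.Quotient.mk 𝔟 (coordElt rt co l)) hmem
  refine ⟨f, hf, ?_⟩
  have htop := adm_adjoin_eq_top h𝒟 hco h
  have hle : (⊤ : Subalgebra 𝒪 (U 𝒪 ⧸ 𝔟)) ≤ f.range := by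
    rw [← htop]
    apply Algebra.adjoin_le
    rintro _ ⟨l, rfl⟩
    exact ⟨MvPowerSeries.X l, hf l⟩
  intro y
  exact hle Algebra.mem_top

/-- a classifying map is a local homomorphism -/
theorem clf_mem_iff {n : ℕ} {𝔟 : Ideal (U 𝒪)} (h : Adm 𝒟 rt sl n 𝔟)
    (f : PS 𝒪 d →ₐ[𝒪] U 𝒪 ⧸ 𝔟)
    (hf : ∀ l, f (MvPowerSeries.X l) = Ideal.Quotient.mk 𝔟 (coordElt rt co l)) (x : PS 𝒪 d) :
    f x ∈ (augIdeal rt).map (Ideal.Quotient.mk 𝔟) ↔ x ∈ maximalIdeal (PS 𝒪 d) := by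
  haveI := isLocalRing_quot h.1 h.2.1
  have hT := h.isArtinianTestAlgebra
  haveI := hT.isLocalHom
  have hmem : ∀ l, f (MvPowerSeries.X l) ∈ maximalIdeal (U 𝒪 ⧸ 𝔟) := by
    intro l
    rw [hf l, maximalIdeal_quot h.2.1]
    exact Ideal.mem_map_of_mem _ (coordElt_mem_augIdeal l)
  haveI : IsLocalHom (f : PS 𝒪 d →+* U 𝒪 ⧸ 𝔟) := ps_hom_isLocalHom f hmem
  rw [← maximalIdeal_quot (rt := rt) h.2.1]
  exact map_mem_nonunits_iff (f : PS 𝒪 d →+* U 𝒪 ⧸ 𝔟) x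

theorem clf_pow_le_ker {n : ℕ} {𝔟 : Ideal (U 𝒪)} (h : Adm 𝒟 rt sl n 𝔟)
    (f : PS 𝒪 d →ₐ[𝒪] U 𝒪 ⧸ 𝔟)
    (hf : ∀ l, f (MvPowerSeries.X l) = Ideal.Quotient.mk 𝔟 (coordElt rt co l)) :
    maximalIdeal (PS 𝒪 d) ^ n ≤ RingHom.ker (f : PS 𝒪 d →+* U 𝒪 ⧸ 𝔟) := by
  have h1 : (maximalIdeal (PS 𝒪 d)).map (f : PS 𝒪 d →+* U 𝒪 ⧸ 𝔟) ≤
      (augIdeal rt).map (Ideal.Quotient.mk 𝔟) := by
    rw [Ideal.map_le_iff_le_comap]
    intro x hx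
    exact (clf_mem_iff h f hf x).mpr hx
  have h2 : (maximalIdeal (PS 𝒪 d) ^ n).map (f : PS 𝒪 d →+* U 𝒪 ⧸ 𝔟) ≤ ⊥ :=
    calc (maximalIdeal (PS 𝒪 d) ^ n).map (f : PS 𝒪 d →+* U 𝒪 ⧸ 𝔟)
        = ((maximalIdeal (PS 𝒪 d)).map (f : PS 𝒪 d →+* U 𝒪 ⧸ 𝔟)) ^ n := Ideal.map_pow _ _ _
      _ ≤ ((augIdeal rt).map (Ideal.Quotient.mk 𝔟)) ^ n := Ideal.pow_right_mono h1 n
      _ = (augIdeal rt ^ n).map (Ideal.Quotient.mk 𝔟) := (Ideal.map_pow _ _ _).symm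
      _ ≤ 𝔟.map (Ideal.Quotient.mk 𝔟) := Ideal.map_mono h.1
      _ = ⊥ := Ideal.map_quotient_self 𝔟
  rw [RingHom.ker_eq_comap_bot, ← Ideal.map_le_iff_le_comap]
  exact h2

/-- classifying maps are unique -/
theorem clf_unique {n : ℕ} {𝔟 : Ideal (U 𝒪)} (h : Adm 𝒟 rt sl n 𝔟)
    (f f' : PS 𝒪 d →ₐ[𝒪] U 𝒪 ⧸ 𝔟)
    (hf : ∀ l, f (MvPowerSeries.X l) = Ideal.Quotient.mk 𝔟 (coordElt rt co l))
    (hf' : ∀ l, f' (MvPowerSeries.X l) = Ideal.Quotient.mk 𝔟 (coordElt rt co l)) : f = f' := by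
  haveI := isLocalRing_quot h.1 h.2.1
  have hT := h.isArtinianTestAlgebra
  haveI := hT.isLocalHom
  haveI := hT.isArtinian
  refine ps_hom_ext f f' ?_ fun l => (hf l).trans (hf' l).symm
  intro l
  rw [hf l, maximalIdeal_quot h.2.1]
  exact Ideal.mem_map_of_mem _ (coordElt_mem_augIdeal l)

/-- compatibility of classifying maps with the transition maps -/
theorem clf_factor {m n : ℕ} {𝔟 𝔠 : Ideal (U 𝒪)} (_h𝔟 : Adm 𝒟 rt sl m 𝔟) (h𝔠 : Adm 𝒟 rt sl n 𝔠)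
    (hle : 𝔟 ≤ 𝔠) (f : PS 𝒪 d →ₐ[𝒪] U 𝒪 ⧸ 𝔟) (f' : PS 𝒪 d →ₐ[𝒪] U 𝒪 ⧸ 𝔠)
    (hf : ∀ l, f (MvPowerSeries.X l) = Ideal.Quotient.mk 𝔟 (coordElt rt co l))
    (hf' : ∀ l, f' (MvPowerSeries.X l) = Ideal.Quotient.mk 𝔠 (coordElt rt co l)) :
    (Ideal.Quotient.factorₐ 𝒪 hle).comp f = f' := by
  refine clf_unique h𝔠 _ _ (fun l => ?_) hf'
  rw [AlgHom.comp_apply, hf l]
  rfl

theorem clf_ker_le {m n : ℕ} {𝔟 𝔠 : Ideal (U 𝒪)} (h𝔟 : Adm 𝒟 rt sl m 𝔟) (h𝔠 : Adm 𝒟 rt sl n 𝔠)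
    (hle : 𝔟 ≤ 𝔠) (f : PS 𝒪 d →ₐ[𝒪] U 𝒪 ⧸ 𝔟) (f' : PS 𝒪 d →ₐ[𝒪] U 𝒪 ⧸ 𝔠)
    (hf : ∀ l, f (MvPowerSeries.X l) = Ideal.Quotient.mk 𝔟 (coordElt rt co l))
    (hf' : ∀ l, f' (MvPowerSeries.X l) = Ideal.Quotient.mk 𝔠 (coordElt rt co l)) :
    RingHom.ker (f : PS 𝒪 d →+* U 𝒪 ⧸ 𝔟) ≤ RingHom.ker (f' : PS 𝒪 d →+* U 𝒪 ⧸ 𝔠) := by
  intro x hx
  rw [RingHom.mem_ker] at hx ⊢
  have hx' : f x = 0 := RingHom.mem_ker.mp hx
  have := DFunLike.congr_fun (clf_factor h𝔟 h𝔠 hle f f' hf hf') x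
  rw [AlgHom.comp_apply, hx', map_zero] at this
  exact RingHom.mem_ker.mpr this.symm

theorem clf_ker_le_sup {m n k : ℕ} {𝔟 𝔠 : Ideal (U 𝒪)} (h𝔟 : Adm 𝒟 rt sl m 𝔟)
    (h𝔠 : Adm 𝒟 rt sl n 𝔠) (hle : 𝔠 ≤ 𝔟) (hsup : 𝔟 ≤ 𝔠 ⊔ augIdeal rt ^ k)
    (f : PS 𝒪 d →ₐ[𝒪] U 𝒪 ⧸ 𝔟) (f' : PS 𝒪 d →ₐ[𝒪] U 𝒪 ⧸ 𝔠)
    (hf : ∀ l, f (MvPowerSeries.X l) = Ideal.Quotient.mk 𝔟 (coordElt rt co l))
    (hf' : ∀ l, f' (MvPowerSeries.X l) = Ideal.Quotient.mk 𝔠 (coordElt rt co l))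
    (hsurj' : Function.Surjective f') :
    RingHom.ker (f : PS 𝒪 d →+* U 𝒪 ⧸ 𝔟) ≤
      RingHom.ker (f' : PS 𝒪 d →+* U 𝒪 ⧸ 𝔠) ⊔ maximalIdeal (PS 𝒪 d) ^ k := by
  intro x hx
  have hx' : f x = 0 := RingHom.mem_ker.mp hx
  have h0 := DFunLike.congr_fun (clf_factor h𝔠 h𝔟 hle f' f hf' hf) x
  rw [AlgHom.comp_apply, hx'] at h0
  have h1 : f' x ∈ 𝔟.map (Ideal.Quotient.mk 𝔠) := by
    rw [← Ideal.Quotient.factor_ker hle]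
    exact RingHom.mem_ker.mpr h0
  have h2 : (augIdeal rt).map (Ideal.Quotient.mk 𝔠) ≤
      (maximalIdeal (PS 𝒪 d)).map (f' : PS 𝒪 d →+* U 𝒪 ⧸ 𝔠) := by
    rw [Ideal.map_le_iff_le_comap]
    intro u hu
    obtain ⟨y, hy⟩ := hsurj' (Ideal.Quotient.mk 𝔠 u)
    have hy' : y ∈ maximalIdeal (PS 𝒪 d) :=
      (clf_mem_iff h𝔠 f' hf' y).mp (hy ▸ Ideal.mem_map_of_mem _ hu)
    rw [Ideal.mem_comap, ← hy]
    exact Ideal.mem_map_of_mem (f' : PS 𝒪 d →+* U 𝒪 ⧸ 𝔠) hy'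
  have h3 : 𝔟.map (Ideal.Quotient.mk 𝔠) ≤
      (maximalIdeal (PS 𝒪 d) ^ k).map (f' : PS 𝒪 d →+* U 𝒪 ⧸ 𝔠) :=
    calc 𝔟.map (Ideal.Quotient.mk 𝔠)
        ≤ (𝔠 ⊔ augIdeal rt ^ k).map (Ideal.Quotient.mk 𝔠) := Ideal.map_mono hsup
      _ = 𝔠.map (Ideal.Quotient.mk 𝔠) ⊔ (augIdeal rt ^ k).map (Ideal.Quotient.mk 𝔠) :=
          Ideal.map_sup _ _ _
      _ = ((augIdeal rt).map (Ideal.Quotient.mk 𝔠)) ^ k := by
          rw [Ideal.map_quotient_self, bot_sup_eq, Ideal.map_pow]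
      _ ≤ ((maximalIdeal (PS 𝒪 d)).map (f' : PS 𝒪 d →+* U 𝒪 ⧸ 𝔠)) ^ k :=
          Ideal.pow_right_mono h2 k
      _ = _ := (Ideal.map_pow _ _ _).symm
  obtain ⟨y, hy, hyx⟩ := (Ideal.mem_map_iff_of_surjective (f' : PS 𝒪 d →+* U 𝒪 ⧸ 𝔠) hsurj').mp
    (h3 h1)
  have hk : x - y ∈ RingHom.ker (f' : PS 𝒪 d →+* U 𝒪 ⧸ 𝔠) := by
    rw [RingHom.mem_ker, map_sub]
    exact sub_eq_zero.mpr hyx.symm
  have : x = (x - y) + y := by ring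
  rw [this]
  exact Submodule.add_mem_sup hk hy

/-- The tower of minimal admissible ideals with its classifying maps. -/
structure Tow (𝒟 : ∀ ⦃A : Type⦄ [CommRing A] [IsLocalRing A] [Algebra 𝒪 A], GaloisRepAdic A → Prop)
    (rt : Gal → M2 𝒪) (sl : Fin 3 → Pos) {d : ℕ} (co : Fin d → Pos) : Type where
  h𝒟 : IsDeformationCondition 𝒪 𝒟
  hco : IsCoords 𝒟 rt sl co
  adm : ∀ n, Adm 𝒟 rt sl (n + 1) (minAdm 𝒟 rt sl (n + 1))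
  anti : ∀ n, minAdm 𝒟 rt sl (n + 2) ≤ minAdm 𝒟 rt sl (n + 1)
  sup : ∀ n, minAdm 𝒟 rt sl (n + 1) ≤ minAdm 𝒟 rt sl (n + 2) ⊔ augIdeal rt ^ (n + 1)
  f : ∀ n, PS 𝒪 d →ₐ[𝒪] U 𝒪 ⧸ minAdm 𝒟 rt sl (n + 1)
  f_X : ∀ n l, f n (MvPowerSeries.X l) =
    Ideal.Quotient.mk (minAdm 𝒟 rt sl (n + 1)) (coordElt rt co l)
  f_surj : ∀ n, Function.Surjective (f n)

theorem exists_tow (h𝒟 : IsDeformationCondition 𝒪 𝒟) (hco : IsCoords 𝒟 rt sl co)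
    (h1 : Adm 𝒟 rt sl 1 (augIdeal rt)) : Nonempty (Tow 𝒟 rt sl co) := by
  choose f hf hsurj using fun n => exists_clf h𝒟 hco (adm_minAdm h𝒟 hco h1 n)
  exact ⟨{ h𝒟 := h𝒟, hco := hco, adm := adm_minAdm h𝒟 hco h1,
           anti := minAdm_succ_le h𝒟 hco h1, sup := minAdm_le_sup h𝒟 hco h1,
           f := f, f_X := hf, f_surj := hsurj }⟩

namespace Tow

variable (T : Tow 𝒟 rt sl co)

/-- the kernels of the classifying maps -/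
def K (n : ℕ) : Ideal (PS 𝒪 d) := RingHom.ker (T.f n : PS 𝒪 d →+* U 𝒪 ⧸ minAdm 𝒟 rt sl (n + 1))

theorem mem_K {n : ℕ} {x : PS 𝒪 d} : x ∈ T.K n ↔ T.f n x = 0 := RingHom.mem_ker

theorem pow_le_K (n : ℕ) : maximalIdeal (PS 𝒪 d) ^ (n + 1) ≤ T.K n :=
  clf_pow_le_ker (T.adm n) (T.f n) (T.f_X n)

theorem K_anti (n : ℕ) : T.K (n + 1) ≤ T.K n :=
  clf_ker_le (T.adm (n + 1)) (T.adm n) (T.anti n) (T.f (n + 1)) (T.f n) (T.f_X (n + 1)) (T.f_X n)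

theorem K_sup (n : ℕ) : T.K n ≤ T.K (n + 1) ⊔ maximalIdeal (PS 𝒪 d) ^ (n + 1) :=
  clf_ker_le_sup (T.adm n) (T.adm (n + 1)) (T.anti n) (T.sup n) (T.f n) (T.f (n + 1)) (T.f_X n)
    (T.f_X (n + 1)) (T.f_surj (n + 1))

theorem K_le_max (n : ℕ) : T.K n ≤ maximalIdeal (PS 𝒪 d) := by
  intro x hx
  refine (clf_mem_iff (T.adm n) (T.f n) (T.f_X n) x).mp ?_
  rw [T.mem_K.mp hx]
  exact Ideal.zero_mem _

/-- the kernel of the map to the limit -/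
def Kinf : Ideal (PS 𝒪 d) := ⨅ n, T.K n

theorem Kinf_le (n : ℕ) : T.Kinf ≤ T.K n := iInf_le _ n

theorem K_le_Kinf_sup (n : ℕ) : T.K n ≤ T.Kinf ⊔ maximalIdeal (PS 𝒪 d) ^ (n + 1) :=
  limit_le_sup T.K T.pow_le_K T.K_anti T.K_sup n

/-- the universal ring -/
abbrev R : Type := PS 𝒪 d ⧸ T.Kinf

instance : Nontrivial T.R :=
  Ideal.Quotient.nontrivial_iff.mpr fun h =>
    (maximalIdeal.isMaximal (PS 𝒪 d)).ne_top (top_le_iff.mp (h ▸ (T.Kinf_le 0).trans (T.K_le_max 0)))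

instance : IsLocalRing T.R :=
  IsLocalRing.of_surjective' (Ideal.Quotient.mk T.Kinf) Ideal.Quotient.mk_surjective

instance : IsLocalHom (algebraMap (PS 𝒪 d) T.R) :=
  IsLocalHom.of_surjective _ Ideal.Quotient.mk_surjective

instance : IsAdicComplete (maximalIdeal T.R) T.R :=
  IsLocalRing.isAdicComplete_of_module_finite (𝒪 := PS 𝒪 d) (T := T.R)

instance : IsLocalHom (algebraMap 𝒪 T.R) := by
  have h : algebraMap 𝒪 T.R = (algebraMap (PS 𝒪 d) T.R).comp (algebraMap 𝒪 (PS 𝒪 d)) :=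
    IsScalarTower.algebraMap_eq 𝒪 (PS 𝒪 d) T.R
  rw [h]
  infer_instance

theorem residue_surjective : Function.Surjective (residue T.R ∘ algebraMap 𝒪 T.R) := by
  intro y
  obtain ⟨x, rfl⟩ := IsLocalRing.residue_surjective y
  obtain ⟨p, rfl⟩ := Ideal.Quotient.mk_surjective x
  obtain ⟨c, hc⟩ := ps_residue_surjective 𝒪 d (residue (PS 𝒪 d) p)
  refine ⟨c, ?_⟩
  have hc' : algebraMap 𝒪 (PS 𝒪 d) c - p ∈ maximalIdeal (PS 𝒪 d) := by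
    rw [← Ideal.Quotient.eq]
    exact hc
  have h2 : Ideal.Quotient.mk T.Kinf (algebraMap 𝒪 (PS 𝒪 d) c - p) ∈ maximalIdeal T.R :=
    (mem_maximalIdeal_iff_of_surjective (Ideal.Quotient.mk T.Kinf)
      Ideal.Quotient.mk_surjective _).mpr hc'
  rw [map_sub] at h2
  have h3 := (Ideal.Quotient.eq (I := maximalIdeal T.R)).mpr h2
  exact h3

/-- the projections from the universal ring to the levels of the tower -/
def g (n : ℕ) : T.R →ₐ[𝒪] U 𝒪 ⧸ minAdm 𝒟 rt sl (n + 1) :=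
  Ideal.Quotient.liftₐ T.Kinf (T.f n) fun _ ha => T.mem_K.mp (T.Kinf_le n ha)

@[simp] theorem g_mk (n : ℕ) (x : PS 𝒪 d) : T.g n (Ideal.Quotient.mk T.Kinf x) = T.f n x := rfl

theorem g_surj (n : ℕ) : Function.Surjective (T.g n) := fun y => by
  obtain ⟨x, rfl⟩ := T.f_surj n y
  exact ⟨Ideal.Quotient.mk T.Kinf x, rfl⟩

theorem g_eq_zero_iff (n : ℕ) (x : T.R) : T.g n x = 0 ↔ x ∈ maximalIdeal T.R ^ (n + 1) := by
  obtain ⟨p, rfl⟩ := Ideal.Quotient.mk_surjective x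
  rw [g_mk, ← T.mem_K, ← map_maximalIdeal_of_surjective (Ideal.Quotient.mk T.Kinf)
    Ideal.Quotient.mk_surjective, ← Ideal.map_pow]
  constructor
  · intro hp
    obtain ⟨a, ha, b, hb, rfl⟩ := Submodule.mem_sup.mp (T.K_le_Kinf_sup n hp)
    rw [map_add, Ideal.Quotient.eq_zero_iff_mem.mpr ha, zero_add]
    exact Ideal.mem_map_of_mem _ hb
  · intro hp
    obtain ⟨q, hq, hqp⟩ := (Ideal.mem_map_iff_of_surjective (Ideal.Quotient.mk T.Kinf)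
      Ideal.Quotient.mk_surjective).mp hp
    have h1 : p - q ∈ T.Kinf := Ideal.Quotient.eq.mp hqp.symm
    have h2 : p = (p - q) + q := by ring
    rw [h2]
    exact (T.K n).add_mem (T.Kinf_le n h1) (T.pow_le_K n hq)

theorem joint_inj (x : T.R) (h : ∀ n, T.g n x = 0) : x = 0 := by
  obtain ⟨p, rfl⟩ := Ideal.Quotient.mk_surjective x
  refine Ideal.Quotient.eq_zero_iff_mem.mpr ?_
  exact (Ideal.mem_iInf).mpr fun n => T.mem_K.mpr (h n)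

theorem g_factor (n : ℕ) :
    (Ideal.Quotient.factorₐ 𝒪 (T.anti n)).comp (T.g (n + 1)) = T.g n := by
  ext x
  obtain ⟨p, rfl⟩ := Ideal.Quotient.mk_surjective x
  exact DFunLike.congr_fun (clf_factor (T.adm (n + 1)) (T.adm n) (T.anti n) (T.f (n + 1)) (T.f n)
    (T.f_X (n + 1)) (T.f_X n)) p

theorem exists_z (p : Pos) : ∃ z : T.R, ∀ n,
    T.g n z = Ideal.Quotient.mk (minAdm 𝒟 rt sl (n + 1)) (MvPolynomial.X p) := by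
  choose y hy using fun n => T.f_surj n
    (Ideal.Quotient.mk (minAdm 𝒟 rt sl (n + 1)) (MvPolynomial.X p))
  have hyK : ∀ n, y (n + 1) - y n ∈ T.K n := by
    intro n
    rw [T.mem_K, map_sub, hy n]
    have := DFunLike.congr_fun (clf_factor (T.adm (n + 1)) (T.adm n) (T.anti n) (T.f (n + 1))
      (T.f n) (T.f_X (n + 1)) (T.f_X n)) (y (n + 1))
    rw [AlgHom.comp_apply, hy (n + 1)] at this
    rw [← this]
    exact sub_self _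
  obtain ⟨z, hz⟩ := limit_exists T.K T.pow_le_K T.K_anti T.K_sup y hyK
  refine ⟨Ideal.Quotient.mk T.Kinf z, fun n => ?_⟩
  rw [g_mk, ← hy n]
  exact sub_eq_zero.mp ((map_sub (T.f n) z (y n)).symm.trans (T.mem_K.mp (hz n)))

/-- the universal matrix entries -/
def zfun (p : Pos) : T.R := (T.exists_z p).choose

theorem g_zfun (n : ℕ) (p : Pos) :
    T.g n (T.zfun p) = Ideal.Quotient.mk (minAdm 𝒟 rt sl (n + 1)) (MvPolynomial.X p) :=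
  (T.exists_z p).choose_spec n

/-- the map from the big polynomial ring to the universal ring -/
def ι : U 𝒪 →ₐ[𝒪] T.R := MvPolynomial.aeval T.zfun

@[simp] theorem ι_X (p : Pos) : T.ι (MvPolynomial.X p) = T.zfun p := by simp [ι]

theorem g_ι (n : ℕ) (u : U 𝒪) :
    T.g n (T.ι u) = Ideal.Quotient.mk (minAdm 𝒟 rt sl (n + 1)) u := by
  have : (T.g n).comp T.ι = Ideal.Quotient.mkₐ 𝒪 (minAdm 𝒟 rt sl (n + 1)) := by
    apply MvPolynomial.algHom_ext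
    intro p
    rw [AlgHom.comp_apply, ι_X, g_zfun]
    rfl
  exact DFunLike.congr_fun this u

/-- the tautological lift on level `n` of the tower -/
theorem exists_taut (n : ℕ) [IsLocalRing (U 𝒪 ⧸ minAdm 𝒟 rt sl (n + 1))] :
    ∃ rn : Gal →* M2 (U 𝒪 ⧸ minAdm 𝒟 rt sl (n + 1)),
      (∀ σ i j, rn σ i j = T.g n (T.zfun (σ, i, j))) ∧ NLift 𝒟 rt sl rn := by
  obtain ⟨rn, h1, h2⟩ := (T.adm n).exists_taut
  exact ⟨rn, fun σ i j => by rw [h1, T.g_zfun], h2⟩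

include T in
theorem isLocalRing_level (n : ℕ) : IsLocalRing (U 𝒪 ⧸ minAdm 𝒟 rt sl (n + 1)) :=
  isLocalRing_quot (T.adm n).1 (T.adm n).2.1

/-- the universal normalized lift -/
def r : Gal →* M2 T.R where
  toFun σ := Matrix.of fun i j => T.zfun (σ, i, j)
  map_one' := by
    ext i j
    refine sub_eq_zero.mp (T.joint_inj _ fun n => ?_)
    haveI := T.isLocalRing_level n
    obtain ⟨rn, h1, -⟩ := T.exists_taut n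
    rw [map_sub, Matrix.of_apply, ← h1, map_one, Matrix.one_apply, Matrix.one_apply,
      apply_ite (T.g n), map_one, map_zero, sub_self]
  map_mul' σ τ := by
    ext i j
    refine sub_eq_zero.mp (T.joint_inj _ fun n => ?_)
    haveI := T.isLocalRing_level n
    obtain ⟨rn, h1, -⟩ := T.exists_taut n
    rw [map_sub, Matrix.of_apply, ← h1, map_mul, Matrix.mul_apply, Matrix.mul_apply, map_sum]
    simp only [Matrix.of_apply, map_mul, ← h1]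
    exact sub_self _

@[simp] theorem r_apply (σ : Gal) (i j : Fin 2) : T.r σ i j = T.zfun (σ, i, j) := rfl

theorem r_eq_ι (σ : Gal) (i j : Fin 2) : T.r σ i j = T.ι (MvPolynomial.X (σ, i, j)) := by
  rw [r_apply, ι_X]

theorem mapHom_g_r (n : ℕ) [IsLocalRing (U 𝒪 ⧸ minAdm 𝒟 rt sl (n + 1))]
    (rn : Gal →* M2 (U 𝒪 ⧸ minAdm 𝒟 rt sl (n + 1)))
    (h : ∀ σ i j, rn σ i j = T.g n (T.zfun (σ, i, j))) :
    mapHom (T.g n : T.R →+* U 𝒪 ⧸ minAdm 𝒟 rt sl (n + 1)) T.r = rn := by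
  ext σ i j
  rw [mapHom_apply, h]
  rfl

end Tow

end Tower

end Fermat.Agent.S53
end
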